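import Mathlib
import Fermat.Agent.S40x.R2.Transitive
import Fermat.Agent.S40x.Edge.EdgeField

/-!
# P-S44, block C3, leaf C3-ASM (helper22): the abstract arithmetic core of `c3_diagonal`

Everything here is Mathlib + the landed leaves `R2/Transitive` (C3-TRANS, helper30) and
`Edge/EdgeField` (C3-EDGE, helper54).  The file fixes the exact shape in which the instance layers
(C3-ET, C3-CFE, C3-SLOPE, C3-DESC + C3-KUM) have to deliver their outputs.

`E0 / F0` is the cyclic extension `FL_0 / F_0` (the `I`-fixed parts of the cover field and of the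
modular function field), `σ` a generator of its Galois group, `ft ∈ E0` the descended Kummer
function with `σ ft = a * h ^ p * ft`, `a ∈ F0` (in fact a constant of the inertia field).

* `node_slope_eq` : at ONE node ring `R` of `E0` (a UFD with primes `u, u'`, fraction field `E0`)
  with the `u`-adic and `u'`-adic order functions `winf, wzero`, the edge factorisation
  (`Edge.exists_edge_factorisation_field`, hypothesis `H` = C3-CFE) and the slope rule
  (hypothesis `hsl` = C3-SLOPE) give `n = wzero ft - winf ft` in `ZMod p`.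
* `smooth_slope_eq_zero` : the same at a smooth point (one vertical prime): `n = 0`.
* `c3_core_pair` : for two nodes, C3-TRANS (`ord_sub_dvd_of_generator_gal`, used once for each of
  the two valuations of `F0`) gives `n = n'`.
-/

set_option autoImplicit false

namespace Fermat.Agent.S40x.R2.Asm

open Fermat.Agent.S40x.R2.Transitive Fermat.Agent.S40x.Edge

section OneNode

variable {E0 : Type*} [Field E0]
variable {R : Type*} [CommRing R] [IsDomain R] [UniqueFactorizationMonoid R] [Algebra R E0]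
  [IsFractionRing R E0]

/-- **One node.**  `n` is the slope of the class at the node (an element of `ZMod p`), `hsl` the
slope rule of C3-SLOPE, `H` the divisibility of the horizontal multiplicities of C3-CFE. -/
theorem node_slope_eq {p : ℕ} (hp : p ≠ 0) {u u' : R} (hu : Prime u) (hu' : Prime u')
    {Winf Wzero : ValuationSubring E0} {winf wzero : E0 → ℤ}
    (hwinf : IsOrd Winf winf) (hwzero : IsOrd Wzero wzero)
    (hinf_u : winf (algebraMap R E0 u) = 1)
    (hinf_0 : ∀ r : R, ¬ u ∣ r → winf (algebraMap R E0 r) = 0)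
    (hzero_u' : wzero (algebraMap R E0 u') = 1)
    (hzero_0 : ∀ r : R, ¬ u' ∣ r → wzero (algebraMap R E0 r) = 0)
    (hndvd : ¬ u ∣ u') (hndvd' : ¬ u' ∣ u)
    {ft : E0} (hft : ft ≠ 0)
    (H : ∀ h : R, Prime h → ¬ Associated h u → ¬ Associated h u' →
      ∀ f1 f2 : R, f2 ≠ 0 → ft * algebraMap R E0 f2 = algebraMap R E0 f1 →
      ∀ n1 n2 : ℕ, h ^ n1 ∣ f1 → ¬ h ^ (n1 + 1) ∣ f1 → h ^ n2 ∣ f2 → ¬ h ^ (n2 + 1) ∣ f2 →
        (p : ℤ) ∣ (n1 : ℤ) - n2)
    (n : ZMod p)
    (hsl : ∀ (A B : ℤ) (ε : Rˣ) (g1 g2 : R), ¬ u ∣ g1 → ¬ u' ∣ g1 → ¬ u ∣ g2 → ¬ u' ∣ g2 →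
      ft = algebraMap R E0 ε * algebraMap R E0 u ^ A * algebraMap R E0 u' ^ B *
        (algebraMap R E0 g1 / algebraMap R E0 g2) ^ p → n = ((B - A : ℤ) : ZMod p)) :
    n = ((wzero ft - winf ft : ℤ) : ZMod p) := by
  obtain ⟨A, B, ε, g1, g2, h1, h1', h2, h2', hfact⟩ :=
    exists_edge_factorisation_field hp hu hu' ft hft H
  have hinj : Function.Injective (algebraMap R E0) := IsFractionRing.injective R E0
  have ne0 : ∀ r : R, r ≠ 0 → algebraMap R E0 r ≠ 0 := fun r hr h0 =>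
    hr (hinj (by rw [h0, map_zero]))
  have hg1 : g1 ≠ 0 := by rintro rfl; exact h1 (dvd_zero u)
  have hg2 : g2 ≠ 0 := by rintro rfl; exact h2 (dvd_zero u)
  have hεu : ¬ u ∣ (ε : R) := fun hd => hu.not_isUnit (isUnit_of_dvd_unit hd ε.isUnit)
  have hεu' : ¬ u' ∣ (ε : R) := fun hd => hu'.not_isUnit (isUnit_of_dvd_unit hd ε.isUnit)
  have hεK := ne0 (ε : R) ε.ne_zero
  have huK := ne0 u hu.ne_zero
  have hu'K := ne0 u' hu'.ne_zero
  have hg1K := ne0 g1 hg1
  have hg2K := ne0 g2 hg2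
  have hq : algebraMap R E0 g1 / algebraMap R E0 g2 ≠ 0 := div_ne_zero hg1K hg2K
  -- the value of an order function on the factorisation
  have key : ∀ {W : ValuationSubring E0} {w : E0 → ℤ}, IsOrd W w →
      w ft = w (algebraMap R E0 ε) + A * w (algebraMap R E0 u) + B * w (algebraMap R E0 u') +
        p * (w (algebraMap R E0 g1) - w (algebraMap R E0 g2)) := by
    intro W w hw
    rw [hfact, hw.map_mul (mul_ne_zero (mul_ne_zero hεK (zpow_ne_zero _ huK))
      (zpow_ne_zero _ hu'K)) (pow_ne_zero _ hq),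
      hw.map_mul (mul_ne_zero hεK (zpow_ne_zero _ huK)) (zpow_ne_zero _ hu'K),
      hw.map_mul hεK (zpow_ne_zero _ huK), hw.map_zpow huK, hw.map_zpow hu'K, hw.map_pow hq,
      div_eq_mul_inv, hw.map_mul hg1K (inv_ne_zero hg2K), hw.map_inv hg2K]
    ring
  have e1 : winf ft = A := by
    rw [key hwinf, hinf_0 _ hεu, hinf_u, hinf_0 _ hndvd, hinf_0 _ h1, hinf_0 _ h2]
    ring
  have e2 : wzero ft = B := by
    rw [key hwzero, hzero_0 _ hεu', hzero_u', hzero_0 _ hndvd', hzero_0 _ h1', hzero_0 _ h2']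
    ring
  rw [hsl A B ε g1 g2 h1 h1' h2 h2' hfact, e1, e2]

/-- **One smooth point** (one vertical prime `π`, in the application `π = p`): the slope is `0`.
`hsl` is the slope rule of C3-SLOPE at a non-node place, `H` the output of C3-CFE. -/
theorem smooth_slope_eq_zero {p : ℕ} (hp : p ≠ 0) {π : R} (hπ : Prime π)
    {ft : E0} (hft : ft ≠ 0)
    (H : ∀ h : R, Prime h → ¬ Associated h π →
      ∀ f1 f2 : R, f2 ≠ 0 → ft * algebraMap R E0 f2 = algebraMap R E0 f1 →
      ∀ n1 n2 : ℕ, h ^ n1 ∣ f1 → ¬ h ^ (n1 + 1) ∣ f1 → h ^ n2 ∣ f2 → ¬ h ^ (n2 + 1) ∣ f2 →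
        (p : ℤ) ∣ (n1 : ℤ) - n2)
    (n : ZMod p)
    (hsl : ∀ (A : ℤ) (ε : Rˣ) (g1 g2 : R), ¬ π ∣ g1 → ¬ π ∣ g2 →
      ft = algebraMap R E0 ε * algebraMap R E0 π ^ A *
        (algebraMap R E0 g1 / algebraMap R E0 g2) ^ p → n = 0) :
    n = 0 := by
  obtain ⟨A, B, ε, g1, g2, h1, -, h2, -, hfact⟩ :=
    exists_edge_factorisation_field hp hπ hπ ft hft (fun h hh ha _ => H h hh ha)
  have hinj : Function.Injective (algebraMap R E0) := IsFractionRing.injective R E0
  have hπK : algebraMap R E0 π ≠ 0 := fun h0 => hπ.ne_zero (hinj (by rw [h0, map_zero]))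
  refine hsl (A + B) ε g1 g2 h1 h2 ?_
  rw [hfact, zpow_add₀ hπK]
  ring

end OneNode

section TwoNodes

variable {F0 E0 : Type*} [Field F0] [Field E0] [Algebra F0 E0] [FiniteDimensional F0 E0]
  [IsGalois F0 E0]

/-- **C3 core for two nodes.**  `Oinf, Ozero` are the two (restricted) Gauss valuation subrings of
`F0` with order functions `vinf, vzero` (non-trivial at `c`, e.g. `c = p`); at each of the two
nodes we are given the valuation subrings of `E0` cut out by the two branches, lying over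
`Oinf`, `Ozero` with ramification index one (`hv…`), and the identity
`n = wzero ft - winf ft` of `node_slope_eq`.  Then `n = n'`. -/
theorem c3_core_pair {p : ℕ} {Oinf Ozero : ValuationSubring F0} {vinf vzero : F0 → ℤ}
    {c : F0} (hc0 : c ≠ 0) (hcinf : vinf c ≠ 0) (hczero : vzero c ≠ 0)
    {σ : E0 ≃ₐ[F0] E0} (hgen : ∀ g : E0 ≃ₐ[F0] E0, g ∈ Subgroup.zpowers σ)
    {ft h : E0} {a : F0} (hft : ft ≠ 0) (hh : h ≠ 0) (ha : a ≠ 0)
    (hσ : σ ft = algebraMap F0 E0 a * h ^ p * ft)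
    (hainf : (p : ℤ) ∣ vinf a) (hazero : (p : ℤ) ∣ vzero a)
    -- first node
    {Winf Wzero : ValuationSubring E0} {winf wzero : E0 → ℤ}
    (hWinf : ∀ e : F0, algebraMap F0 E0 e ∈ Winf ↔ e ∈ Oinf)
    (hWzero : ∀ e : F0, algebraMap F0 E0 e ∈ Wzero ↔ e ∈ Ozero)
    (hwinf : IsOrd Winf winf) (hwzero : IsOrd Wzero wzero)
    (hvinf : ∀ e : F0, e ≠ 0 → winf (algebraMap F0 E0 e) = vinf e)
    (hvzero : ∀ e : F0, e ≠ 0 → wzero (algebraMap F0 E0 e) = vzero e)
    (n : ZMod p) (hn : n = ((wzero ft - winf ft : ℤ) : ZMod p))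
    -- second node
    {Winf' Wzero' : ValuationSubring E0} {winf' wzero' : E0 → ℤ}
    (hWinf' : ∀ e : F0, algebraMap F0 E0 e ∈ Winf' ↔ e ∈ Oinf)
    (hWzero' : ∀ e : F0, algebraMap F0 E0 e ∈ Wzero' ↔ e ∈ Ozero)
    (hwinf' : IsOrd Winf' winf') (hwzero' : IsOrd Wzero' wzero')
    (hvinf' : ∀ e : F0, e ≠ 0 → winf' (algebraMap F0 E0 e) = vinf e)
    (hvzero' : ∀ e : F0, e ≠ 0 → wzero' (algebraMap F0 E0 e) = vzero e)
    (n' : ZMod p) (hn' : n' = ((wzero' ft - winf' ft : ℤ) : ZMod p)) :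
    n = n' := by
  have h1 : (p : ℤ) ∣ winf' ft - winf ft :=
    ord_sub_dvd_of_generator_gal hWinf hWinf' hwinf hwinf' hvinf hvinf' hc0 hcinf p hft hgen ha hh
      hσ hainf
  have h2 : (p : ℤ) ∣ wzero' ft - wzero ft :=
    ord_sub_dvd_of_generator_gal hWzero hWzero' hwzero hwzero' hvzero hvzero' hc0 hczero p hft
      hgen ha hh hσ hazero
  rw [hn, hn', ← sub_eq_zero, ← Int.cast_sub, ZMod.intCast_zmod_eq_zero_iff_dvd]
  have : wzero ft - winf ft - (wzero' ft - winf' ft) =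
      (winf' ft - winf ft) - (wzero' ft - wzero ft) := by ring
  rw [this]
  exact dvd_sub h1 h2

end TwoNodes

end Fermat.Agent.S40x.R2.Asm
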