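import Fermat.Agent.S40x.R2.Asm.NodeSeam
import Fermat.Agent.S40x.Geo.Vocab

/-!
# P-S44, block C3, C3-ASM (helper41, second of the assembly): the TOP seam

The consumer hypothesis `hC3` of `Geo/Main.geo_goodLevel` asks, for every `x ∈ V`, for a constant
`c : ZMod p` with `Vocab.IsDiagonal nodeInf nodeZero x c`.  This file reduces that statement, for ONE
class `x`, to the per-place outputs of the lower layers, in the vocabulary of `Asm/NodeSeam`
(helper68) and `Asm/Core` (helper22):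

* GLOBAL block (`[FP] [DI] [KU] [N]`): fields `K = F_0 ⊆ L = FL_0` (finite Galois, every
  automorphism a power of `σ`), `ft h : L`, `a c : K`, `σ ft = a h^p ft`, the two order functions
  `(Oinf, vinf)`, `(Ozero, vzero)` of `K`, `p ∣ vinf a`, `p ∣ vzero a`, `vinf c ≠ 0 ≠ vzero c`;
* PER NODE PLACE (`[ET] [CFE] [SL]`): for `P ∈ nodeInf` a residue `n` with
  `NodeSeam.NodeOut p Oinf Ozero vinf vzero ft n` and `slopeInfQb x P = n`; for `P ∈ nodeZero`
  the same with `slopeZeroQb x P = -n`;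
* OFF THE NODES (`c3_flat`): the slopes vanish.

`isDiagonal_of_nodeOut` : these give `∃ c, IsDiagonal nodeInf nodeZero x c`.
-/

set_option autoImplicit false
set_option linter.unusedSectionVars false

namespace Fermat.Agent.S40x.R2.Asm.TopB

open AlgebraicCurve ModularCurve Fermat.Agent.S40x.R2.Transitive Fermat.Agent.S40x.R2.Asm.NodeSeam
  Fermat.Agent.S40x.Geo.Vocab Fermat.Agent.Gateway.Hecke

local notation "Qb" => AlgebraicClosure ℚ

variable {K L : Type*} [Field K] [Field L] [Algebra K L] [FiniteDimensional K L] [IsGalois K L]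

/-- all the per-node residues agree -/
theorem nodeOut_unique {p : ℕ} {Oinf Ozero : ValuationSubring K} {vinf vzero : K → ℤ}
    {c : K} (hc0 : c ≠ 0) (hcinf : vinf c ≠ 0) (hczero : vzero c ≠ 0)
    {σ : L ≃ₐ[K] L} (hgen : ∀ g : L ≃ₐ[K] L, g ∈ Subgroup.zpowers σ)
    {ft h : L} {a : K} (hft : ft ≠ 0) (hh : h ≠ 0) (ha : a ≠ 0)
    (hσ : σ ft = algebraMap K L a * h ^ p * ft)
    (hainf : (p : ℤ) ∣ vinf a) (hazero : (p : ℤ) ∣ vzero a)
    {n₁ n₂ : ZMod p} (h₁ : NodeOut p Oinf Ozero vinf vzero ft n₁)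
    (h₂ : NodeOut p Oinf Ozero vinf vzero ft n₂) : n₁ = n₂ :=
  c3_two_nodes hc0 hcinf hczero hgen hft hh ha hσ hainf hazero h₁ h₂

variable {M₀ p : ℕ} [NeZero M₀] [NeZero p] {hp : p.Prime} {hpM : ¬ p ∣ M₀}
  {B : ValuationSubring Qb} {hB : B.LiesOverPrime p}

/-- **The top seam of block C3**, for one class `x`: global block + per-node packages + vanishing
off the nodes give a diagonal slope vector. -/
theorem isDiagonal_of_nodeOut {Oinf Ozero : ValuationSubring K} {vinf vzero : K → ℤ}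
    {c : K} (hc0 : c ≠ 0) (hcinf : vinf c ≠ 0) (hczero : vzero c ≠ 0)
    {σ : L ≃ₐ[K] L} (hgen : ∀ g : L ≃ₐ[K] L, g ∈ Subgroup.zpowers σ)
    {ft h : L} {a : K} (hft : ft ≠ 0) (hh : h ≠ 0) (ha : a ≠ 0)
    (hσ : σ ft = algebraMap K L a * h ^ p * ft)
    (hainf : (p : ℤ) ∣ vinf a) (hazero : (p : ℤ) ∣ vzero a)
    (nodeInf nodeZero : Set (Place (kB B) (FkB B M₀))) (x : JZero (M₀ * p))
    (hInf : ∀ P ∈ nodeInf, ∃ n : ZMod p, NodeOut p Oinf Ozero vinf vzero ft n ∧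
      slopeInfQb M₀ p hp hpM B hB x P = n)
    (hZero : ∀ P ∈ nodeZero, ∃ n : ZMod p, NodeOut p Oinf Ozero vinf vzero ft n ∧
      slopeZeroQb M₀ p hp hpM B hB x P = -n)
    (hInfOff : ∀ P ∉ nodeInf, slopeInfQb M₀ p hp hpM B hB x P = 0)
    (hZeroOff : ∀ P ∉ nodeZero, slopeZeroQb M₀ p hp hpM B hB x P = 0) :
    ∃ c' : ZMod p, IsDiagonal (hp := hp) (hpM := hpM) (hB := hB) nodeInf nodeZero x c' := by
  classical
  have huniq : ∀ {n₁ n₂ : ZMod p}, NodeOut p Oinf Ozero vinf vzero ft n₁ →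
      NodeOut p Oinf Ozero vinf vzero ft n₂ → n₁ = n₂ := fun h₁ h₂ =>
    nodeOut_unique hc0 hcinf hczero hgen hft hh ha hσ hainf hazero h₁ h₂
  by_cases hex : ∃ n : ZMod p, NodeOut p Oinf Ozero vinf vzero ft n
  · obtain ⟨n₀, hn₀⟩ := hex
    refine ⟨n₀, ⟨fun P hP => ?_, fun P hP => ?_, hInfOff, hZeroOff⟩⟩
    · obtain ⟨n, hn, hs⟩ := hInf P hP
      rw [hs, huniq hn hn₀]
    · obtain ⟨n, hn, hs⟩ := hZero P hP
      rw [hs, huniq hn hn₀]
  · refine ⟨0, ⟨fun P hP => ?_, fun P hP => ?_, hInfOff, hZeroOff⟩⟩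
    · obtain ⟨n, hn, _⟩ := hInf P hP
      exact absurd ⟨n, hn⟩ hex
    · obtain ⟨n, hn, _⟩ := hZero P hP
      exact absurd ⟨n, hn⟩ hex

end Fermat.Agent.S40x.R2.Asm.TopB
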