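import Fermat.Agent.S40x.AS.Leaf2
import Fermat.Agent.S40x.R2.NodeCover.ASDatumInst
import Fermat.Agent.S40x.R2.NodeCover.InertiaIndex
import Fermat.Agent.S40x.R2.Cover.Modular

/-!
# P-S44, block C3, item (A) AS → ET of `S44-IFACE-C3-ASM v2` (helper57): the concrete bridge

`AS/Leaf2.c3_as2` (two-chart Artin–Schreier normal form of the normalised Kummer function `f₀` of
the generator `l0` of the line, at the level `M q`, in the `FL Qbar (M q)` / `G1Act` / `inertiaAct`
vocabulary) is translated into the hypotheses of helper2's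
`R2/NodeCover/ASDatumInst.asDatum_of_finrank` (and of its `0`-chart twin) for the cover datum
`D := coverDatumOfKummer hq hζ hl0 hu0 hnorm` with `u0 := f₀` and `ρ := rhoOfSubgroup I`
(`I` the inertia group of `P`), i.e. in the vocabulary of `R2/Cover` and of
`R2/Asm/GlobalBlock.global_modular` (which is parametric in `u0`).

* `coeffMap_eq_of_isFixed_G1Act` : `IsFixed (G1Act P ζ N) f` gives the `hfix` / `hfixh` shape
  `∀ g ∈ D.G1 ρ, coeffMap (ρ g) f = f` for every cover datum with `D.ζ = ζ`;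
* `coeffMap_eq_of_isFixed_inertiaAct` : inertia-fixed functions give the `hRfix` shape;
* `isIntegralElem_of_factor` : integrality over a chart ring `B` passes to every ring `R` through
  which `B → E` factors (instance-free form, `RingHom.IsIntegralElem`);
* `exists_cover_as` : **the bridge** (all conjuncts stated for `D`).
-/

set_option autoImplicit false
set_option linter.unusedSectionVars false
set_option linter.style.haveILetI false
set_option linter.unusedVariables false

noncomputable section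

namespace Fermat.Agent.S40x.R2.Asm.AsEt

open AlgebraicCurve ModularCurve Module IntermediateField IsLocalRing
open Fermat.Agent.Gateway.C0 Fermat.Agent.S34x Fermat.Agent.S34x.C0two Fermat.Agent.S34x.Lattice2
open Fermat.Agent.S19x.Geo.LatticeFixed (IsFixed IsFixedK)
open Fermat.Agent.S33x.H1.InstC1 Fermat.Agent.S33x.H1.InstC4
open Fermat.Agent.S33x.KummerPn
open Fermat.Agent.S33x.W.InstW (fixedAlg)
open Fermat.Agent.S33x.H1.FixData2Inst
open Fermat.Agent.S40x.W.G1
open Fermat.Agent.Gateway.Hecke Fermat.Agent.Gateway.ESC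
open Fermat.Agent.Gateway.Red Fermat.Agent.Gateway.GoodRed
open Fermat.Agent.Gateway.GoodRed.ConjFamily
open Fermat.Agent.S34x.TwoVal
open Fermat.Agent.S34x.Inst.L2 Fermat.Agent.S34x.Inst.IsL2Inst
open Fermat.Agent.S34x.Inst.RedSetupInst Fermat.Agent.S34x.Inst.ElementYRed
open Fermat.Agent.S34x.Inst.ElementYInt Fermat.Agent.S34x.Inst.Charts
open Fermat.Agent.S34x.Inst Fermat.Agent.S34x.Inst.TheoremBMq
open Fermat.Agent.Gateway.Kummer (IsKummerRep)
open Fermat.Agent.S40x.R2.Cover Fermat.Agent.S40x.R2.Cover.CoverDatum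

local notation "Qbar" => AlgebraicClosure ℚ

/-! ### Integrality through a factorisation -/

/-- If `G : F` is integral over `B`, and `B → F → E` factors as `B → R → E`, then the image of `G`
in `E` is integral over `R` (instance-free form). -/
theorem isIntegralElem_of_factor {B R F E : Type*} [CommRing B] [CommRing R] [CommRing F]
    [CommRing E] [Algebra B F] {G : F} (hG : IsIntegral B G) (j : B →+* R) (φ : R →+* E)
    (ι : F →+* E) (hcomp : φ.comp j = ι.comp (algebraMap B F)) : φ.IsIntegralElem (ι G) := by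
  obtain ⟨p, hp, hpe⟩ := hG
  have h1 : (ι.comp (algebraMap B F)).IsIntegralElem (ι G) := by
    refine ⟨p, hp, ?_⟩
    rw [← Polynomial.hom_eval₂, hpe, map_zero]
  rw [← hcomp] at h1
  exact RingHom.IsIntegralElem.of_comp h1

/-- Algebra form of `isIntegralElem_of_factor`. -/
theorem isIntegral_of_tower {B R F E : Type*} [CommRing B] [CommRing R] [CommRing F]
    [CommRing E] [Algebra B F] [Algebra B R] [Algebra R E] [Algebra F E] [Algebra B E]
    [IsScalarTower B R E] [IsScalarTower B F E] {G : F} (hG : IsIntegral B G) :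
    IsIntegral R (algebraMap F E G) := by
  refine isIntegralElem_of_factor hG (algebraMap B R) (algebraMap R E) (algebraMap F E) ?_
  rw [← IsScalarTower.algebraMap_eq B R E, ← IsScalarTower.algebraMap_eq B F E]

/-! ### Fixedness: from the `G1Act` / `inertiaAct` vocabulary to the `Cover` vocabulary -/

section Fixed

variable {P : ValuationSubring Qbar} {N p : ℕ}
  (D : CoverDatum (modularFunctionFieldBar N) p)

/-- `hfix` / `hfixh` of `ASDatumInst` from `IsFixed (G1Act P ζ N)`. -/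
theorem coeffMap_eq_of_isFixed_G1Act {f : modularFunctionFieldBar N}
    (hf : IsFixed (G1Act P D.ζ N) f) :
    ∀ g ∈ D.G1 (rhoOfSubgroup (P.inertiaSubgroupIn ℚ)),
      coeffMap ((rhoOfSubgroup (P.inertiaSubgroupIn ℚ) g : Qbar ≃+* Qbar) : Qbar →+* Qbar)
        (f : LaurentSeries Qbar) = f := by
  intro g hg
  have hg1 : (g : Qbar ≃ₐ[ℚ] Qbar) ∈ G1 P D.ζ := ⟨g.2, hg⟩
  have h := hf _ ⟨(g : Qbar ≃ₐ[ℚ] Qbar), hg1, rfl⟩
  have h2 := congrArg
    (fun y : laurentBaseChange Qbar (modularFunctionFieldFull N) => (y : LaurentSeries Qbar)) h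
  simp only [coe_arithmeticGalois_smul] at h2
  exact h2

/-- `hRfix` of `ASDatumInst` from `IsFixed (inertiaAct P N)`. -/
theorem coeffMap_eq_of_isFixed_inertiaAct {f : modularFunctionFieldBar N}
    (hf : IsFixed (inertiaAct P N) f) (g : P.inertiaSubgroupIn ℚ) :
    coeffMap ((rhoOfSubgroup (P.inertiaSubgroupIn ℚ) g : Qbar ≃+* Qbar) : Qbar →+* Qbar)
      (f : LaurentSeries Qbar) = f := by
  have h := hf _ ⟨(g : Qbar ≃ₐ[ℚ] Qbar), g.2, rfl⟩
  have h2 := congrArg
    (fun y : laurentBaseChange Qbar (modularFunctionFieldFull N) => (y : LaurentSeries Qbar)) h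
  simp only [coe_arithmeticGalois_smul] at h2
  exact h2

end Fixed

/-! ### The bridge at the concrete level `M q` -/

section Concrete

attribute [-instance] IsScalarTower.of_algHom

variable {P : ValuationSubring Qbar} {k : Type} [Field k] {π : P →+* k} [IsAlgClosed k]
variable {M q : ℕ} [NeZero M] [NeZero q] [Fact q.Prime] [CharP k q]
variable {hdeg : finrankAlong Qbar (heckeAlphaBar Qbar M q) = q + 1} {hq : q.Prime}
  {hqM : ¬ q ∣ M}
variable {hrk : ∀ x ∈ maximalIdeal P, ∀ c : P, c ≠ 0 → ∃ j : ℕ, c ∣ x ^ j}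
  {hπ : Function.Surjective π}
variable (H : ResidueFacts P π M q hdeg hq hqM hrk hπ) (hA : P.LiesOverPrime q)
  (x : LaurentSeries ℤ) (hx : coeffMap (Int.castRingHom Qbar) x ∈ FBar Qbar M)
  (Hx : GoodLevelFactsT P π M q hπ hqM (tInt M x hx))

include Hx hA in
/-- **Item (A), the bridge.**  For the generator `l0 ≠ 0` of a line of `K_q` on which inertia acts
through the mod `q` cyclotomic character there is a normalised Kummer function `u0` of `l0` such
that, for `D := coverDatumOfKummer hq hζ hl0 hu0 hnorm` and `ρ := rhoOfSubgroup I`, ALL inputs of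
`ASDatumInst.asDatum_of_finrank` except the ring `R` are available on both half-charts:
`h`, `G` (chart `t ≠ ∞`, `G` integral over `B0 C Γ = fixedAlg Γ (BooAlg C)`) and `h0`, `G0`
(chart `t ≠ 0`, `G0` integral over `fixedAlg Γ (BzeroAlg C)`), `Γ = inertiaAct P (M q)`. -/
theorem exists_cover_as [PerfectRing k q] (C : ChartCoord (redSetup2 H hA))
    (hCt : C.t = tA M q x hx) (hxk : tbar k x ≠ 0) (hY : YFacts M q x hx)
    (hxord : x.order < 0)
    {ζ : Qbar} (hζ : IsPrimitiveRoot ζ q) (hq3 : 3 ≤ q)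
    {Dt : Divisor Qbar (FL Qbar (M * q))}
    (hDt : ∀ v : Place Qbar (FL Qbar (M * q)), Dt v = v.ord C.t)
    {l0 : JZero (M * q)} (hl0 : l0 ≠ 0) (hl0K : l0 ∈ Km H hA q)
    (hI : ∀ σ ∈ P.inertiaSubgroupIn ℚ, ∃ a : ℕ, σ • l0 = a • l0 ∧ σ ζ = ζ ^ a) :
    ∃ (u0 h G h0 G0 : modularFunctionFieldBar (M * q)) (hu0 : IsKummerRep q l0 u0)
      (hnorm : Normalized (u0 : LaurentSeries Qbar)),
      let D := coverDatumOfKummer hq hζ hl0 hu0 hnorm
      let ρ := rhoOfSubgroup (P.inertiaSubgroupIn ℚ)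
      (∀ g ∈ D.G1 ρ, coeffMap ((ρ g : Qbar ≃+* Qbar) : Qbar →+* Qbar)
        (D.f0 : LaurentSeries Qbar) = D.f0) ∧
      (∀ g ∈ D.G1 ρ, coeffMap ((ρ g : Qbar ≃+* Qbar) : Qbar →+* Qbar)
        (h : LaurentSeries Qbar) = h) ∧
      (∀ g ∈ D.G1 ρ, coeffMap ((ρ g : Qbar ≃+* Qbar) : Qbar →+* Qbar)
        (G : LaurentSeries Qbar) = G) ∧
      (∀ g ∈ D.G1 ρ, coeffMap ((ρ g : Qbar ≃+* Qbar) : Qbar →+* Qbar)
        (h0 : LaurentSeries Qbar) = h0) ∧
      (∀ g ∈ D.G1 ρ, coeffMap ((ρ g : Qbar ≃+* Qbar) : Qbar →+* Qbar)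
        (G0 : LaurentSeries Qbar) = G0) ∧
      h ≠ 0 ∧ h0 ≠ 0 ∧
      D.f0 = h ^ q * (1 + algebraMap Qbar (modularFunctionFieldBar (M * q)) (D.ζ - 1) ^ q * G) ∧
      G ∈ BooAlg C ∧
      IsIntegral (fixedAlg (inertiaAct P (M * q)) (BooAlg C)) G ∧
      h0 ^ q = D.f0 * (1 + algebraMap Qbar (modularFunctionFieldBar (M * q)) (D.ζ - 1) ^ q * G0) ∧
      G0 ∈ BzeroAlg C ∧
      IsIntegral (fixedAlg (inertiaAct P (M * q)) (BzeroAlg C)) G0 := by
  obtain ⟨f0, h, G, h0, G0, hf0, hh, hG, hh0, hG0, hhne, hh0ne, hlc, hK, hrel, hGB, hGint, hrel0,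
    hG0B, hG0int⟩ :=
    Fermat.Agent.S40x.AS.Leaf2.c3_as2' H hA x hx Hx C hCt hxk hY hxord hζ hq3 hDt hl0K hI
  refine ⟨f0, h, G, h0, G0, hK, hlc, ?_⟩
  intro D ρ
  exact ⟨coeffMap_eq_of_isFixed_G1Act D hf0, coeffMap_eq_of_isFixed_G1Act D hh,
    coeffMap_eq_of_isFixed_G1Act D hG, coeffMap_eq_of_isFixed_G1Act D hh0,
    coeffMap_eq_of_isFixed_G1Act D hG0, hhne, hh0ne, hrel, hGB, hGint, hrel0, hG0B, hG0int⟩

end Concrete

end Fermat.Agent.S40x.R2.Asm.AsEt
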