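import Fermat.Agent.S40x.R2.Asm.AsEt
import Fermat.Agent.S40x.Node.NodePlaces

/-!
# P-S44, block C3, item (A) AS → ET (helper57): the bridge at the GOOD LEVEL, `Geo/Vocab` vocabulary

`AsEt.exists_cover_as` instantiated at the canonical context of `Node/NodePlaces.nodeInf` /
`Geo/Vocab.slopeInfQb`: `B` a valuation subring of `ℚ̄` over `p`, `k = ResidueField B`, level
`M₀ p` with `4 ∣ M₀`, `H = ResidueInst.residueFacts ..`, the Hauptmodul `x = x₄` and the canonical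
chart `chartQb := TheoremBMq.chart H hB x₄ ..` (`t = α x₄`).  All chart hypotheses
(`Hx`, `hxk`, `hY`, `x.order < 0`, `Dt`) are discharged; the only inputs left are the generator
`l0 ≠ 0` of the line, `l0 ∈ KmQb`, and the cyclotomic action of inertia on it.
-/

set_option autoImplicit false
set_option linter.unusedSectionVars false
set_option linter.style.haveILetI false
set_option linter.unusedVariables false

noncomputable section

namespace Fermat.Agent.S40x.R2.Asm.AsEtQb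

open AlgebraicCurve ModularCurve Module IntermediateField IsLocalRing
open Fermat.Agent.Gateway.C0 Fermat.Agent.S34x Fermat.Agent.S34x.C0two Fermat.Agent.S34x.Lattice2
open Fermat.Agent.S19x.Geo.LatticeFixed (IsFixed IsFixedK)
open Fermat.Agent.S33x.H1.InstC1 Fermat.Agent.S33x.H1.InstC4
open Fermat.Agent.S33x.KummerPn Fermat.Agent.S33x.Cech.InstQbCtx
open Fermat.Agent.S33x.W.InstW (fixedAlg)
open Fermat.Agent.S33x.H1.FixData2Inst
open Fermat.Agent.Gateway.Hecke Fermat.Agent.Gateway.ESC Fermat.Agent.Gateway.AuxLevel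
open Fermat.Agent.Gateway.Red Fermat.Agent.Gateway.GoodRed
open Fermat.Agent.Gateway.GoodRed.ConjFamily
open Fermat.Agent.Gateway.S31Red
open Fermat.Agent.S34x.TwoVal
open Fermat.Agent.S34x.Inst.L2 Fermat.Agent.S34x.Inst.IsL2Inst
open Fermat.Agent.S34x.Inst.RedSetupInst Fermat.Agent.S34x.Inst.ElementYRed
open Fermat.Agent.S34x.Inst.ElementYInt Fermat.Agent.S34x.Inst.Charts
open Fermat.Agent.S34x.Inst Fermat.Agent.S34x.Inst.TheoremBMq
open Fermat.Agent.Gateway.Kummer (IsKummerRep)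
open Fermat.Agent.S40x.R2.Cover Fermat.Agent.S40x.R2.Cover.CoverDatum
open Fermat.Agent.S40x.Geo.Vocab

local notation "Qb" => AlgebraicClosure ℚ

/-- the Hauptmodul `x₄ = q⁻¹ + ⋯` has a pole at the Laurent cusp. -/
theorem x4_order_neg : (L4.x4 : LaurentSeries ℤ).order < 0 := by
  have h1 : (L4.x4 : LaurentSeries ℤ).coeff (-1) = 1 := by
    rw [L4.x4, Fermat.Agent.S28.H2.qInv, Fermat.Agent.Lib.Residue.coeff_single_mul', sub_self, one_mul, PowerSeries.coeff_coe,
      if_neg (lt_irrefl 0), Int.natAbs_zero, PowerSeries.coeff_zero_eq_constantCoeff_apply,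
      L4.constantCoeff_u4]
  have h2 : (L4.x4 : LaurentSeries ℤ).order ≤ -1 :=
    HahnSeries.order_le_of_coeff_ne_zero (by rw [h1]; exact one_ne_zero)
  omega

attribute [-instance] IsScalarTower.of_algHom

variable (M₀ p : ℕ) [NeZero M₀] [NeZero p] (hp : p.Prime) (hpM : ¬ p ∣ M₀)
  (B : ValuationSubring Qb) (hB : B.LiesOverPrime p) (h4 : 4 ∣ M₀)

/-- the canonical chart (`t = α x₄`) at the good level, in ANY instance context. -/
abbrev chartQb [Algebra.IsAlgebraic ℚ Qb] [Fact p.Prime] [IsAlgClosed (ResidueField B)]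
    [CharP (ResidueField B) p] :
    ChartCoord (redSetup2 (ResidueInst.residueFacts B (residue B) M₀ p (hdegQb M₀ p hp hpM) hp hpM
      (FinalBase.rank_one B hp hB) (FinalBase.residue_surjective B)) hB) :=
  chart (ResidueInst.residueFacts B (residue B) M₀ p (hdegQb M₀ p hp hpM) hp hpM
    (FinalBase.rank_one B hp hB) (FinalBase.residue_surjective B)) hB L4.x4 (x4_hx h4) (x4_Hx h4)

/-- **Item (A), the bridge, at the good level.**  Same conclusion as `AsEt.exists_cover_as` for the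
canonical chart of `x₄`; `Γ = inertiaAct B (M₀ p)`. -/
theorem exists_cover_as_Qb [Algebra.IsAlgebraic ℚ Qb] [Fact p.Prime]
    [IsAlgClosed (ResidueField B)] [CharP (ResidueField B) p] (hp3 : 3 ≤ p)
    {ζ : Qb} (hζ : IsPrimitiveRoot ζ p)
    {l0 : JZero (M₀ * p)} (hl0 : l0 ≠ 0) (hl0K : l0 ∈ KmQb M₀ p hp hpM B hB p)
    (hI : ∀ σ ∈ B.inertiaSubgroupIn ℚ, ∃ a : ℕ, σ • l0 = a • l0 ∧ σ ζ = ζ ^ a) :
    ∃ (u0 h G h0 G0 : modularFunctionFieldBar (M₀ * p)) (hu0 : IsKummerRep p l0 u0)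
      (hnorm : Normalized (u0 : LaurentSeries Qb)),
      let D := coverDatumOfKummer hp hζ hl0 hu0 hnorm
      let ρ := rhoOfSubgroup (B.inertiaSubgroupIn ℚ)
      (∀ g ∈ D.G1 ρ, coeffMap ((ρ g : Qb ≃+* Qb) : Qb →+* Qb)
        (D.f0 : LaurentSeries Qb) = D.f0) ∧
      (∀ g ∈ D.G1 ρ, coeffMap ((ρ g : Qb ≃+* Qb) : Qb →+* Qb)
        (h : LaurentSeries Qb) = h) ∧
      (∀ g ∈ D.G1 ρ, coeffMap ((ρ g : Qb ≃+* Qb) : Qb →+* Qb)
        (G : LaurentSeries Qb) = G) ∧
      (∀ g ∈ D.G1 ρ, coeffMap ((ρ g : Qb ≃+* Qb) : Qb →+* Qb)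
        (h0 : LaurentSeries Qb) = h0) ∧
      (∀ g ∈ D.G1 ρ, coeffMap ((ρ g : Qb ≃+* Qb) : Qb →+* Qb)
        (G0 : LaurentSeries Qb) = G0) ∧
      h ≠ 0 ∧ h0 ≠ 0 ∧
      D.f0 = h ^ p * (1 + algebraMap Qb (modularFunctionFieldBar (M₀ * p)) (D.ζ - 1) ^ p * G) ∧
      G ∈ BooAlg (chartQb M₀ p hp hpM B hB h4) ∧
      IsIntegral (fixedAlg (inertiaAct B (M₀ * p)) (BooAlg (chartQb M₀ p hp hpM B hB h4))) G ∧
      h0 ^ p = D.f0 * (1 + algebraMap Qb (modularFunctionFieldBar (M₀ * p)) (D.ζ - 1) ^ p * G0) ∧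
      G0 ∈ BzeroAlg (chartQb M₀ p hp hpM B hB h4) ∧
      IsIntegral (fixedAlg (inertiaAct B (M₀ * p)) (BzeroAlg (chartQb M₀ p hp hpM B hB h4))) G0 := by
  haveI : PerfectRing (ResidueField B) p := inferInstance
  have hp2 : p ≠ 2 := by omega
  have hHx : GoodLevelFactsT B (residue B) M₀ p (FinalBase.residue_surjective B) hpM
      (tInt M₀ L4.x4 (x4_hx h4)) := x4_Hx h4
  have ht : Transcendental Qb (chartQb M₀ p hp hpM B hB h4).t :=
    Charts.transcendental_tα Qb M₀ p hHx.trans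
  haveI hfin : FiniteDimensional Qb⟮(chartQb M₀ p hp hpM B hB h4).t⟯ (FL Qb (M₀ * p)) :=
    finiteDimensional_tA L4.x4 (x4_hx h4) hHx
  exact AsEt.exists_cover_as
    (ResidueInst.residueFacts B (residue B) M₀ p (hdegQb M₀ p hp hpM) hp hpM
      (FinalBase.rank_one B hp hB) (FinalBase.residue_surjective B)) hB L4.x4 (x4_hx h4)
    (x4_Hx h4) (chartQb M₀ p hp hpM B hB h4) rfl x4_hxk (x4_hY h4 hp hp2) x4_order_neg hζ hp3
    (Dt := Charts.divT ht) (Charts.divT_apply ht) hl0 hl0K hI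

end Fermat.Agent.S40x.R2.Asm.AsEtQb
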