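/-
P-S44/S40, block C3, sub-assembly (A) AS → ET of `S44-IFACE-C3-ASM v2`, READER's seam file
(helper74): the two vocabularies of "fixed by inertia / by `G₁`" AGREE.

`AS/Leaf2.c3_as2` states its fixedness in the form `IsFixed (G1Act P ζ N) f`
(`S19x.Geo.LatticeFixed.IsFixed`, semilinear automorphisms `arithmeticGalois … σ`), while
`R2/NodeCover/ASDatumInst.asDatum_of_finrank` wants

  `∀ g ∈ D.G1 ρ, coeffMap ((ρ g : L ≃+* L) : L →+* L) (f : LaurentSeries L) = f`

with `ρ := rhoOfSubgroup (P.inertiaSubgroupIn ℚ)`.  Both are the coefficientwise action: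

* `coeffMap_eq_of_isFixed_G1Act`  : the `hfix` / `hfixh` hypotheses of `ASDatumInst`;
* `coeffMap_eq_of_isFixed_inertiaAct` : the `hRfix` hypothesis of `ASDatumInst` (whole inertia);
* `isFixed_G1Act_iff`, `isFixed_inertiaAct_iff` : the converse directions, for completeness;
* `as_hyps_of_c3_as2` : PLUG TEST.  From the literal conjuncts of `c3_as2` (chart `t ≠ ∞`) and the
  cyclotomic hypothesis `hchar`, the datum `D := coverDatumOfKummer hq hζ hl0 hu0 hnorm` with
  `u0 := f0`, the stability `hρ`, and the hypotheses `hfix`, `hfixh`, `hrel` of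
  `asDatum_of_finrank` in its literal shape.
-/
import Fermat.Agent.S40x.W.G1
import Fermat.Agent.S40x.R2.Cover.Modular
import Fermat.Agent.S40x.R2.NodeCover.ASDatumInst

set_option autoImplicit false
set_option linter.unusedSectionVars false
set_option linter.unusedVariables false
set_option linter.style.haveILetI false

noncomputable section

namespace Fermat.Agent.S40x.R2.Asm.AsFixSeam

open HahnSeries ModularCurve AlgebraicCurve
open Fermat.Agent.Gateway.Kummer (IsKummerRep)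
open Fermat.Agent.S19x.Geo.LatticeFixed (IsFixed IsFixedK)
open Fermat.Agent.S33x.H1.FixData2Inst
open Fermat.Agent.S40x.W.G1
open Fermat.Agent.S40x.R2.Cover Fermat.Agent.S40x.R2.Cover.CoverDatum

local notation "Qb" => AlgebraicClosure ℚ
local notation "Γℚ" => (AlgebraicClosure ℚ ≃ₐ[ℚ] AlgebraicClosure ℚ)

variable {P : ValuationSubring Qb} {N : ℕ}

/-! ### `inertiaAct` -/

/-- `hRfix` of `ASDatumInst`: an `inertiaAct`-fixed function is fixed coefficientwise by every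
element of the inertia group (through `rhoOfSubgroup`). -/
theorem coeffMap_eq_of_isFixed_inertiaAct
    {f : laurentBaseChange Qb (modularFunctionFieldFull N)} (hf : IsFixed (inertiaAct P N) f)
    (g : P.inertiaSubgroupIn ℚ) :
    coeffMap ((rhoOfSubgroup (P.inertiaSubgroupIn ℚ) g : Qb ≃+* Qb) : Qb →+* Qb)
      (f : LaurentSeries Qb) = f := by
  have h := hf (arithmeticGalois (modularFunctionFieldFull N) (g : Γℚ)) ⟨(g : Γℚ), g.2, rfl⟩
  have h2 := congrArg (fun y : laurentBaseChange Qb (modularFunctionFieldFull N) =>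
    (y : LaurentSeries Qb)) h
  simp only [coe_arithmeticGalois_smul] at h2
  exact h2

theorem isFixed_inertiaAct_iff {f : laurentBaseChange Qb (modularFunctionFieldFull N)} :
    IsFixed (inertiaAct P N) f ↔
      ∀ g : P.inertiaSubgroupIn ℚ,
        coeffMap ((rhoOfSubgroup (P.inertiaSubgroupIn ℚ) g : Qb ≃+* Qb) : Qb →+* Qb)
          (f : LaurentSeries Qb) = f := by
  refine ⟨coeffMap_eq_of_isFixed_inertiaAct, ?_⟩
  rintro h _ ⟨σ, hσ, rfl⟩
  exact Subtype.ext (by rw [coe_arithmeticGalois_smul]; exact h ⟨σ, hσ⟩)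

/-! ### `G1Act` -/

variable {p : ℕ}

/-- `hfix`, `hfixh` of `ASDatumInst`: a `G1Act P ζ N`-fixed function is fixed coefficientwise by
every element of `D.G1 ρ` for any cover datum `D` with `D.ζ = ζ`. -/
theorem coeffMap_eq_of_isFixed_G1Act {ζ : Qb}
    (D : CoverDatum (modularFunctionFieldBar N) p) (hDζ : D.ζ = ζ)
    {f : modularFunctionFieldBar N} (hf : IsFixed (G1Act P ζ N) f)
    (g : P.inertiaSubgroupIn ℚ) (hg : g ∈ D.G1 (rhoOfSubgroup (P.inertiaSubgroupIn ℚ))) :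
    coeffMap ((rhoOfSubgroup (P.inertiaSubgroupIn ℚ) g : Qb ≃+* Qb) : Qb →+* Qb)
      (f : LaurentSeries Qb) = f := by
  have hgζ : (g : Γℚ) ζ = ζ := by
    have := (D.mem_G1_iff (rhoOfSubgroup (P.inertiaSubgroupIn ℚ))).mp hg
    rw [hDζ] at this
    exact this
  have h := hf (arithmeticGalois (modularFunctionFieldFull N) (g : Γℚ))
    ⟨(g : Γℚ), ⟨g.2, hgζ⟩, rfl⟩
  have h2 := congrArg (fun y : laurentBaseChange Qb (modularFunctionFieldFull N) =>
    (y : LaurentSeries Qb)) h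
  simp only [coe_arithmeticGalois_smul] at h2
  exact h2

theorem isFixed_G1Act_iff {ζ : Qb}
    (D : CoverDatum (modularFunctionFieldBar N) p) (hDζ : D.ζ = ζ)
    {f : modularFunctionFieldBar N} :
    IsFixed (G1Act P ζ N) f ↔
      ∀ g ∈ D.G1 (rhoOfSubgroup (P.inertiaSubgroupIn ℚ)),
        coeffMap ((rhoOfSubgroup (P.inertiaSubgroupIn ℚ) g : Qb ≃+* Qb) : Qb →+* Qb)
          (f : LaurentSeries Qb) = f := by
  refine ⟨fun hf g hg => coeffMap_eq_of_isFixed_G1Act D hDζ hf g hg, ?_⟩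
  rintro h _ ⟨σ, ⟨hσ, hσζ⟩, rfl⟩
  refine Subtype.ext ?_
  rw [coe_arithmeticGalois_smul]
  refine h ⟨σ, hσ⟩ ((D.mem_G1_iff _).mpr ?_)
  rw [hDζ]
  exact hσζ

/-! ### Plug test: `c3_as2` (chart `t ≠ ∞`) ⟶ the hypotheses of `ASInst.asDatum_of_finrank` -/

section Plug

open Fermat.Agent.Gateway.Hecke

variable [NeZero N]

/-- **PLUG TEST** (A).  The conjuncts `IsFixed … f0`, `IsFixed … h`, `lc f0 = 1`,
`IsKummerRep q ξ f0`, `f0 = h ^ q * (1 + (ζ - 1) ^ q * G)` of `AS/Leaf2.c3_as2` (vocabulary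
`FL Qbar N`, `Pic0 Qbar (FL Qbar N)`), together with `ξ ≠ 0` and the cyclotomic hypothesis `hchar`
of `c3_as2`, give the cover datum `D := coverDatumOfKummer …` (vocabulary
`modularFunctionFieldBar N`, `JZero N`), the stability of the whole inertia group, and the
hypotheses `hfix`, `hfixh`, `hrel` of `ASInst.asDatum_of_finrank`, LITERALLY. -/
theorem as_hyps_of_c3_as2 (hp : p.Prime) {ζ : Qb} (hζ : IsPrimitiveRoot ζ p)
    {ξ : Pic0 Qb (FL Qb N)} (hξ0 : ξ ≠ 0)
    (hchar : ∀ σ ∈ P.inertiaSubgroupIn ℚ, ∃ a : ℕ, σ • ξ = a • ξ ∧ σ ζ = ζ ^ a)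
    {f0 h G : FL Qb N}
    (hf0fix : IsFixed (G1Act P ζ N) f0) (hhfix : IsFixed (G1Act P ζ N) h)
    (hlc : ((f0 : FL Qb N) : LaurentSeries Qb).leadingCoeff = 1)
    (hK : IsKummerRep p ξ f0)
    (hrel : f0 = h ^ p * (1 + algebraMap Qb (FL Qb N) (ζ - 1) ^ p * G)) :
    ∃ (D : CoverDatum (modularFunctionFieldBar N) p)
      (hρ : ∀ g, D.Stable (rhoOfSubgroup (P.inertiaSubgroupIn ℚ) g)),
      D = coverDatumOfKummer hp hζ hξ0 hK hlc ∧
      (∀ g ∈ D.G1 (rhoOfSubgroup (P.inertiaSubgroupIn ℚ)),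
        coeffMap ((rhoOfSubgroup (P.inertiaSubgroupIn ℚ) g : Qb ≃+* Qb) : Qb →+* Qb)
          (D.f0 : LaurentSeries Qb) = D.f0) ∧
      (∀ g ∈ D.G1 (rhoOfSubgroup (P.inertiaSubgroupIn ℚ)),
        coeffMap ((rhoOfSubgroup (P.inertiaSubgroupIn ℚ) g : Qb ≃+* Qb) : Qb →+* Qb)
          (h : LaurentSeries Qb) = h) ∧
      D.f0 = h ^ p * (1 + algebraMap Qb (modularFunctionFieldBar N) (D.ζ - 1) ^ p * G) :=
  ⟨coverDatumOfKummer hp hζ hξ0 hK hlc,
    stable_rhoOfSubgroup hp hζ hξ0 hK hlc (P.inertiaSubgroupIn ℚ) hchar, rfl,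
    fun g hg => coeffMap_eq_of_isFixed_G1Act _ rfl hf0fix g hg,
    fun g hg => coeffMap_eq_of_isFixed_G1Act _ rfl hhfix g hg, hrel⟩

end Plug

end Fermat.Agent.S40x.R2.Asm.AsFixSeam
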