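import Fermat.Agent.S40x.Node.NodeResMq
import Fermat.Agent.S40x.Node.SmoothInst
import Fermat.Agent.S40x.AS.ASIntegral

/-!
# P-S44, block C3, item (A) AS → ET: the integrality seam over the concrete downstairs rings
(helper58; handout of helper57, msg 25322)

`AS/Leaf2.c3_as2` delivers `G` integral over the inertia-fixed chart ring
`B_0 = NodeInst.B0 C Γ = fixedAlg Γ (BooAlg C)` (and `G₀` over `B0 C.swap Γ`).  The étale lift of
C3-ET needs `G` (and then `θ = (z / h - 1) / (ζ - 1)` and its conjugates) integral over each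
DOWNSTAIRS LOCAL RING `R` of block (N).  All these rings are localisations
`Localization.AtPrime m` of `B0 C Γ` at a prime `m`:

* node rings   `Localization.AtPrime (nodeIdeal hL2 s)`           (`Node/NodeRing`, `Node/NodeResMq`);
* smooth rings `SmoothInst.R₁ C Γ P hT = Localization.AtPrime (ptIdeal (phi P _ (rho1 C Γ)))`
  and `R₂` (`Node/SmoothChart`, `Node/SmoothInst`, `Node/SmoothRes`), also for `C.swap`.

PART 0 (Mathlib only, instance-free `RingHom.IsIntegralElem` calculus):
`isIntegralElem_of_comp` (tower-top), `isIntegralElem_of_isIntegral`, `isIntegralElem_comp_map`,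
`isIntegralElem_apply_of_fixes` (conjugates), `isIntegralElem_neg`, `isIntegralElem_theta`
(`(1 + (ζ-1) θ)^p = 1 + (ζ-1)^p G`, `G` integral ⇒ `θ` integral), `isIntegralElem_of_compat`
(ANY `φ : R →+* F` from a `B`-algebra `R` which restricts to the given `B → F`).

PART 1 (setting of `Node/NodeInst`, any `Γ`, any chart `C`, any prime `m` of `B0 C Γ`):
`locToF m : Localization.AtPrime m →+* F` := `(fixedField Γ).subtype ∘ algebraMap _ (fixedField Γ)`
(the structure of `Node/NodeFrac`), `locToF_algebraMap`, `locToF_injective`,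
**`isIntegralElem_locToF`**, `isIntegral_B0_of_eq` (swap chart), `algebraLocF`, `isScalarTower_B0_loc_F`, `isScalarTower_loc_fixed_F`,
**`isIntegral_loc`**, `isIntegral_theta_loc`, `isIntegralElem_theta_locToF`; inside an extension `ι : F →+* E` (the
cover field): **`isIntegralElem_cover`**, **`isIntegralElem_theta_cover`**,
**`isIntegralElem_conj_cover`**; and for an arbitrary ring hom
`ψ : Localization.AtPrime m →+* fixedField Γ` extending `B_0 → fixedField Γ`
(e.g. `SmoothChart.algF0`): `eq_algebraMap_of_compat`.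

PART 1b: `R₁toF`, `R₂toF`, `isIntegralElem_R₁`, `isIntegralElem_R₂`, `isIntegralElem_theta_R₁/R₂`,
`algF0_eq` for the smooth-point rings of `Node/SmoothInst`.

PART 2 (concrete level `M q` over `Qbar`, `Γ₀ = inertiaAct P (M q)`): the same statements for the
node rings with the structure `NodeResMq.algebraNodeF0` (`isIntegralElem_loc_Mq` for every prime of
the concrete `B_0`, `locToF_nodeIdeal_eq`, `isIntegralElem_nodeRing_Mq`, `isIntegral_nodeRing_Mq`,
`isIntegralElem_theta_nodeRing_Mq`).
-/

set_option autoImplicit false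
set_option linter.unusedSectionVars false
set_option linter.style.haveILetI false
set_option linter.unusedVariables false

noncomputable section

namespace Fermat.Agent.S40x.R2.Asm.AsIntR

open Polynomial

/-! ### PART 0: instance-free integrality calculus -/

section Generic

variable {A R E : Type*} [CommRing A] [CommRing R] [CommRing E]

/-- tower-top, instance-free. -/
theorem isIntegralElem_of_comp (f : A →+* R) (φ : R →+* E) {x : E}
    (h : (φ.comp f).IsIntegralElem x) : φ.IsIntegralElem x := by
  obtain ⟨P, hP, hx⟩ := h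
  refine ⟨P.map f, hP.map f, ?_⟩
  rwa [Polynomial.eval₂_map]

/-- an element integral over `A` is integral over every `A`-algebra `R` mapping compatibly. -/
theorem isIntegralElem_of_isIntegral [Algebra A E] [Algebra A R] (φ : R →+* E)
    (hφ : ∀ a : A, φ (algebraMap A R a) = algebraMap A E a) {x : E} (h : IsIntegral A x) :
    φ.IsIntegralElem x := by
  apply isIntegralElem_of_comp (algebraMap A R) φ
  have e : φ.comp (algebraMap A R) = algebraMap A E := RingHom.ext hφ
  rw [e]
  exact h

/-- push-forward along a ring hom of the target. -/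
theorem isIntegralElem_comp_map {E' : Type*} [CommRing E'] (φ : R →+* E) (ψ : E →+* E') {x : E}
    (h : φ.IsIntegralElem x) : (ψ.comp φ).IsIntegralElem (ψ x) := by
  obtain ⟨P, hP, hx⟩ := h
  refine ⟨P, hP, ?_⟩
  rw [← Polynomial.hom_eval₂, hx, map_zero]

/-- **conjugates**: an endomorphism fixing the image of `R` preserves integrality over `R`. -/
theorem isIntegralElem_apply_of_fixes (φ : R →+* E) (d : E →+* E)
    (hd : ∀ r : R, d (φ r) = φ r) {x : E} (h : φ.IsIntegralElem x) : φ.IsIntegralElem (d x) := by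
  have h1 := isIntegralElem_comp_map φ d h
  have e : d.comp φ = φ := RingHom.ext hd
  rwa [e] at h1

theorem isIntegralElem_neg (φ : R →+* E) {x : E} (h : φ.IsIntegralElem x) :
    φ.IsIntegralElem (-x) := by
  letI := φ.toAlgebra
  exact IsIntegral.neg (R := R) h

/-- **the Artin–Schreier generator is integral**, instance-free form of
`AS/ASIntegral.isIntegral_theta_of_isPrimitiveRoot`. -/
theorem isIntegralElem_theta [IsDomain E] (φ : R →+* E) {ζ G θ : E} {p : ℕ} (hp : p.Prime)
    (hζ : IsPrimitiveRoot ζ p) (hG : φ.IsIntegralElem G)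
    (h : (1 + (ζ - 1) * θ) ^ p = 1 + (ζ - 1) ^ p * G) : φ.IsIntegralElem θ := by
  letI := φ.toAlgebra
  exact Fermat.Agent.S40x.AS.ASIntegral.isIntegral_theta_of_isPrimitiveRoot (R₀ := R) hp hζ hG h

end Generic

/-- **the generic seam**: `R` a `B`-algebra, `φ : R →+* F` restricting to the given `B → F`. -/
theorem isIntegralElem_of_compat {B R F : Type*} [CommRing B] [CommRing R] [CommRing F]
    [Algebra B R] [Algebra B F] (φ : R →+* F)
    (hφ : ∀ b : B, φ (algebraMap B R b) = algebraMap B F b) {G : F} (hG : IsIntegral B G) :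
    φ.IsIntegralElem G :=
  isIntegralElem_of_isIntegral φ hφ hG

/-! ### PART 1: the localisations of `B_0` at its primes -/

section Loc

open AlgebraicCurve IsLocalRing
open Fermat.Agent.S34x Fermat.Agent.S34x.C0two Fermat.Agent.S34x.Lattice2
open Fermat.Agent.S19x.Geo.LatticeFixed (IsFixed IsFixedK)
open Fermat.Agent.S33x.W.InstW
open Fermat.Agent.S40x.Node.NodeInst Fermat.Agent.S40x.Node

variable {K : Type*} [Field K] {A : ValuationSubring K} {F : Type*} [Field F] [Algebra K F]
  {S : SmallRing F} {k κ₁ κ₂ : Type*} [Field k] [CommRing κ₁] [CommRing κ₂] [Algebra k κ₁]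
  [Algebra k κ₂] {R : RedSetup2 A S k (κ₁ × κ₂)} {C : ChartCoord R}
  {Γ : Set (SemilinearAut K F)} (m : Ideal (B0 C Γ)) [m.IsPrime]

/-- the composite `(B_0)_m → F^Γ → F` (structure of `Node/NodeFrac`). -/
def locToF : Localization.AtPrime m →+* F :=
  (NodeFrac.fixedField Γ).subtype.comp
    (algebraMap (Localization.AtPrime m) (NodeFrac.fixedField Γ))

theorem locToF_apply (r : Localization.AtPrime m) :
    locToF m r = ((algebraMap (Localization.AtPrime m) (NodeFrac.fixedField Γ) r :
      NodeFrac.fixedField Γ) : F) := rfl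

/-- on `B_0` the composite is the inclusion. -/
theorem locToF_algebraMap (b : B0 C Γ) :
    locToF m (algebraMap (B0 C Γ) (Localization.AtPrime m) b) = (b : F) := by
  rw [locToF_apply, NodeFrac.algebraMap_loc_algebraMap]
  rfl

theorem locToF_algebraMap' (b : B0 C Γ) :
    locToF m (algebraMap (B0 C Γ) (Localization.AtPrime m) b) = algebraMap (B0 C Γ) F b :=
  locToF_algebraMap m b

/-- the image of `(B_0)_m` consists of `Γ`-fixed functions. -/
theorem isFixed_locToF (r : Localization.AtPrime m) : IsFixed Γ (locToF m r) :=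
  (algebraMap (Localization.AtPrime m) (NodeFrac.fixedField Γ) r).2

theorem locToF_injective : Function.Injective (locToF m) := by
  have h1 : Function.Injective (algebraMap (Localization.AtPrime m) (NodeFrac.fixedField Γ)) := by
    have hle : m.primeCompl ≤ nonZeroDivisors (B0 C Γ) := by
      intro y hy
      refine mem_nonZeroDivisors_of_ne_zero ?_
      rintro rfl
      exact hy m.zero_mem
    rw [injective_iff_map_eq_zero]
    intro r hr
    obtain ⟨⟨b, y⟩, rfl⟩ := IsLocalization.mk'_surjective m.primeCompl r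
    rw [IsLocalization.mk'_eq_zero_iff]
    have h2 : algebraMap (B0 C Γ) (NodeFrac.fixedField Γ) b = 0 := by
      have h3 := congrArg (fun z => z * algebraMap (Localization.AtPrime m)
        (NodeFrac.fixedField Γ) (algebraMap (B0 C Γ) (Localization.AtPrime m) (y : B0 C Γ))) hr
      simp only [zero_mul] at h3
      rw [← map_mul, IsLocalization.mk'_spec, NodeFrac.algebraMap_loc_algebraMap] at h3
      exact h3
    have hb : b = 0 := NodeFrac.algebraMap_fixed_injective C Γ (by rw [h2, map_zero])
    exact ⟨1, by rw [hb, mul_zero]⟩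
  intro a b hab
  exact h1 (Subtype.ext hab)

/-- transport of the hypothesis along an equality of chart algebras; with `C := C'.swap` and
`hB' := SmoothBSwap.booAlg_swap : BooAlg C'.swap = BzeroAlg C'` this turns the second output
`IsIntegral (fixedAlg Γ (BzeroAlg C')) G₀` of `AS/Leaf2.c3_as2` into the input of the lemmas of
this section for the swap chart. -/
theorem isIntegral_B0_of_eq {B' : Subalgebra A F}
    (hB' : Fermat.Agent.S33x.H1.InstC4.BooAlg C = B') {G : F}
    (hG : IsIntegral (fixedAlg Γ B') G) : IsIntegral (B0 C Γ) G := by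
  subst hB'
  exact hG

/-- **integrality seam, instance-free**: `G` integral over `B_0` is integral over `(B_0)_m`. -/
theorem isIntegralElem_locToF {G : F} (hG : IsIntegral (B0 C Γ) G) :
    RingHom.IsIntegralElem (R := Localization.AtPrime m) (locToF m) G :=
  isIntegralElem_of_compat (B := B0 C Γ) (R := Localization.AtPrime m) (F := F) (locToF m)
    (locToF_algebraMap' m) hG

/-- the same for ANY ring hom `φ` out of `(B_0)_m` which is the inclusion on `B_0`. -/
theorem isIntegralElem_of_loc_compat (φ : Localization.AtPrime m →+* F)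
    (hφ : ∀ b : B0 C Γ, φ (algebraMap (B0 C Γ) (Localization.AtPrime m) b) = (b : F))
    {G : F} (hG : IsIntegral (B0 C Γ) G) :
    RingHom.IsIntegralElem (R := Localization.AtPrime m) φ G :=
  isIntegralElem_of_compat (B := B0 C Γ) (R := Localization.AtPrime m) (F := F) φ hφ hG

/-- a ring hom `(B_0)_m → F^Γ` extending `B_0 → F^Γ` IS the structure map of `Node/NodeFrac`
(e.g. the one underlying `SmoothChart.algF0` at `F0 := fixedField Γ`). -/
theorem eq_algebraMap_of_compat (ψ : Localization.AtPrime m →+* NodeFrac.fixedField Γ)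
    (hψ : ∀ b : B0 C Γ, ψ (algebraMap (B0 C Γ) (Localization.AtPrime m) b) =
      algebraMap (B0 C Γ) (NodeFrac.fixedField Γ) b) :
    ψ = algebraMap (Localization.AtPrime m) (NodeFrac.fixedField Γ) := by
  refine IsLocalization.ringHom_ext m.primeCompl ?_
  ext b
  rw [RingHom.comp_apply, RingHom.comp_apply, hψ, NodeFrac.algebraMap_loc_algebraMap]

/-- **θ is integral over `(B_0)_m`**, instance-free. -/
theorem isIntegralElem_theta_locToF {ζ G θ : F} {p : ℕ} (hp : p.Prime)
    (hζ : IsPrimitiveRoot ζ p) (hG : IsIntegral (B0 C Γ) G)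
    (h : (1 + (ζ - 1) * θ) ^ p = 1 + (ζ - 1) ^ p * G) : RingHom.IsIntegralElem (R := Localization.AtPrime m) (locToF m) θ :=
  isIntegralElem_theta (R := Localization.AtPrime m) (E := F) (locToF m) hp hζ
    (isIntegralElem_locToF m hG) h

/-- the algebra structure `(B_0)_m → F` (use with `letI`). -/
@[reducible] def algebraLocF : Algebra (Localization.AtPrime m) F := (locToF m).toAlgebra

theorem isScalarTower_B0_loc_F :
    letI := algebraLocF m
    IsScalarTower (B0 C Γ) (Localization.AtPrime m) F :=
  letI := algebraLocF m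
  IsScalarTower.of_algebraMap_eq fun b => (locToF_algebraMap' m b).symm

theorem isScalarTower_loc_fixed_F :
    letI := algebraLocF m
    IsScalarTower (Localization.AtPrime m) (NodeFrac.fixedField Γ) F :=
  letI := algebraLocF m
  IsScalarTower.of_algebraMap_eq fun _ => rfl

theorem faithfulSMul_loc_F :
    letI := algebraLocF m
    FaithfulSMul (Localization.AtPrime m) F :=
  letI := algebraLocF m
  (faithfulSMul_iff_algebraMap_injective _ _).mpr (locToF_injective m)

/-- **integrality seam, algebra form.** -/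
theorem isIntegral_loc {G : F} (hG : IsIntegral (B0 C Γ) G) :
    letI := algebraLocF m
    IsIntegral (Localization.AtPrime m) G :=
  isIntegralElem_locToF m hG

/-- **θ is integral over `(B_0)_m`**, algebra form. -/
theorem isIntegral_theta_loc {ζ G θ : F} {p : ℕ} (hp : p.Prime)
    (hζ : IsPrimitiveRoot ζ p) (hG : IsIntegral (B0 C Γ) G)
    (h : (1 + (ζ - 1) * θ) ^ p = 1 + (ζ - 1) ^ p * G) :
    letI := algebraLocF m
    IsIntegral (Localization.AtPrime m) θ :=
  isIntegralElem_theta_locToF m hp hζ hG h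

/-- **conjugates**: a ring endomorphism of `F` fixing the `Γ`-fixed functions preserves
integrality over `(B_0)_m`. -/
theorem isIntegralElem_conj_locToF (d : F →+* F) (hd : ∀ f : F, IsFixed Γ f → d f = f) {x : F}
    (hx : RingHom.IsIntegralElem (R := Localization.AtPrime m) (locToF m) x) : RingHom.IsIntegralElem (R := Localization.AtPrime m) (locToF m) (d x) :=
  isIntegralElem_apply_of_fixes (R := Localization.AtPrime m) (E := F) (locToF m) d
    (fun r => hd _ (isFixed_locToF m r)) hx

/-! #### inside an extension `ι : F →+* E` (the cover field) -/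

/-- **`G` is integral over `(B_0)_m` inside any extension `E` of `F`** (shape of the hypothesis
`hG` of `R2/NodeCover/ASDatumInst` with `E := D.coverField`, `ι := algebraMap F E`). -/
theorem isIntegralElem_cover {E : Type*} [CommRing E] (ι : F →+* E) {G : F}
    (hG : IsIntegral (B0 C Γ) G) :
    RingHom.IsIntegralElem (R := Localization.AtPrime m) (ι.comp (locToF m)) (ι G) :=
  isIntegralElem_comp_map (R := Localization.AtPrime m) (E := F) (locToF m) ι
    (isIntegralElem_locToF m hG)

/-- **θ is integral over `(B_0)_m` inside the cover field.** -/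
theorem isIntegralElem_theta_cover {E : Type*} [CommRing E] [IsDomain E] (ι : F →+* E)
    {ζ θ : E} {G : F} {p : ℕ} (hp : p.Prime) (hζ : IsPrimitiveRoot ζ p)
    (hG : IsIntegral (B0 C Γ) G) (h : (1 + (ζ - 1) * θ) ^ p = 1 + (ζ - 1) ^ p * ι G) :
    RingHom.IsIntegralElem (R := Localization.AtPrime m) (ι.comp (locToF m)) θ :=
  isIntegralElem_theta (R := Localization.AtPrime m) (E := E) (ι.comp (locToF m)) hp hζ
    (isIntegralElem_cover m ι hG) h

/-- **conjugates in the cover field**: a ring endomorphism `d` of `E` fixing the image of the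
`Γ`-fixed functions preserves integrality over `(B_0)_m`. -/
theorem isIntegralElem_conj_cover {E : Type*} [CommRing E] (ι : F →+* E) (d : E →+* E)
    (hd : ∀ f : F, IsFixed Γ f → d (ι f) = ι f) {x : E}
    (hx : RingHom.IsIntegralElem (R := Localization.AtPrime m) (ι.comp (locToF m)) x) :
    RingHom.IsIntegralElem (R := Localization.AtPrime m) (ι.comp (locToF m)) (d x) :=
  isIntegralElem_apply_of_fixes (R := Localization.AtPrime m) (E := E) (ι.comp (locToF m)) d
    (fun r => hd _ (isFixed_locToF m r)) hx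

end Loc

/-! ### PART 1b: the smooth-point rings `R₁`, `R₂` of `Node/SmoothInst` -/

section Smooth

open AlgebraicCurve IsLocalRing
open Fermat.Agent.S34x Fermat.Agent.S34x.C0two Fermat.Agent.S34x.Lattice2
open Fermat.Agent.S19x.Geo.LatticeFixed (IsFixed IsFixedK)
open Fermat.Agent.S33x.W.InstW
open Fermat.Agent.S40x.Node.NodeInst Fermat.Agent.S40x.Node
open Fermat.Agent.S40x.Node.SmoothChart Fermat.Agent.S40x.Node.SmoothInst

variable {K : Type*} [Field K] {A : ValuationSubring K} {F : Type*} [Field F] [Algebra K F]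
  {S : SmallRing F} {k κ₁ κ₂ : Type*} [Field k] [Field κ₁] [Field κ₂] [Algebra k κ₁]
  [Algebra k κ₂] {R : RedSetup2 A S k (κ₁ × κ₂)} {C : ChartCoord R}
  {Γ : Set (SemilinearAut K F)}

section First

variable [IsDedekindDomain C.B₁] [IsFractionRing C.B₁ κ₁]

variable (C Γ) in
/-- the inclusion `R₁ C Γ P hT → F` of the smooth-point ring at a place of the first
component. -/
def R₁toF (P : Place k κ₁) (hT : C.T.1 ∈ P.toValuationSubring) : R₁ C Γ P hT →+* F :=
  locToF (ptIdeal (phi P (algebraMap_B₁_mem P hT) (rho1 C Γ)))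

theorem R₁toF_algebraMap (P : Place k κ₁) (hT : C.T.1 ∈ P.toValuationSubring) (b : B0 C Γ) :
    R₁toF C Γ P hT (algebraMap (B0 C Γ) (R₁ C Γ P hT) b) = (b : F) :=
  locToF_algebraMap _ b

/-- **integrality seam at a smooth point of the first component.** -/
theorem isIntegralElem_R₁ (P : Place k κ₁) (hT : C.T.1 ∈ P.toValuationSubring) {G : F}
    (hG : IsIntegral (B0 C Γ) G) :
    RingHom.IsIntegralElem (R := R₁ C Γ P hT) (R₁toF C Γ P hT) G :=
  isIntegralElem_locToF _ hG

theorem isIntegralElem_theta_R₁ (P : Place k κ₁) (hT : C.T.1 ∈ P.toValuationSubring)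
    {ζ G θ : F} {p : ℕ} (hp : p.Prime) (hζ : IsPrimitiveRoot ζ p) (hG : IsIntegral (B0 C Γ) G)
    (h : (1 + (ζ - 1) * θ) ^ p = 1 + (ζ - 1) ^ p * G) :
    RingHom.IsIntegralElem (R := R₁ C Γ P hT) (R₁toF C Γ P hT) θ :=
  isIntegralElem_theta_locToF _ hp hζ hG h

/-- the structure map `R₁ → F0` of `SmoothChart.algF0` (at `F0 := fixedField Γ`, with the
`B_0`-algebra structure of `Node/NodeFrac`) is the one of `Node/NodeFrac`: both inclusions into
`F` agree. -/
theorem algF0_eq (P : Place k κ₁) (hT : C.T.1 ∈ P.toValuationSubring)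
    [IsFractionRing (B0 C Γ) (NodeFrac.fixedField Γ)] (r : R₁ C Γ P hT) :
    letI := algF0 P (algebraMap_B₁_mem P hT) (ρ := rho1 C Γ) (NodeFrac.fixedField Γ)
    ((algebraMap (R₁ C Γ P hT) (NodeFrac.fixedField Γ) r : NodeFrac.fixedField Γ) : F) =
      R₁toF C Γ P hT r := by
  letI := algF0 P (algebraMap_B₁_mem P hT) (ρ := rho1 C Γ) (NodeFrac.fixedField Γ)
  haveI := isScalarTower_algF0 P (algebraMap_B₁_mem P hT) (ρ := rho1 C Γ)
    (F0 := NodeFrac.fixedField Γ)
  have h := eq_algebraMap_of_compat (ptIdeal (phi P (algebraMap_B₁_mem P hT) (rho1 C Γ)))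
    (algebraMap (R₁ C Γ P hT) (NodeFrac.fixedField Γ))
    (fun b => (IsScalarTower.algebraMap_apply (B0 C Γ) (R₁ C Γ P hT)
      (NodeFrac.fixedField Γ) b).symm)
  rw [h]
  rfl

end First

section Second

variable [IsDedekindDomain C.B₂] [IsFractionRing C.B₂ κ₂]

variable (C Γ) in
/-- the inclusion `R₂ C Γ P hT → F` of the smooth-point ring at a place of the second
component. -/
def R₂toF (P : Place k κ₂) (hT : C.T.2 ∈ P.toValuationSubring) : R₂ C Γ P hT →+* F :=
  locToF (ptIdeal (phi P (algebraMap_B₂_mem P hT) (rho2 C Γ)))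

theorem R₂toF_algebraMap (P : Place k κ₂) (hT : C.T.2 ∈ P.toValuationSubring) (b : B0 C Γ) :
    R₂toF C Γ P hT (algebraMap (B0 C Γ) (R₂ C Γ P hT) b) = (b : F) :=
  locToF_algebraMap _ b

/-- **integrality seam at a smooth point of the second component.** -/
theorem isIntegralElem_R₂ (P : Place k κ₂) (hT : C.T.2 ∈ P.toValuationSubring) {G : F}
    (hG : IsIntegral (B0 C Γ) G) :
    RingHom.IsIntegralElem (R := R₂ C Γ P hT) (R₂toF C Γ P hT) G :=
  isIntegralElem_locToF _ hG

theorem isIntegralElem_theta_R₂ (P : Place k κ₂) (hT : C.T.2 ∈ P.toValuationSubring)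
    {ζ G θ : F} {p : ℕ} (hp : p.Prime) (hζ : IsPrimitiveRoot ζ p) (hG : IsIntegral (B0 C Γ) G)
    (h : (1 + (ζ - 1) * θ) ^ p = 1 + (ζ - 1) ^ p * G) :
    RingHom.IsIntegralElem (R := R₂ C Γ P hT) (R₂toF C Γ P hT) θ :=
  isIntegralElem_theta_locToF _ hp hζ hG h

end Second

end Smooth

/-! ### PART 2: the concrete level `M q` over `Qbar` -/

section Concrete

open AlgebraicCurve IsLocalRing Module IntermediateField ModularCurve
open Fermat.Agent.S34x Fermat.Agent.S34x.C0two Fermat.Agent.S34x.Lattice2
open Fermat.Agent.S19x.Geo.LatticeFixed (IsFixed IsFixedK)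
open Fermat.Agent.S33x.H1.InstC1 Fermat.Agent.S33x.H1.InstC4
open Fermat.Agent.S33x.W.InstW
open Fermat.Agent.S40x.Node.NodeInst Fermat.Agent.S40x.Node
open Fermat.Agent.Gateway.C0
open Fermat.Agent.S33x.Cech.CtxMq
open Fermat.Agent.Gateway.Hecke Fermat.Agent.Gateway.ESC
open Fermat.Agent.Gateway.Red Fermat.Agent.Gateway.GoodRed
open Fermat.Agent.Gateway.GoodRed.ConjFamily
open Fermat.Agent.S34x.TwoVal
open Fermat.Agent.S34x.Inst.L2 Fermat.Agent.S34x.Inst.IsL2Inst
open Fermat.Agent.S34x.Inst.RedSetupInst Fermat.Agent.S34x.Inst.ElementYRed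
open Fermat.Agent.S34x.Inst.ElementYInt Fermat.Agent.S34x.Inst.Charts
open Fermat.Agent.S34x.Inst Fermat.Agent.S34x.Inst.TheoremBMq
open Fermat.Agent.S33x.H1.FixData2Inst Fermat.Agent.S33x.H1.FixData2Final
open Fermat.Agent.S40x.Node.Vocab Fermat.Agent.S40x.Node.NodeResMq

attribute [-instance] IsScalarTower.of_algHom

local notation "Qbar" => AlgebraicClosure ℚ

variable {P : ValuationSubring Qbar} {k : Type} [Field k] {π : P →+* k} [IsAlgClosed k]
variable {M q : ℕ} [NeZero M] [NeZero q] [Fact q.Prime] [CharP k q]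
variable {hdeg : finrankAlong Qbar (heckeAlphaBar Qbar M q) = q + 1} {hq : q.Prime}
  {hqM : ¬ q ∣ M}
variable {hrk : ∀ x ∈ maximalIdeal P, ∀ c : P, c ≠ 0 → ∃ j : ℕ, c ∣ x ^ j}
  {hπ : Function.Surjective π}
variable (H : ResidueFacts P π M q hdeg hq hqM hrk hπ) (hA : P.LiesOverPrime q)

-- At the concrete level the instance `Algebra B_0 R_s` is found only with a larger budget.
set_option synthInstance.maxHeartbeats 200000

/-- **integrality seam at every prime of the concrete chart ring**
`B_0 = fixedAlg (inertiaAct P (M q)) (BooAlg C)`: the output `G` of `AS/Leaf2.c3_as2` is integral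
over `(B_0)_m`, instance-free form (`C` may be the swap chart: `BooAlg C.swap = BzeroAlg C`). -/
theorem isIntegralElem_loc_Mq (C : ChartCoord (redSetup2 H hA))
    (m : Ideal (B0 C (inertiaAct P (M * q)))) [m.IsPrime] {G : FL Qbar (M * q)}
    (hG : IsIntegral (fixedAlg (inertiaAct P (M * q)) (BooAlg C)) G) :
    RingHom.IsIntegralElem (R := Localization.AtPrime m) (locToF m) G :=
  isIntegralElem_locToF m hG

/-- at a node, `locToF` is the composite `R_s → F0 P (M q) → FL Qbar (M q)` of
`NodeResMq.algebraNodeF0`. -/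
theorem locToF_nodeIdeal_eq (C : ChartCoord (redSetup2 H hA)) (hL2 : C.IsL2)
    (s : Goursat.Nodes C.BbarT hL2.h2) :
    letI := algebraNodeF0 H hA C hL2 s
    locToF (nodeIdeal (Γ := inertiaAct P (M * q)) hL2 s) =
      (F0 P (M * q)).subtype.comp
        (algebraMap (Localization.AtPrime (nodeIdeal (Γ := inertiaAct P (M * q)) hL2 s))
          (F0 P (M * q))) := rfl

/-- **integrality seam at the node rings**, instance-free, with the structure
`NodeResMq.algebraNodeF0`. -/
theorem isIntegralElem_nodeRing_Mq (C : ChartCoord (redSetup2 H hA)) (hL2 : C.IsL2)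
    (s : Goursat.Nodes C.BbarT hL2.h2) {G : FL Qbar (M * q)}
    (hG : IsIntegral (fixedAlg (inertiaAct P (M * q)) (BooAlg C)) G) :
    letI := algebraNodeF0 H hA C hL2 s
    RingHom.IsIntegralElem
      (R := Localization.AtPrime (nodeIdeal (Γ := inertiaAct P (M * q)) hL2 s))
      ((F0 P (M * q)).subtype.comp
        (algebraMap (Localization.AtPrime (nodeIdeal (Γ := inertiaAct P (M * q)) hL2 s))
          (F0 P (M * q)))) G :=
  isIntegralElem_locToF (nodeIdeal (Γ := inertiaAct P (M * q)) hL2 s) hG

/-- **integrality seam at the node rings**, algebra form: `FL Qbar (M q)` as an algebra over the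
node ring through `R_s → F0 P (M q) → FL Qbar (M q)`. -/
theorem isIntegral_nodeRing_Mq (C : ChartCoord (redSetup2 H hA)) (hL2 : C.IsL2)
    (s : Goursat.Nodes C.BbarT hL2.h2) {G : FL Qbar (M * q)}
    (hG : IsIntegral (fixedAlg (inertiaAct P (M * q)) (BooAlg C)) G) :
    letI := algebraLocF (nodeIdeal (Γ := inertiaAct P (M * q)) hL2 s)
    IsIntegral (Localization.AtPrime (nodeIdeal (Γ := inertiaAct P (M * q)) hL2 s)) G :=
  isIntegral_loc (nodeIdeal (Γ := inertiaAct P (M * q)) hL2 s) hG

/-- **θ over the node rings inside a cover field** `ι : FL Qbar (M q) →+* E`: from the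
Artin–Schreier normal form of `AS/Leaf2.c3_as2` (`z ^ q = f₀ = h ^ q (1 + (ζ-1)^q G)`, so
`w := z / h` satisfies `w ^ q = 1 + (ζ-1)^q G`), `θ := (w - 1) / (ζ - 1)` is integral over the node
ring. -/
theorem isIntegralElem_theta_nodeRing_Mq (C : ChartCoord (redSetup2 H hA)) (hL2 : C.IsL2)
    (s : Goursat.Nodes C.BbarT hL2.h2) {E : Type*} [Field E] (ι : FL Qbar (M * q) →+* E)
    {ζ : Qbar} (hζ : IsPrimitiveRoot ζ q) {G : FL Qbar (M * q)}
    (hG : IsIntegral (fixedAlg (inertiaAct P (M * q)) (BooAlg C)) G) {w : E}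
    (hw : w ^ q = 1 + ι (algebraMap Qbar (FL Qbar (M * q)) (ζ - 1)) ^ q * ι G) :
    letI := algebraNodeF0 H hA C hL2 s
    RingHom.IsIntegralElem
      (R := Localization.AtPrime (nodeIdeal (Γ := inertiaAct P (M * q)) hL2 s))
      (ι.comp ((F0 P (M * q)).subtype.comp
        (algebraMap (Localization.AtPrime (nodeIdeal (Γ := inertiaAct P (M * q)) hL2 s))
          (F0 P (M * q)))))
      ((w - 1) / ι (algebraMap Qbar (FL Qbar (M * q)) (ζ - 1))) := by
  have hζ' : IsPrimitiveRoot (ι (algebraMap Qbar (FL Qbar (M * q)) ζ)) q :=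
    hζ.map_of_injective
      (f := ι.comp (algebraMap Qbar (FL Qbar (M * q))))
      ((ι.comp (algebraMap Qbar (FL Qbar (M * q)))).injective)
  have hπ0 : ι (algebraMap Qbar (FL Qbar (M * q)) (ζ - 1)) ≠ 0 := by
    rw [map_sub, map_sub, map_one, map_one]
    exact sub_ne_zero.2 (hζ'.ne_one hq.one_lt)
  have hπe : ι (algebraMap Qbar (FL Qbar (M * q)) (ζ - 1)) =
      ι (algebraMap Qbar (FL Qbar (M * q)) ζ) - 1 := by
    rw [map_sub, map_sub, map_one, map_one]
  refine isIntegralElem_theta_cover (nodeIdeal (Γ := inertiaAct P (M * q)) hL2 s) ι hq hζ' hG ?_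
  rw [← hπe, mul_div_cancel₀ _ hπ0, add_sub_cancel, hw]

end Concrete

end Fermat.Agent.S40x.R2.Asm.AsIntR

end
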