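import Fermat.Agent.S40x.Node.SmoothBSwap
import Fermat.Agent.S40x.Node.Vocab

/-!
# P-S44, block C3, assembly piece (A) AS → ET, integrality over the downstairs rings of the SWAP
chart (helper46; handout of helper57)

`AS/Leaf2.c3_as2` delivers the Artin–Schreier function of the chart `t ≠ 0` as
`G₀ ∈ BzeroAlg C`, `IsIntegral (fixedAlg Γ (BzeroAlg C)) G₀` (`Γ` = inertia; `G₀` itself is only
fixed by `G1`).  The downstairs rings of (N) on that chart are the localisations
`R = Localization.AtPrime m` of `B0 C.swap Γ = fixedAlg Γ (BooAlg C.swap)` at primes `m` (node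
ideals, point ideals `(ptIdeal₁ C.swap P hP).comap (rho1 C.swap Γ)`, their `κ₀`-twins), mapped to
the function field through `R → F^Γ → F` (`NodeFrac.algebraLocFixed`).

* `isIntegralElem_of_subalgebra_le` (Mathlib only): `B ≤ B'` subalgebras of `F`, `ψ : B' →+* R`,
  `φ : R →+* F` with `φ (ψ b) = b`: integral over `B` ⇒ `φ.IsIntegralElem`;
* `locToF m : Localization.AtPrime m →+* F` (ANY chart `C`, any prime `m` of `B0 C Γ`),
  `locToF_algebraMap`, `locToF_eq` (it is `R → F^Γ → F`), `locToF_injective`;
* `isIntegralElem_locToF` / `isIntegralElem_locToF_of_le` : integral over (a subalgebra of)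
  `B0 C Γ` ⇒ `(locToF m).IsIntegralElem`;
* `fixedAlg_bzero_eq : fixedAlg Γ (BzeroAlg C) = B0 C.swap Γ`;
* **`isIntegralElem_locToF_swap`** : `IsIntegral (fixedAlg Γ (BzeroAlg C)) G₀` ⇒
  `RingHom.IsIntegralElem (R := Localization.AtPrime m) (locToF m) G₀` for every prime `m` of `B0 C.swap Γ`;
* `algebraLocF m`, `isScalarTower_locF`, **`isIntegral_loc_swap`** : the same as
  `IsIntegral (Localization.AtPrime m) G₀` for the algebra structure `R → F^Γ → F`;
* `isIntegralElem_locToF_swap_F0` : the concrete spelling with `Vocab.F0 P N`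
  (`Γ = inertiaAct P N`).
-/

set_option autoImplicit false
set_option linter.unusedSectionVars false
set_option linter.style.haveILetI false

noncomputable section

namespace Fermat.Agent.S40x.R2.Asm.AsIntRSwap

/-! ### Mathlib-only core -/

section Core

variable {W F R : Type*} [CommRing W] [CommRing F] [Algebra W F] [CommRing R]

/-- integrality over a subalgebra `B ≤ B'` passes to any ring `R` through which the inclusion
`B' → F` factors. -/
theorem isIntegralElem_of_subalgebra_le {B B' : Subalgebra W F} (hBB' : B ≤ B')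
    (ψ : B' →+* R) (φ : R →+* F) (hcomp : ∀ b : B', φ (ψ b) = (b : F)) {G : F}
    (hG : IsIntegral B G) : φ.IsIntegralElem G := by
  obtain ⟨P, hP, he⟩ := hG
  refine ⟨P.map (ψ.comp (Subalgebra.inclusion hBB').toRingHom), hP.map _, ?_⟩
  rw [Polynomial.eval₂_map]
  have hφ : φ.comp (ψ.comp (Subalgebra.inclusion hBB').toRingHom) = algebraMap B F := by
    ext b
    exact hcomp _
  rw [hφ]
  exact he

end Core

open AlgebraicCurve IsLocalRing Module
open Fermat.Agent.S34x Fermat.Agent.S34x.C0two Fermat.Agent.S34x.Lattice2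
open Fermat.Agent.S19x.Geo.LatticeFixed (IsFixed IsFixedK)
open Fermat.Agent.S33x.H1.LatticeFixed2 Fermat.Agent.S33x.H1.FixedDecomp
open Fermat.Agent.S33x.H1 Fermat.Agent.S33x.W.InstW
open Fermat.Agent.S40x.Node Fermat.Agent.S40x.Node.NodeInst Fermat.Agent.S40x.Node.NodeFrac

/-! ### The localisations of a chart ring inside the function field -/

section Loc

variable {K : Type*} [Field K] {A : ValuationSubring K} {F : Type*} [Field F] [Algebra K F]
  {S : SmallRing F} {k κ₁ κ₂ : Type*} [Field k] [CommRing κ₁] [CommRing κ₂] [Algebra k κ₁]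
  [Algebra k κ₂] {R : RedSetup2 A S k (κ₁ × κ₂)} {C : ChartCoord R}
  {Γ : Set (SemilinearAut K F)}

variable (m : Ideal (B0 C Γ)) [m.IsPrime]

/-- the inclusion `(B_0)_m → F^Γ → F` of a local ring of the chart ring into the function
field. -/
def locToF : Localization.AtPrime m →+* F :=
  (fixedField Γ).subtype.comp (algebraMap (Localization.AtPrime m) (fixedField Γ))

theorem locToF_eq (y : Localization.AtPrime m) :
    locToF m y = ((algebraMap (Localization.AtPrime m) (fixedField Γ) y : fixedField Γ) : F) :=
  rfl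

theorem locToF_algebraMap (b : B0 C Γ) :
    locToF m (algebraMap (B0 C Γ) (Localization.AtPrime m) b) = (b : F) := by
  rw [locToF_eq, algebraMap_loc_algebraMap]
  rfl

theorem locToF_injective : Function.Injective (locToF m) := by
  rw [IsLocalization.injective_iff_map_algebraMap_eq m.primeCompl (locToF m)]
  intro x y
  constructor
  · intro h
    rw [h]
  · intro h
    rw [locToF_algebraMap, locToF_algebraMap] at h
    rw [Subtype.ext h]

/-- integrality over a subalgebra of the chart ring passes to its local rings. -/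
theorem isIntegralElem_locToF_of_le {B : Subalgebra (fixedSubring (A := A) Γ) F}
    (hB : B ≤ B0 C Γ) {G : F} (hG : IsIntegral B G) : RingHom.IsIntegralElem (R := Localization.AtPrime m) (locToF m) G :=
  isIntegralElem_of_subalgebra_le (R := Localization.AtPrime m) hB
    (algebraMap (B0 C Γ) (Localization.AtPrime m)) (locToF m) (locToF_algebraMap m) hG

/-- integrality over the chart ring passes to its local rings. -/
theorem isIntegralElem_locToF {G : F} (hG : IsIntegral (B0 C Γ) G) :
    RingHom.IsIntegralElem (R := Localization.AtPrime m) (locToF m) G :=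
  isIntegralElem_locToF_of_le m le_rfl hG

/-- the algebra structure `(B_0)_m → F^Γ → F`. -/
@[reducible] def algebraLocF : Algebra (Localization.AtPrime m) F := (locToF m).toAlgebra

theorem isScalarTower_locF :
    letI := algebraLocF m
    IsScalarTower (Localization.AtPrime m) (fixedField Γ) F :=
  letI := algebraLocF m
  IsScalarTower.of_algebraMap_eq fun _ => rfl

theorem isScalarTower_B0_locF :
    letI := algebraLocF m
    IsScalarTower (B0 C Γ) (Localization.AtPrime m) F :=
  letI := algebraLocF m
  IsScalarTower.of_algebraMap_eq fun b => (locToF_algebraMap m b).symm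

/-- `IsIntegral` form. -/
theorem isIntegral_loc {G : F} (hG : IsIntegral (B0 C Γ) G) :
    letI := algebraLocF m
    IsIntegral (Localization.AtPrime m) G :=
  isIntegralElem_locToF m hG

end Loc

/-! ### The swap chart -/

section Swap

variable {K : Type*} [Field K] {A : ValuationSubring K} {F : Type*} [Field F] [Algebra K F]
  {S : SmallRing F} {k κ₁ κ₂ : Type*} [Field k] [CommRing κ₁] [CommRing κ₂] [Algebra k κ₁]
  [Algebra k κ₂] {R : RedSetup2 A S k (κ₁ × κ₂)} {C : ChartCoord R}
  {Γ : Set (SemilinearAut K F)}

/-- the half-chart ring `B_∞` of the swapped chart is the half-chart ring `B_0` of `C`. -/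
theorem booAlg_swap_eq : InstC4.BooAlg C.swap = InstC4.BzeroAlg C := by
  ext f
  rw [InstC4.mem_BooAlg, InstC4.mem_BzeroAlg]
  constructor
  · rintro ⟨b, hb⟩
    refine ⟨b, ?_⟩
    rw [InstC1.mem_Lam] at hb ⊢
    rw [ChartCoord.swap_LN] at hb
    exact hb
  · rintro ⟨a, ha⟩
    refine ⟨a, ?_⟩
    rw [InstC1.mem_Lam] at ha ⊢
    rw [ChartCoord.swap_LN]
    exact ha

/-- the inertia-fixed chart ring of the chart `t ≠ 0` is the chart ring `B_0` of `C.swap`. -/
theorem fixedAlg_bzero_eq : fixedAlg Γ (InstC4.BzeroAlg C) = B0 C.swap Γ := by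
  show fixedAlg Γ (InstC4.BzeroAlg C) = fixedAlg Γ (InstC4.BooAlg C.swap)
  rw [booAlg_swap_eq]

theorem fixedAlg_bzero_le : fixedAlg Γ (InstC4.BzeroAlg C) ≤ B0 C.swap Γ :=
  le_of_eq fixedAlg_bzero_eq

variable (m : Ideal (B0 C.swap Γ)) [m.IsPrime]

/-- **AS → ET on the swap chart**: the Artin–Schreier function `G₀` of the chart `t ≠ 0`,
integral over the inertia-fixed chart ring `fixedAlg Γ (BzeroAlg C)`, is integral over every
local ring `(B_0 C.swap)_m` (node rings, smooth-point rings and cusp rings of that chart, both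
components), for the structure map `R → F^Γ → F`. -/
theorem isIntegralElem_locToF_swap {G0 : F}
    (hG0 : IsIntegral (fixedAlg Γ (InstC4.BzeroAlg C)) G0) : RingHom.IsIntegralElem (R := Localization.AtPrime m) (locToF m) G0 :=
  isIntegralElem_locToF_of_le m fixedAlg_bzero_le hG0

/-- `IsIntegral` form of `isIntegralElem_locToF_swap`. -/
theorem isIntegral_loc_swap {G0 : F} (hG0 : IsIntegral (fixedAlg Γ (InstC4.BzeroAlg C)) G0) :
    letI := algebraLocF m
    IsIntegral (Localization.AtPrime m) G0 :=
  isIntegralElem_locToF_swap m hG0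

/-- the twin for the chart `t ≠ ∞` (same statement, chart `C`): for completeness. -/
theorem isIntegralElem_locToF_boo (m : Ideal (B0 C Γ)) [m.IsPrime] {G : F}
    (hG : IsIntegral (fixedAlg Γ (InstC4.BooAlg C)) G) : RingHom.IsIntegralElem (R := Localization.AtPrime m) (locToF m) G :=
  isIntegralElem_locToF m hG

end Swap

/-! ### Concrete spelling over `Qbar` -/

section Concrete

open ModularCurve
open Fermat.Agent.Gateway.Hecke
open Fermat.Agent.S40x.Node.Vocab Fermat.Agent.S33x.H1.FixData2Inst

local notation "Qbar" => AlgebraicClosure ℚ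

variable {P : ValuationSubring Qbar} {N : ℕ} {A : ValuationSubring Qbar}
  {S : SmallRing (laurentBaseChange Qbar (modularFunctionFieldFull N))}
  {k κ₁ κ₂ : Type*} [Field k] [CommRing κ₁] [CommRing κ₂] [Algebra k κ₁] [Algebra k κ₂]
  {R : RedSetup2 A S k (κ₁ × κ₂)} {C : ChartCoord R}

/-- the structure map of a local ring of the swap chart into the inertia-fixed function field
`F0 P N` (`= NodeFrac.fixedField (inertiaAct P N)`). -/
@[reducible] def algebraLocF0 (m : Ideal (B0 C.swap (inertiaAct P N))) [m.IsPrime] :
    Algebra (Localization.AtPrime m) (F0 P N) :=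
  NodeFrac.algebraLocFixed m

/-- **concrete form**: `G₀` is integral over `R = (B_0 C.swap)_m` along `R → F0 P N → FL`. -/
theorem isIntegralElem_locToF_swap_F0 (m : Ideal (B0 C.swap (inertiaAct P N))) [m.IsPrime]
    {G0 : laurentBaseChange Qbar (modularFunctionFieldFull N)}
    (hG0 : IsIntegral (fixedAlg (inertiaAct P N) (InstC4.BzeroAlg C)) G0) :
    letI := algebraLocF0 (P := P) m
    RingHom.IsIntegralElem (R := Localization.AtPrime m)
      ((F0 P N).subtype.comp (algebraMap (Localization.AtPrime m) (F0 P N))) G0 :=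
  isIntegralElem_locToF_swap m hG0

end Concrete

end Fermat.Agent.S40x.R2.Asm.AsIntRSwap
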