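/-
P-S44, block C3, sub-assembly [CFE] of `S44-IFACE-C3-ASM` (helper16): hypothesis `H` of
`Asm/Core.node_slope_eq` / `smooth_slope_eq_zero` ("the horizontal multiplicities of the descended
Kummer function are divisible by `p`") for the Kummer cover.

* abstract layer (`edge_H_cover`): any cover datum `D` with a group `G` acting, `E0 := FL_0` the
  `G`-fixed field AS A TYPE (helper48's `D.E0 ρ hρ`, `E0.val`), `R` any UFD with fraction field `E0` (the output of C3-ET), `h : R` a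
  prime such that every `G`-fixed constant is a fraction `a / b` with `h ∤ b` [(n4)*], `fx ∈ F` with
  all `Place`-orders divisible by `p` [KF3], `ft ∈ E0` with `ft = fx * g ^ p` in the cover field
  [C3-DESC], and the span hypothesis `F(z) ⊆ L · FL_0` [Cover/Span]  ==>  `H` for `h`.
  Proof: `CFE2.edge_H_of_constants` (helper74/helper94, "constants are unramified").
* modular layer (`edge_H_modular`): `D := coverDatumOfKummer …`, `G :=` inertia group of a place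
  `P ∣ p` of `ℚ̄`; span from `Cover.coverField_le_closure_modular` (helper48), KF3 from
  `IsKummerRep.dvd_ord`, algebraicity of `ℚ̄`; (n4)* is reduced to: the integers of the inertia
  field lie in `R` and `h ∤ p`.
-/
import Fermat.Agent.S40x.R2.Cover.ModularSpan
import Fermat.Agent.S40x.R2.Cover.FixedGalois
import Fermat.Agent.S40x.R2.CFE2.UFDForm
import Fermat.Agent.S40x.R2.KummerPeu

set_option autoImplicit false
set_option linter.style.haveILetI false

noncomputable section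

namespace Fermat.Agent.S40x.R2.Asm.CfeModular

open HahnSeries ModularCurve AlgebraicCurve Fermat.Agent.Gateway.Kummer
open Fermat.Agent.S40x.R2.Cover Fermat.Agent.S40x.R2.Cover.CoverDatum

/-! ### Abstract layer -/

section Abstract

variable {L : Type*} [Field L] {F : IntermediateField L (LaurentSeries L)} {p : ℕ}
  (D : CoverDatum F p)
variable {G : Type*} [Group G] (ρ : G →* RingAut L) (hρ : ∀ g, D.Stable (ρ g))

/-- the subfield of `G`-fixed constants, inside `L((q))` -/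
def constFixed (ρ : G →* RingAut L) : Subfield (LaurentSeries L) :=
  ({ carrier := {c : L | ∀ g : G, ρ g c = c}
     mul_mem' := fun {a b} ha hb g => by rw [map_mul, ha g, hb g]
     one_mem' := fun g => map_one _
     add_mem' := fun {a b} ha hb g => by rw [map_add, ha g, hb g]
     zero_mem' := fun g => map_zero _
     neg_mem' := fun {a} ha g => by rw [map_neg, ha g]
     inv_mem' := fun a ha g => by rw [map_inv₀, ha g] } : Subfield L).map
    (algebraMap L (LaurentSeries L))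

theorem mem_constFixed_iff {x : LaurentSeries L} :
    x ∈ constFixed ρ ↔ ∃ c : L, (∀ g : G, ρ g c = c) ∧ algebraMap L (LaurentSeries L) c = x :=
  Iff.rfl

/-- the coercion `FL_0 → L((q))` as a ring homomorphism -/
def iotaFixed : D.E0 ρ hρ →+* LaurentSeries L :=
  (algebraMap D.coverField (LaurentSeries L)).comp (E0.val D ρ hρ)

theorem iotaFixed_apply (y : D.E0 ρ hρ) :
    iotaFixed D ρ hρ y = ((E0.val D ρ hρ y : D.coverField) : LaurentSeries L) := rfl

theorem range_iotaFixed :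
    Set.range (iotaFixed D ρ hρ) = (D.fixedFieldLS ρ hρ : Set (LaurentSeries L)) := by
  ext x
  constructor
  · rintro ⟨y, rfl⟩
    exact ⟨E0.val D ρ hρ y, y.2, rfl⟩
  · rintro ⟨y, hy, rfl⟩
    exact ⟨E0.mk D ρ hρ y hy, rfl⟩

/-- **[CFE] for a cover, abstract layer**: hypothesis `H` of `Asm/Core.node_slope_eq` for one
prime `h` of the UFD `R` with fraction field `FL_0`. -/
theorem edge_H_cover [CharZero L]
    (hspan : ∀ x : D.coverField, (x : LaurentSeries L) ∈ Subfield.closure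
      ((D.fixedFieldLS ρ hρ : Set (LaurentSeries L)) ∪
        Set.range (algebraMap L (LaurentSeries L))))
    (halg : ∀ c : L, IsAlgebraic (constFixed ρ) (algebraMap L (LaurentSeries L) c))
    {R : Type*} [CommRing R] [IsDomain R] [UniqueFactorizationMonoid R]
    [Algebra R (D.E0 ρ hρ)] [IsFractionRing R (D.E0 ρ hρ)]
    (h : R) (hh : Prime h)
    (hK0 : ∀ c : L, (∀ g : G, ρ g c = c) → ∃ a b : R, ¬ h ∣ b ∧
      algebraMap L (LaurentSeries L) c * iotaFixed D ρ hρ (algebraMap R _ b) =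
        iotaFixed D ρ hρ (algebraMap R _ a))
    (fx : F) (hfx : fx ≠ 0) (hKF3 : ∀ Pl : Place L F, (p : ℤ) ∣ Pl.ord fx)
    (g : D.coverField) (hg0 : g ≠ 0) (ft : D.E0 ρ hρ)
    (heq : E0.val D ρ hρ ft = algebraMap F D.coverField fx * g ^ p)
    (f1 f2 : R) (hf2 : f2 ≠ 0)
    (hmul : ft * algebraMap R (D.E0 ρ hρ) f2 = algebraMap R (D.E0 ρ hρ) f1)
    (n1 n2 : ℕ) (h1 : h ^ n1 ∣ f1) (h1' : ¬ h ^ (n1 + 1) ∣ f1) (h2 : h ^ n2 ∣ f2)
    (h2' : ¬ h ^ (n2 + 1) ∣ f2) : (p : ℤ) ∣ (n1 : ℤ) - n2 := by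
  haveI : CharZero (LaurentSeries L) :=
    charZero_of_injective_algebraMap (algebraMap L (LaurentSeries L)).injective
  have hg0' : ((g : D.coverField) : LaurentSeries L) ≠ 0 := fun h0 => hg0 (Subtype.ext h0)
  refine Fermat.Agent.S40x.R2.CFE2.edge_H_of_constants (R := R) (K := D.E0 ρ hρ)
    (𝕃 := LaurentSeries L) (Kb := L) (F := ↥F) (iotaFixed D ρ hρ) (constFixed ρ) halg h hh ?_ ?_
    p fx hfx hKF3 1 one_ne_zero ((g : D.coverField) : LaurentSeries L) ?_ hg0' ft ?_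
    f1 f2 hf2 hmul n1 n2 h1 h1' h2 h2'
  · rintro _ ⟨c, hc, rfl⟩
    exact hK0 c hc
  · intro y
    rw [range_iotaFixed]
    exact hspan (algebraMap F D.coverField y)
  · rw [range_iotaFixed]
    exact hspan g
  · rw [iotaFixed_apply, heq, map_one, one_mul]
    rfl

end Abstract

/-! ### Modular layer -/

section Modular

local notation "Qb" => AlgebraicClosure ℚ
local notation "Γℚ" => (AlgebraicClosure ℚ ≃ₐ[ℚ] AlgebraicClosure ℚ)

variable {P : ValuationSubring Qb} {N : ℕ} [NeZero N] {p : ℕ}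

/-- `ℚ̄` is algebraic over any subfield of `ℚ̄((q))` (in particular over the inertia-fixed
constants). -/
theorem isAlgebraic_const (K0 : Subfield (LaurentSeries Qb)) (c : Qb) :
    IsAlgebraic K0 (algebraMap Qb (LaurentSeries Qb) c) := by
  haveI : CharZero (LaurentSeries Qb) :=
    charZero_of_injective_algebraMap (algebraMap Qb (LaurentSeries Qb)).injective
  have h1 : IsAlgebraic ℚ c := (AlgebraicClosure.isAlgebraic ℚ).isAlgebraic c
  obtain ⟨q0, hq0, hq0c⟩ := (IsFractionRing.isAlgebraic_iff ℤ ℚ Qb).mpr h1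
  have hinj : Function.Injective (Int.castRingHom ↥K0) := by
    intro a b hab
    have := congrArg K0.subtype hab
    simpa using this
  refine ⟨q0.map (Int.castRingHom ↥K0), (Polynomial.map_ne_zero_iff hinj).mpr hq0, ?_⟩
  rw [Polynomial.aeval_def, Polynomial.eval₂_map]
  have e1 : (algebraMap ↥K0 (LaurentSeries Qb)).comp (Int.castRingHom ↥K0) =
      (algebraMap Qb (LaurentSeries Qb)).comp (Int.castRingHom Qb) := RingHom.ext_int _ _
  rw [e1, ← Polynomial.hom_eval₂]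
  rw [Polynomial.aeval_def] at hq0c
  have e2 : Int.castRingHom Qb = algebraMap ℤ Qb := RingHom.ext_int _ _
  rw [e2, hq0c, map_zero]

/-- **[CFE] for the modular Kummer cover.**  `E0 := FL_0` = the inertia-fixed part of the Kummer
cover of `l0`; `R` a UFD with fraction field `E0` containing the integers of the inertia field
(`hO0`), `h` a prime of `R` not dividing `p`; `u` a Kummer function of a class `x`, `ft ∈ E0` with
`ft = u g ^ p` in the cover field.  Then `H` holds for `h`. -/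
theorem edge_H_modular (hp : p.Prime) (hP : P.LiesOverPrime p)
    {ζ : Qb} (hζ : IsPrimitiveRoot ζ p)
    {l0 : JZero N} (hl0 : l0 ≠ 0) {u0 : modularFunctionFieldBar N} (hu0 : IsKummerRep p l0 u0)
    (hnorm : Normalized (u0 : LaurentSeries Qb))
    (hI : ∀ σ ∈ P.inertiaSubgroupIn ℚ, ∃ a : ℕ, σ • l0 = a • l0 ∧ σ ζ = ζ ^ a)
    (hfix : ∀ σ ∈ P.inertiaSubgroupIn ℚ, σ ζ = ζ →
      coeffMap (σ : Qb →+* Qb) (u0 : LaurentSeries Qb) = u0)
    {R : Type*} [CommRing R] [IsDomain R] [UniqueFactorizationMonoid R]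
    [Algebra R ((coverDatumOfKummer hp hζ hl0 hu0 hnorm).E0
      (rhoOfSubgroup (P.inertiaSubgroupIn ℚ)) (stable_rhoOfSubgroup hp hζ hl0 hu0 hnorm _ hI))]
    [IsFractionRing R ((coverDatumOfKummer hp hζ hl0 hu0 hnorm).E0
      (rhoOfSubgroup (P.inertiaSubgroupIn ℚ)) (stable_rhoOfSubgroup hp hζ hl0 hu0 hnorm _ hI))]
    (h : R) (hh : Prime h) (hph : ¬ h ∣ (p : R))
    (hO0 : ∀ c : Qb, c ∈ P → (∀ σ ∈ P.inertiaSubgroupIn ℚ, σ c = c) → ∃ a : R,
      iotaFixed (coverDatumOfKummer hp hζ hl0 hu0 hnorm) (rhoOfSubgroup (P.inertiaSubgroupIn ℚ))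
        (stable_rhoOfSubgroup hp hζ hl0 hu0 hnorm _ hI) (algebraMap R _ a) =
        algebraMap Qb (LaurentSeries Qb) c)
    {x : JZero N} {u : modularFunctionFieldBar N} (hu : IsKummerRep p x u)
    (g : (coverDatumOfKummer hp hζ hl0 hu0 hnorm).coverField) (hg0 : g ≠ 0)
    (ft : (coverDatumOfKummer hp hζ hl0 hu0 hnorm).E0
      (rhoOfSubgroup (P.inertiaSubgroupIn ℚ)) (stable_rhoOfSubgroup hp hζ hl0 hu0 hnorm _ hI))
    (heq : E0.val (coverDatumOfKummer hp hζ hl0 hu0 hnorm)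
        (rhoOfSubgroup (P.inertiaSubgroupIn ℚ))
        (stable_rhoOfSubgroup hp hζ hl0 hu0 hnorm _ hI) ft =
      algebraMap (modularFunctionFieldBar N) _ u * g ^ p)
    (f1 f2 : R) (hf2 : f2 ≠ 0)
    (hmul : ft * algebraMap R _ f2 = algebraMap R _ f1)
    (n1 n2 : ℕ) (h1 : h ^ n1 ∣ f1) (h1' : ¬ h ^ (n1 + 1) ∣ f1) (h2 : h ^ n2 ∣ f2)
    (h2' : ¬ h ^ (n2 + 1) ∣ f2) : (p : ℤ) ∣ (n1 : ℤ) - n2 := by
  haveI : CharZero (LaurentSeries Qb) :=
    charZero_of_injective_algebraMap (algebraMap Qb (LaurentSeries Qb)).injective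
  have hfixed : ∀ c : Qb, (∀ τ : ↥(P.inertiaSubgroupIn ℚ),
      rhoOfSubgroup (P.inertiaSubgroupIn ℚ) τ c = c) →
      ∀ σ ∈ P.inertiaSubgroupIn ℚ, σ c = c := fun c hc σ hσ => hc ⟨σ, hσ⟩
  refine edge_H_cover (coverDatumOfKummer hp hζ hl0 hu0 hnorm)
    (rhoOfSubgroup (P.inertiaSubgroupIn ℚ))
    (stable_rhoOfSubgroup hp hζ hl0 hu0 hnorm (P.inertiaSubgroupIn ℚ) hI)
    (coverField_le_closure_modular hp hζ hl0 hu0 hnorm hI hfix)
    (isAlgebraic_const _) h hh ?_ u hu.ne_zero (fun Pl => hu.dvd_ord Pl) g hg0 ft heq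
    f1 f2 hf2 hmul n1 n2 h1 h1' h2 h2'
  -- (n4)*: every inertia-fixed constant is a fraction with denominator prime to `h`
  intro c hc
  have h1R : ¬ h ∣ (1 : R) := fun hd => hh.not_isUnit (isUnit_of_dvd_one hd)
  by_cases hc0 : c = 0
  · refine ⟨0, 1, h1R, ?_⟩
    rw [hc0, map_zero, zero_mul, map_zero, map_zero]
  obtain ⟨k, w, hw, hcw⟩ :=
    Fermat.Agent.S40x.Kummer.fixed_eq_zpow_mul_unit P hp hP hc0 (hfixed c hc)
  have hwP : w ∈ P := (Fermat.Agent.S40x.Kummer.unit_of_valuation_eq_one P hw.1).1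
  obtain ⟨aw, haw⟩ := hO0 w hwP hw.2
  have hpow : ∀ m : ℕ, ¬ h ∣ (p : R) ^ m := fun m hd => hph (hh.dvd_of_dvd_pow hd)
  have hp0 : (p : LaurentSeries Qb) ≠ 0 := Nat.cast_ne_zero.mpr hp.ne_zero
  have hιp : ∀ m : ℕ, iotaFixed (coverDatumOfKummer hp hζ hl0 hu0 hnorm)
      (rhoOfSubgroup (P.inertiaSubgroupIn ℚ))
      (stable_rhoOfSubgroup hp hζ hl0 hu0 hnorm (P.inertiaSubgroupIn ℚ) hI)
      (algebraMap R _ ((p : R) ^ m)) = (p : LaurentSeries Qb) ^ m := fun m => by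
    rw [map_pow, map_pow, map_natCast, map_natCast]
  have hcC : algebraMap Qb (LaurentSeries Qb) c =
      (p : LaurentSeries Qb) ^ k * algebraMap Qb (LaurentSeries Qb) w := by
    rw [hcw, map_mul, map_zpow₀, map_natCast]
  rcases le_total 0 k with hk | hk
  · -- `c = p ^ k * w` with `k ≥ 0`
    obtain ⟨m, rfl⟩ := Int.eq_ofNat_of_zero_le hk
    refine ⟨(p : R) ^ m * aw, 1, h1R, ?_⟩
    rw [map_one, map_one, mul_one, map_mul, map_mul, hιp, haw, hcC, zpow_natCast]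
  · -- `c = w / p ^ m`
    obtain ⟨m, hm⟩ := Int.eq_ofNat_of_zero_le (neg_nonneg.mpr hk)
    have hkm : k = -(m : ℤ) := by omega
    refine ⟨aw, (p : R) ^ m, hpow m, ?_⟩
    rw [hιp, haw, hcC, hkm, zpow_neg, zpow_natCast]
    field_simp

/-- **[CFE] at a node ring**, in the exact binder shape of hypothesis `H` of
`Asm/Core.node_slope_eq`: `u u' = p ψ`, `ψ` a unit. -/
theorem edge_H_modular_node (hp : p.Prime) (hP : P.LiesOverPrime p)
    {ζ : Qb} (hζ : IsPrimitiveRoot ζ p)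
    {l0 : JZero N} (hl0 : l0 ≠ 0) {u0 : modularFunctionFieldBar N} (hu0 : IsKummerRep p l0 u0)
    (hnorm : Normalized (u0 : LaurentSeries Qb))
    (hI : ∀ σ ∈ P.inertiaSubgroupIn ℚ, ∃ a : ℕ, σ • l0 = a • l0 ∧ σ ζ = ζ ^ a)
    (hfix : ∀ σ ∈ P.inertiaSubgroupIn ℚ, σ ζ = ζ →
      coeffMap (σ : Qb →+* Qb) (u0 : LaurentSeries Qb) = u0)
    {R : Type*} [CommRing R] [IsDomain R] [UniqueFactorizationMonoid R]
    [Algebra R ((coverDatumOfKummer hp hζ hl0 hu0 hnorm).E0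
      (rhoOfSubgroup (P.inertiaSubgroupIn ℚ)) (stable_rhoOfSubgroup hp hζ hl0 hu0 hnorm _ hI))]
    [IsFractionRing R ((coverDatumOfKummer hp hζ hl0 hu0 hnorm).E0
      (rhoOfSubgroup (P.inertiaSubgroupIn ℚ)) (stable_rhoOfSubgroup hp hζ hl0 hu0 hnorm _ hI))]
    {v v' : R} (hv : Prime v) (hv' : Prime v') (hvv' : ∃ ψ : Rˣ, v * v' = (p : R) * ψ)
    (hO0 : ∀ c : Qb, c ∈ P → (∀ σ ∈ P.inertiaSubgroupIn ℚ, σ c = c) → ∃ a : R,
      iotaFixed (coverDatumOfKummer hp hζ hl0 hu0 hnorm) (rhoOfSubgroup (P.inertiaSubgroupIn ℚ))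
        (stable_rhoOfSubgroup hp hζ hl0 hu0 hnorm _ hI) (algebraMap R _ a) =
        algebraMap Qb (LaurentSeries Qb) c)
    {x : JZero N} {u : modularFunctionFieldBar N} (hu : IsKummerRep p x u)
    (g : (coverDatumOfKummer hp hζ hl0 hu0 hnorm).coverField) (hg0 : g ≠ 0)
    (ft : (coverDatumOfKummer hp hζ hl0 hu0 hnorm).E0
      (rhoOfSubgroup (P.inertiaSubgroupIn ℚ)) (stable_rhoOfSubgroup hp hζ hl0 hu0 hnorm _ hI))
    (heq : E0.val (coverDatumOfKummer hp hζ hl0 hu0 hnorm)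
        (rhoOfSubgroup (P.inertiaSubgroupIn ℚ))
        (stable_rhoOfSubgroup hp hζ hl0 hu0 hnorm _ hI) ft =
      algebraMap (modularFunctionFieldBar N) _ u * g ^ p) :
    ∀ h : R, Prime h → ¬ Associated h v → ¬ Associated h v' →
      ∀ f1 f2 : R, f2 ≠ 0 → ft * algebraMap R _ f2 = algebraMap R _ f1 →
      ∀ n1 n2 : ℕ, h ^ n1 ∣ f1 → ¬ h ^ (n1 + 1) ∣ f1 → h ^ n2 ∣ f2 → ¬ h ^ (n2 + 1) ∣ f2 →
        (p : ℤ) ∣ (n1 : ℤ) - n2 := by
  intro h hh hhv hhv' f1 f2 hf2 hmul n1 n2 h1 h1' h2 h2'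
  refine edge_H_modular hp hP hζ hl0 hu0 hnorm hI hfix h hh ?_ hO0 hu g hg0 ft heq f1 f2 hf2 hmul
    n1 n2 h1 h1' h2 h2'
  intro hd
  obtain ⟨ψ, hψ⟩ := hvv'
  have h3 : h ∣ v * v' := by rw [hψ]; exact Dvd.dvd.mul_right hd _
  rcases hh.dvd_or_dvd h3 with h4 | h4
  · exact hhv (hh.associated_of_dvd hv h4)
  · exact hhv' (hh.associated_of_dvd hv' h4)

/-- **[CFE] at a smooth-point ring**, in the exact binder shape of hypothesis `H` of
`Asm/Core.smooth_slope_eq_zero`: one vertical prime `π`, associated to `p`. -/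
theorem edge_H_modular_smooth (hp : p.Prime) (hP : P.LiesOverPrime p)
    {ζ : Qb} (hζ : IsPrimitiveRoot ζ p)
    {l0 : JZero N} (hl0 : l0 ≠ 0) {u0 : modularFunctionFieldBar N} (hu0 : IsKummerRep p l0 u0)
    (hnorm : Normalized (u0 : LaurentSeries Qb))
    (hI : ∀ σ ∈ P.inertiaSubgroupIn ℚ, ∃ a : ℕ, σ • l0 = a • l0 ∧ σ ζ = ζ ^ a)
    (hfix : ∀ σ ∈ P.inertiaSubgroupIn ℚ, σ ζ = ζ →
      coeffMap (σ : Qb →+* Qb) (u0 : LaurentSeries Qb) = u0)
    {R : Type*} [CommRing R] [IsDomain R] [UniqueFactorizationMonoid R]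
    [Algebra R ((coverDatumOfKummer hp hζ hl0 hu0 hnorm).E0
      (rhoOfSubgroup (P.inertiaSubgroupIn ℚ)) (stable_rhoOfSubgroup hp hζ hl0 hu0 hnorm _ hI))]
    [IsFractionRing R ((coverDatumOfKummer hp hζ hl0 hu0 hnorm).E0
      (rhoOfSubgroup (P.inertiaSubgroupIn ℚ)) (stable_rhoOfSubgroup hp hζ hl0 hu0 hnorm _ hI))]
    {π : R} (hπ : Prime π) (hπp : Associated π (p : R))
    (hO0 : ∀ c : Qb, c ∈ P → (∀ σ ∈ P.inertiaSubgroupIn ℚ, σ c = c) → ∃ a : R,
      iotaFixed (coverDatumOfKummer hp hζ hl0 hu0 hnorm) (rhoOfSubgroup (P.inertiaSubgroupIn ℚ))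
        (stable_rhoOfSubgroup hp hζ hl0 hu0 hnorm _ hI) (algebraMap R _ a) =
        algebraMap Qb (LaurentSeries Qb) c)
    {x : JZero N} {u : modularFunctionFieldBar N} (hu : IsKummerRep p x u)
    (g : (coverDatumOfKummer hp hζ hl0 hu0 hnorm).coverField) (hg0 : g ≠ 0)
    (ft : (coverDatumOfKummer hp hζ hl0 hu0 hnorm).E0
      (rhoOfSubgroup (P.inertiaSubgroupIn ℚ)) (stable_rhoOfSubgroup hp hζ hl0 hu0 hnorm _ hI))
    (heq : E0.val (coverDatumOfKummer hp hζ hl0 hu0 hnorm)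
        (rhoOfSubgroup (P.inertiaSubgroupIn ℚ))
        (stable_rhoOfSubgroup hp hζ hl0 hu0 hnorm _ hI) ft =
      algebraMap (modularFunctionFieldBar N) _ u * g ^ p) :
    ∀ h : R, Prime h → ¬ Associated h π →
      ∀ f1 f2 : R, f2 ≠ 0 → ft * algebraMap R _ f2 = algebraMap R _ f1 →
      ∀ n1 n2 : ℕ, h ^ n1 ∣ f1 → ¬ h ^ (n1 + 1) ∣ f1 → h ^ n2 ∣ f2 → ¬ h ^ (n2 + 1) ∣ f2 →
        (p : ℤ) ∣ (n1 : ℤ) - n2 := by
  intro h hh hhπ f1 f2 hf2 hmul n1 n2 h1 h1' h2 h2'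
  refine edge_H_modular hp hP hζ hl0 hu0 hnorm hI hfix h hh ?_ hO0 hu g hg0 ft heq f1 f2 hf2 hmul
    n1 n2 h1 h1' h2 h2'
  intro hd
  exact hhπ (hh.associated_of_dvd hπ (hd.trans hπp.symm.dvd))

end Modular

end Fermat.Agent.S40x.R2.Asm.CfeModular
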