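/-
P-S44, block C3, item (C) of `S44-IFACE-C3-ASM v2` (helper16): `R2/Asm/CfeModular` restated in
helper62's `NodeOver` / `IsSmoothPtRing` vocabulary (`EdgeB/AsmNode`, `EdgeB/AsmNodeEt`), i.e.
hypothesis `H` of `NodeOver.slope_eq` and of `smooth_slope_eq_zero_of_isSmoothPtRing` for the
modular Kummer cover, and the two one-call corollaries (slope identity at a node, slope `0` at a
smooth point) with only the slope rule `hsl` (item (S)) left as a hypothesis.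
-/
import Fermat.Agent.S40x.R2.Asm.CfeModular
import Fermat.Agent.S40x.EdgeB.AsmNodeEt

set_option autoImplicit false
set_option linter.style.haveILetI false

noncomputable section

namespace Fermat.Agent.S40x.R2.Asm.CfeNodeOver

open HahnSeries ModularCurve AlgebraicCurve Fermat.Agent.Gateway.Kummer
open Fermat.Agent.S40x.R2.Cover Fermat.Agent.S40x.R2.Cover.CoverDatum
open Fermat.Agent.S40x.R2.Asm.CfeModular Fermat.Agent.S40x.AsmNode Fermat.Agent.S40x.AsmNodeEt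
open Fermat.Agent.S40x.Node Fermat.Agent.S40x.PrimeOrd

local notation "Qb" => AlgebraicClosure ℚ
local notation "Γℚ" => (AlgebraicClosure ℚ ≃ₐ[ℚ] AlgebraicClosure ℚ)

variable {P : ValuationSubring Qb} {N : ℕ} [NeZero N] {p : ℕ}

section Node

variable (hp : p.Prime) (hP : P.LiesOverPrime p) {ζ : Qb} (hζ : IsPrimitiveRoot ζ p)
  {l0 : JZero N} (hl0 : l0 ≠ 0) {u0 : modularFunctionFieldBar N} (hu0 : IsKummerRep p l0 u0)
  (hnorm : Normalized (u0 : LaurentSeries Qb))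
  (hI : ∀ σ ∈ P.inertiaSubgroupIn ℚ, ∃ a : ℕ, σ • l0 = a • l0 ∧ σ ζ = ζ ^ a)
  (hfix : ∀ σ ∈ P.inertiaSubgroupIn ℚ, σ ζ = ζ →
    coeffMap (σ : Qb →+* Qb) (u0 : LaurentSeries Qb) = u0)

include hP hfix in
/-- **(C) at a node**: hypothesis `H` of `NodeOver.slope_eq` for the upstairs ring `R'` of a
`NodeOver` datum over `E0 := D.E0 ρ hρ`. -/
theorem edge_H_nodeOver {F0 : Type*} [Field F0]
    [Algebra F0 ((coverDatumOfKummer hp hζ hl0 hu0 hnorm).E0
      (rhoOfSubgroup (P.inertiaSubgroupIn ℚ)) (stable_rhoOfSubgroup hp hζ hl0 hu0 hnorm _ hI))]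
    {R : Type*} [CommRing R] [IsDomain R] [UniqueFactorizationMonoid R] [Algebra R F0]
    [IsFractionRing R F0]
    {R' : Type*} [CommRing R'] [IsDomain R'] [UniqueFactorizationMonoid R']
    [Algebra R' ((coverDatumOfKummer hp hζ hl0 hu0 hnorm).E0
      (rhoOfSubgroup (P.inertiaSubgroupIn ℚ)) (stable_rhoOfSubgroup hp hζ hl0 hu0 hnorm _ hI))]
    [IsFractionRing R' ((coverDatumOfKummer hp hζ hl0 hu0 hnorm).E0
      (rhoOfSubgroup (P.inertiaSubgroupIn ℚ)) (stable_rhoOfSubgroup hp hζ hl0 hu0 hnorm _ hI))]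
    {i : R →+* R'} {u u' : R} {Oinf Ozero : ValuationSubring F0}
    (h : NodeOver F0 ((coverDatumOfKummer hp hζ hl0 hu0 hnorm).E0
      (rhoOfSubgroup (P.inertiaSubgroupIn ℚ)) (stable_rhoOfSubgroup hp hζ hl0 hu0 hnorm _ hI))
      i p u u' Oinf Ozero)
    (hO0 : ∀ c : Qb, c ∈ P → (∀ σ ∈ P.inertiaSubgroupIn ℚ, σ c = c) → ∃ a : R',
      iotaFixed (coverDatumOfKummer hp hζ hl0 hu0 hnorm) (rhoOfSubgroup (P.inertiaSubgroupIn ℚ))
        (stable_rhoOfSubgroup hp hζ hl0 hu0 hnorm _ hI) (algebraMap R' _ a) =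
        algebraMap Qb (LaurentSeries Qb) c)
    {x : JZero N} {f : modularFunctionFieldBar N} (hf : IsKummerRep p x f)
    (g : (coverDatumOfKummer hp hζ hl0 hu0 hnorm).coverField) (hg0 : g ≠ 0)
    (ft : (coverDatumOfKummer hp hζ hl0 hu0 hnorm).E0
      (rhoOfSubgroup (P.inertiaSubgroupIn ℚ)) (stable_rhoOfSubgroup hp hζ hl0 hu0 hnorm _ hI))
    (heq : E0.val (coverDatumOfKummer hp hζ hl0 hu0 hnorm)
        (rhoOfSubgroup (P.inertiaSubgroupIn ℚ))
        (stable_rhoOfSubgroup hp hζ hl0 hu0 hnorm _ hI) ft =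
      algebraMap (modularFunctionFieldBar N) _ f * g ^ p) :
    ∀ q : R', Prime q → ¬ Associated q (i u) → ¬ Associated q (i u') →
      ∀ f1 f2 : R', f2 ≠ 0 → ft * algebraMap R' _ f2 = algebraMap R' _ f1 →
      ∀ n1 n2 : ℕ, q ^ n1 ∣ f1 → ¬ q ^ (n1 + 1) ∣ f1 → q ^ n2 ∣ f2 → ¬ q ^ (n2 + 1) ∣ f2 →
        (p : ℤ) ∣ (n1 : ℤ) - n2 := by
  obtain ⟨ψ, hψ, hrel⟩ := h.mul_eq
  have hψ' : IsUnit (i ψ) := hψ.map i
  refine edge_H_modular_node hp hP hζ hl0 hu0 hnorm hI hfix h.prime_iu h.prime_iu'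
    ⟨hψ'.unit, ?_⟩ hO0 hf g hg0 ft heq
  rw [IsUnit.unit_spec, ← map_mul, hrel, map_mul, map_natCast]

include hP hfix in
/-- **(C) + `NodeOver.slope_eq`**: the slope identity at a node of the modular Kummer cover, with
only the slope rule `hsl` (item (S)) left. -/
theorem slope_eq_nodeOver {F0 : Type*} [Field F0]
    [Algebra F0 ((coverDatumOfKummer hp hζ hl0 hu0 hnorm).E0
      (rhoOfSubgroup (P.inertiaSubgroupIn ℚ)) (stable_rhoOfSubgroup hp hζ hl0 hu0 hnorm _ hI))]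
    {R : Type*} [CommRing R] [IsDomain R] [UniqueFactorizationMonoid R] [Algebra R F0]
    [IsFractionRing R F0]
    {R' : Type*} [CommRing R'] [IsDomain R'] [UniqueFactorizationMonoid R']
    [Algebra R' ((coverDatumOfKummer hp hζ hl0 hu0 hnorm).E0
      (rhoOfSubgroup (P.inertiaSubgroupIn ℚ)) (stable_rhoOfSubgroup hp hζ hl0 hu0 hnorm _ hI))]
    [IsFractionRing R' ((coverDatumOfKummer hp hζ hl0 hu0 hnorm).E0
      (rhoOfSubgroup (P.inertiaSubgroupIn ℚ)) (stable_rhoOfSubgroup hp hζ hl0 hu0 hnorm _ hI))]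
    {i : R →+* R'} {u u' : R} {Oinf Ozero : ValuationSubring F0}
    (h : NodeOver F0 ((coverDatumOfKummer hp hζ hl0 hu0 hnorm).E0
      (rhoOfSubgroup (P.inertiaSubgroupIn ℚ)) (stable_rhoOfSubgroup hp hζ hl0 hu0 hnorm _ hI))
      i p u u' Oinf Ozero)
    (hO0 : ∀ c : Qb, c ∈ P → (∀ σ ∈ P.inertiaSubgroupIn ℚ, σ c = c) → ∃ a : R',
      iotaFixed (coverDatumOfKummer hp hζ hl0 hu0 hnorm) (rhoOfSubgroup (P.inertiaSubgroupIn ℚ))
        (stable_rhoOfSubgroup hp hζ hl0 hu0 hnorm _ hI) (algebraMap R' _ a) =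
        algebraMap Qb (LaurentSeries Qb) c)
    {x : JZero N} {f : modularFunctionFieldBar N} (hf : IsKummerRep p x f)
    (g : (coverDatumOfKummer hp hζ hl0 hu0 hnorm).coverField) (hg0 : g ≠ 0)
    (ft : (coverDatumOfKummer hp hζ hl0 hu0 hnorm).E0
      (rhoOfSubgroup (P.inertiaSubgroupIn ℚ)) (stable_rhoOfSubgroup hp hζ hl0 hu0 hnorm _ hI))
    (heq : E0.val (coverDatumOfKummer hp hζ hl0 hu0 hnorm)
        (rhoOfSubgroup (P.inertiaSubgroupIn ℚ))
        (stable_rhoOfSubgroup hp hζ hl0 hu0 hnorm _ hI) ft =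
      algebraMap (modularFunctionFieldBar N) _ f * g ^ p)
    (n : ZMod p)
    (hsl : ∀ (A B : ℤ) (ε : R'ˣ) (g1 g2 : R'), ¬ i u ∣ g1 → ¬ i u' ∣ g1 → ¬ i u ∣ g2 →
      ¬ i u' ∣ g2 →
      ft = algebraMap R' _ ε * algebraMap R' _ (i u) ^ A * algebraMap R' _ (i u') ^ B *
        (algebraMap R' _ g1 / algebraMap R' _ g2) ^ p → n = ((B - A : ℤ) : ZMod p)) :
    n = ((ordAt h.prime_iu' ft - ordAt h.prime_iu ft : ℤ) : ZMod p) := by
  have hft : ft ≠ 0 := by
    intro h0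
    have h1 := heq
    rw [h0, map_zero] at h1
    have h2 : algebraMap (modularFunctionFieldBar N)
        (coverDatumOfKummer hp hζ hl0 hu0 hnorm).coverField f ≠ 0 := by
      rw [Ne, map_eq_zero]
      exact hf.ne_zero
    exact mul_ne_zero h2 (pow_ne_zero p hg0) h1.symm
  exact h.slope_eq hp.ne_zero hft
    (edge_H_nodeOver hp hP hζ hl0 hu0 hnorm hI hfix h hO0 hf g hg0 ft heq) n hsl

include hP hfix in
/-- **(C) at a smooth point**: hypothesis `H` of `smooth_slope_eq_zero_of_isSmoothPtRing`, and the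
conclusion `n = 0` with only the slope rule left. -/
theorem smooth_slope_eq_zero_modular {S : Type*} [CommRing S] [IsDomain S] [IsNoetherianRing S]
    [IsLocalRing S]
    [Algebra S ((coverDatumOfKummer hp hζ hl0 hu0 hnorm).E0
      (rhoOfSubgroup (P.inertiaSubgroupIn ℚ)) (stable_rhoOfSubgroup hp hζ hl0 hu0 hnorm _ hI))]
    [IsFractionRing S ((coverDatumOfKummer hp hζ hl0 hu0 hnorm).E0
      (rhoOfSubgroup (P.inertiaSubgroupIn ℚ)) (stable_rhoOfSubgroup hp hζ hl0 hu0 hnorm _ hI))]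
    {t : S} (h : IsSmoothPtRing S p t)
    (hO0 : ∀ c : Qb, c ∈ P → (∀ σ ∈ P.inertiaSubgroupIn ℚ, σ c = c) → ∃ a : S,
      iotaFixed (coverDatumOfKummer hp hζ hl0 hu0 hnorm) (rhoOfSubgroup (P.inertiaSubgroupIn ℚ))
        (stable_rhoOfSubgroup hp hζ hl0 hu0 hnorm _ hI) (algebraMap S _ a) =
        algebraMap Qb (LaurentSeries Qb) c)
    {x : JZero N} {f : modularFunctionFieldBar N} (hf : IsKummerRep p x f)
    (g : (coverDatumOfKummer hp hζ hl0 hu0 hnorm).coverField) (hg0 : g ≠ 0)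
    (ft : (coverDatumOfKummer hp hζ hl0 hu0 hnorm).E0
      (rhoOfSubgroup (P.inertiaSubgroupIn ℚ)) (stable_rhoOfSubgroup hp hζ hl0 hu0 hnorm _ hI))
    (heq : E0.val (coverDatumOfKummer hp hζ hl0 hu0 hnorm)
        (rhoOfSubgroup (P.inertiaSubgroupIn ℚ))
        (stable_rhoOfSubgroup hp hζ hl0 hu0 hnorm _ hI) ft =
      algebraMap (modularFunctionFieldBar N) _ f * g ^ p)
    (n : ZMod p)
    (hsl : ∀ (A : ℤ) (ε : Sˣ) (g1 g2 : S), ¬ (p : S) ∣ g1 → ¬ (p : S) ∣ g2 →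
      ft = algebraMap S _ ε * algebraMap S _ (p : S) ^ A *
        (algebraMap S _ g1 / algebraMap S _ g2) ^ p → n = 0) :
    n = 0 := by
  have hft : ft ≠ 0 := by
    intro h0
    have h1 := heq
    rw [h0, map_zero] at h1
    have h2 : algebraMap (modularFunctionFieldBar N)
        (coverDatumOfKummer hp hζ hl0 hu0 hnorm).coverField f ≠ 0 := by
      rw [Ne, map_eq_zero]
      exact hf.ne_zero
    exact mul_ne_zero h2 (pow_ne_zero p hg0) h1.symm
  haveI := ufm_of_isSmoothPtRing h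
  exact smooth_slope_eq_zero_of_isSmoothPtRing hp.ne_zero h hft
    (edge_H_modular_smooth hp hP hζ hl0 hu0 hnorm hI hfix h.prime_p (Associated.refl _) hO0 hf g
      hg0 ft heq) n hsl

end Node

end Fermat.Agent.S40x.R2.Asm.CfeNodeOver
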