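/-
P-S44/S40, block C3, sub-assembly (F) FIELD of `S44-IFACE-C3-ASM v2`, part 1 (helper48):
THE GLOBAL (place-independent) BLOCK OF `Asm.c3_core_pair` AT `F0 := D.F0 ρ hρ`, `E0 := D.E0 ρ hρ`.

`P` a valuation subring of `Qbar` over `q`, `I` its inertia group, `ρ := rhoOfSubgroup I`, `D` ANY
cover datum over the function field of level `M q` on which `I` acts stably (`hρ`).

* `isOrd_comap` : transport of `Transitive.IsOrd` along a ring isomorphism;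
* `isoF0 : Vocab.F0 P (M q) ≃+* D.F0 ρ hρ` (landed `vocabIso` + `baseIso`), `val_isoF0`;
* `OinfD`, `OzeroD : ValuationSubring (D.F0 ρ hρ)`, `vinfD`, `vzeroD : D.F0 ρ hρ → ℤ` : helper6's
  `Node/OrdF0` transported; `isOrd_vinfD`, `isOrd_vzeroD`, `vinfD_natCast`, `vzeroD_natCast`
  (`v q = 1`), `isoF0_mem_OinfD_iff` / `isoF0_mem_OzeroD_iff` (seam to [ET]: membership is
  membership of the underlying function in `valInfty` / `valZero`), `vinfD_isoF0`, `vzeroD_isoF0`;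
* `kappaD : Vocab.K0 P →+* D.F0 ρ hρ` (constants), `val_kappaD`, `dvd_vinfD_const`,
  `dvd_vzeroD_const` ([KU]: `a = q^(q j) u`, `u ∈ O₀ˣ` ⟹ `q ∣ v a`);
* `global_of_descent` : from the output of ANY of the landed descents (cover-field form) and the
  peu ramifié output `β^q = q^(q j) w`: `ft h : D.E0`, `a : D.F0`, nonzero, `E0.val ft = u g^q`,
  `D.sigmaAlg ft = a h^q ft`, `q ∣ vinfD a`, `q ∣ vzeroD a`;
* `c3_pair_of_global` : `Asm.c3_core_pair` with all global hypotheses discharged;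
* `global_modular` : the instance `D := coverDatumOfKummer …` with the explicit Kummer element `b`
  (`CoverModular.descent_modular_peu`).
-/
import Fermat.Agent.S40x.R2.CoverModular
import Fermat.Agent.S40x.R2.Cover.BaseIso
import Fermat.Agent.S40x.R2.Asm.Core
import Fermat.Agent.S40x.Node.OrdF0

set_option autoImplicit false
set_option linter.unusedSectionVars false
set_option linter.unusedVariables false
set_option linter.style.haveILetI false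

noncomputable section

namespace Fermat.Agent.S40x.R2.Asm.GlobalBlock

open HahnSeries ModularCurve AlgebraicCurve IsLocalRing
open Fermat.Agent.Gateway.Kummer Fermat.Agent.Gateway.Hecke
open Fermat.Agent.S34x.TwoVal Fermat.Agent.S34x.Inst.RedSetupInst
open Fermat.Agent.S33x.H1.FixData2Inst Fermat.Agent.S34x.TwoVal.ResidueInst
open Fermat.Agent.S40x.R2.Transitive (IsOrd)
open Fermat.Agent.S40x.R2.Cover Fermat.Agent.S40x.R2.Cover.CoverDatum
open Fermat.Agent.S40x.Node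

/-! ### Transport of an order function along a ring isomorphism -/

section Transport

variable {A B : Type*} [Field A] [Field B]

/-- The order function transported along `e : B ≃+* A`. -/
theorem isOrd_comap (e : B ≃+* A) {O : ValuationSubring A} {v : A → ℤ} (h : IsOrd O v) :
    IsOrd (O.comap (e : B →+* A)) fun x => v (e x) := by
  refine ⟨fun x y hx hy => ?_, fun x hx => ?_⟩
  · show v (e (x * y)) = v (e x) + v (e y)
    rw [map_mul]
    exact h.map_mul ((map_ne_zero e).mpr hx) ((map_ne_zero e).mpr hy)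
  · exact h.nonneg_iff ((map_ne_zero e).mpr hx)

end Transport

local notation "Qb" => AlgebraicClosure ℚ
local notation "Γℚ" => (AlgebraicClosure ℚ ≃ₐ[ℚ] AlgebraicClosure ℚ)

/-! ### The two order functions on `D.F0` -/

section OrdD

variable (P : ValuationSubring Qb) {k : Type} [Field k] (π : P →+* k) [IsAlgClosed k]
variable (M q : ℕ) [NeZero M] [Fact q.Prime] [CharP k q]
variable (hdeg : finrankAlong Qb (heckeAlphaBar Qb M q) = q + 1) (hq : q.Prime)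
  (hqM : ¬ q ∣ M)
variable (hrk : ∀ x ∈ maximalIdeal P, ∀ c : P, c ≠ 0 → ∃ j : ℕ, c ∣ x ^ j)
  (hπ : Function.Surjective π)
variable (D : CoverDatum (modularFunctionFieldBar (M * q)) q)
variable (hρ : ∀ g, D.Stable (rhoOfSubgroup (P.inertiaSubgroupIn ℚ) g))

/-- `Vocab.F0 P (M q) ≃ D.F0`: the inertia-fixed functions of level `M q` are the base field of
`FL_0`. -/
def isoF0 : ↥(Vocab.F0 P (M * q)) ≃+* ↥(D.F0 (rhoOfSubgroup (P.inertiaSubgroupIn ℚ)) hρ) :=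
  (vocabIso P (M * q)).trans (D.baseIso (rhoOfSubgroup (P.inertiaSubgroupIn ℚ)) hρ)

local notation "ρI" => rhoOfSubgroup (P.inertiaSubgroupIn ℚ)

@[simp] theorem val_isoF0 (y : Vocab.F0 P (M * q)) :
    E0.val D ρI hρ ((isoF0 P M q D hρ y : D.F0 ρI hρ) : D.E0 ρI hρ) =
      algebraMap (modularFunctionFieldBar (M * q)) D.coverField
        (y : modularFunctionFieldBar (M * q)) := rfl

/-- `O_∞ ∩ F_0` on the type `D.F0`. -/
def OinfD : ValuationSubring ↥(D.F0 ρI hρ) :=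
  (OrdF0.Oinf P π M q hqM hrk hπ (Vocab.F0 P (M * q))).comap
    ((isoF0 P M q D hρ).symm : ↥(D.F0 ρI hρ) →+* ↥(Vocab.F0 P (M * q)))

/-- `O_0 ∩ F_0` on the type `D.F0`. -/
def OzeroD : ValuationSubring ↥(D.F0 ρI hρ) :=
  (OrdF0.Ozero P π M q hdeg hq hqM hrk hπ (Vocab.F0 P (M * q))).comap
    ((isoF0 P M q D hρ).symm : ↥(D.F0 ρI hρ) →+* ↥(Vocab.F0 P (M * q)))

/-- `v_∞` on `D.F0`, normalised by `v_∞ (q) = 1`. -/
def vinfD (x : D.F0 ρI hρ) : ℤ :=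
  OrdF0.vinf P π M q hqM hrk hπ (Vocab.F0 P (M * q)) ((isoF0 P M q D hρ).symm x)

/-- `v_0` on `D.F0`, normalised by `v_0 (q) = 1`. -/
def vzeroD (x : D.F0 ρI hρ) : ℤ :=
  OrdF0.vzero P π M q hdeg hq hqM hrk hπ (Vocab.F0 P (M * q)) ((isoF0 P M q D hρ).symm x)

include hdeg hq in
theorem isOrd_vinfD : IsOrd (OinfD P π M q hqM hrk hπ D hρ) (vinfD P π M q hqM hrk hπ D hρ) :=
  isOrd_comap (isoF0 P M q D hρ).symm (OrdF0.isOrd_vinf_F0 P π M q hdeg hq hqM hrk hπ)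

theorem isOrd_vzeroD :
    IsOrd (OzeroD P π M q hdeg hq hqM hrk hπ D hρ) (vzeroD P π M q hdeg hq hqM hrk hπ D hρ) :=
  isOrd_comap (isoF0 P M q D hρ).symm (OrdF0.isOrd_vzero_F0 P π M q hdeg hq hqM hrk hπ)

/-- Seam to `[ET]`: membership in `OinfD` is membership of the underlying function in
`valInfty`. -/
theorem isoF0_mem_OinfD_iff (y : Vocab.F0 P (M * q)) :
    isoF0 P M q D hρ y ∈ OinfD P π M q hqM hrk hπ D hρ ↔
      (y : FL Qb (M * q)) ∈ valInfty P π M q hrk hπ hqM := by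
  show (isoF0 P M q D hρ).symm (isoF0 P M q D hρ y) ∈ OrdF0.Oinf P π M q hqM hrk hπ _ ↔ _
  rw [RingEquiv.symm_apply_apply]
  exact OrdF0.mem_Oinf P π M q hqM hrk hπ _

theorem isoF0_mem_OzeroD_iff (y : Vocab.F0 P (M * q)) :
    isoF0 P M q D hρ y ∈ OzeroD P π M q hdeg hq hqM hrk hπ D hρ ↔
      (y : FL Qb (M * q)) ∈ valZero P π M q hdeg hq hqM hrk hπ := by
  show (isoF0 P M q D hρ).symm (isoF0 P M q D hρ y) ∈ OrdF0.Ozero P π M q hdeg hq hqM hrk hπ _ ↔ _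
  rw [RingEquiv.symm_apply_apply]
  exact OrdF0.mem_Ozero P π M q hdeg hq hqM hrk hπ _

theorem vinfD_isoF0 (y : Vocab.F0 P (M * q)) :
    vinfD P π M q hqM hrk hπ D hρ (isoF0 P M q D hρ y) =
      OrdF0.vinf P π M q hqM hrk hπ (Vocab.F0 P (M * q)) y := by
  show OrdF0.vinf P π M q hqM hrk hπ _ ((isoF0 P M q D hρ).symm (isoF0 P M q D hρ y)) = _
  rw [RingEquiv.symm_apply_apply]

theorem vzeroD_isoF0 (y : Vocab.F0 P (M * q)) :
    vzeroD P π M q hdeg hq hqM hrk hπ D hρ (isoF0 P M q D hρ y) =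
      OrdF0.vzero P π M q hdeg hq hqM hrk hπ (Vocab.F0 P (M * q)) y := by
  show OrdF0.vzero P π M q hdeg hq hqM hrk hπ _ ((isoF0 P M q D hρ).symm (isoF0 P M q D hρ y)) = _
  rw [RingEquiv.symm_apply_apply]

include hdeg hq in
/-- `v_∞ (q) = 1` (`hcinf` of `c3_core_pair` with `c := (q : F0)`). -/
theorem vinfD_natCast : vinfD P π M q hqM hrk hπ D hρ ((q : ℕ) : D.F0 ρI hρ) = 1 := by
  have h : ((q : ℕ) : D.F0 ρI hρ) = isoF0 P M q D hρ ((q : ℕ) : Vocab.F0 P (M * q)) :=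
    (map_natCast (isoF0 P M q D hρ) q).symm
  rw [h, vinfD_isoF0]
  exact OrdF0.vinf_natCast P π M q hdeg hq hqM hrk hπ _

/-- `v_0 (q) = 1` (`hczero` of `c3_core_pair` with `c := (q : F0)`). -/
theorem vzeroD_natCast : vzeroD P π M q hdeg hq hqM hrk hπ D hρ ((q : ℕ) : D.F0 ρI hρ) = 1 := by
  have h : ((q : ℕ) : D.F0 ρI hρ) = isoF0 P M q D hρ ((q : ℕ) : Vocab.F0 P (M * q)) :=
    (map_natCast (isoF0 P M q D hρ) q).symm
  rw [h, vzeroD_isoF0]
  exact OrdF0.vzero_natCast P π M q hdeg hq hqM hrk hπ _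

/-! #### Constants -/

/-- The inertia field `K0` inside `D.F0`. -/
def kappaD : Vocab.K0 P →+* ↥(D.F0 ρI hρ) :=
  ((isoF0 P M q D hρ : ↥(Vocab.F0 P (M * q)) →+* ↥(D.F0 ρI hρ))).comp (Vocab.K0toF0 P (M * q))

@[simp] theorem val_kappaD (c : Vocab.K0 P) :
    E0.val D ρI hρ ((kappaD P M q D hρ c : D.F0 ρI hρ) : D.E0 ρI hρ) =
      algebraMap Qb D.coverField (c : Qb) := rfl

include hdeg hq in
theorem vinfD_kappaD_natCast :
    vinfD P π M q hqM hrk hπ D hρ (kappaD P M q D hρ (q : Vocab.K0 P)) = 1 := by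
  show vinfD P π M q hqM hrk hπ D hρ (isoF0 P M q D hρ _) = 1
  rw [vinfD_isoF0]
  exact OrdF0.vinf_K0toF0_natCast P π M q hdeg hq hqM hrk hπ

theorem vzeroD_kappaD_natCast :
    vzeroD P π M q hdeg hq hqM hrk hπ D hρ (kappaD P M q D hρ (q : Vocab.K0 P)) = 1 := by
  show vzeroD P π M q hdeg hq hqM hrk hπ D hρ (isoF0 P M q D hρ _) = 1
  rw [vzeroD_isoF0]
  exact OrdF0.vzero_K0toF0_natCast P π M q hdeg hq hqM hrk hπ

include hdeg hq in
theorem vinfD_kappaD_unit (u : Vocab.K0 P) (hu : (u : Qb) ∈ Fermat.Agent.S40x.Kummer.unitFixed P) :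
    vinfD P π M q hqM hrk hπ D hρ (kappaD P M q D hρ u) = 0 := by
  show vinfD P π M q hqM hrk hπ D hρ (isoF0 P M q D hρ _) = 0
  rw [vinfD_isoF0]
  exact OrdF0.vinf_K0toF0_unit P π M q hdeg hq hqM hrk hπ u hu

theorem vzeroD_kappaD_unit (u : Vocab.K0 P)
    (hu : (u : Qb) ∈ Fermat.Agent.S40x.Kummer.unitFixed P) :
    vzeroD P π M q hdeg hq hqM hrk hπ D hρ (kappaD P M q D hρ u) = 0 := by
  show vzeroD P π M q hdeg hq hqM hrk hπ D hρ (isoF0 P M q D hρ _) = 0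
  rw [vzeroD_isoF0]
  exact OrdF0.vzero_K0toF0_unit P π M q hdeg hq hqM hrk hπ u hu

include hdeg hq in
/-- **[KU] at `∞` on `D.F0`**: `a = q^(q k) u`, `u ∈ O₀ˣ` ⟹ `q ∣ v_∞ a`
(`hainf` of `c3_core_pair`). -/
theorem dvd_vinfD_const (a : Vocab.K0 P) {j : ℤ} {u : Qb}
    (hu : u ∈ Fermat.Agent.S40x.Kummer.unitFixed P)
    (hau : (a : Qb) = (q : Qb) ^ ((q : ℤ) * j) * u) :
    (q : ℤ) ∣ vinfD P π M q hqM hrk hπ D hρ (kappaD P M q D hρ a) :=
  Fermat.Agent.S40x.R2.Asm.KU.dvd_ord_of_eq_zpow_mul_unit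
    (isOrd_vinfD P π M q hdeg hq hqM hrk hπ D hρ) (Vocab.K0 P) (fun _ hc => hc)
    (kappaD P M q D hρ) (vinfD_kappaD_natCast P π M q hdeg hq hqM hrk hπ D hρ)
    (vinfD_kappaD_unit P π M q hdeg hq hqM hrk hπ D hρ) hq a hu hau

/-- **[KU] at `0` on `D.F0`** (`hazero` of `c3_core_pair`). -/
theorem dvd_vzeroD_const (a : Vocab.K0 P) {j : ℤ} {u : Qb}
    (hu : u ∈ Fermat.Agent.S40x.Kummer.unitFixed P)
    (hau : (a : Qb) = (q : Qb) ^ ((q : ℤ) * j) * u) :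
    (q : ℤ) ∣ vzeroD P π M q hdeg hq hqM hrk hπ D hρ (kappaD P M q D hρ a) :=
  Fermat.Agent.S40x.R2.Asm.KU.dvd_ord_of_eq_zpow_mul_unit
    (isOrd_vzeroD P π M q hdeg hq hqM hrk hπ D hρ) (Vocab.K0 P) (fun _ hc => hc)
    (kappaD P M q D hρ) (vzeroD_kappaD_natCast P π M q hdeg hq hqM hrk hπ D hρ)
    (vzeroD_kappaD_unit P π M q hdeg hq hqM hrk hπ D hρ) hq a hu hau

include hq in
theorem natCast_ne_zero : ((q : ℕ) : D.F0 ρI hρ) ≠ 0 := by
  rw [← map_natCast (kappaD P M q D hρ) q]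
  exact (map_ne_zero _).mpr (Nat.cast_ne_zero.mpr hq.ne_zero)

/-! #### The global block -/

include hdeg hq in
/-- **Global block of `c3_core_pair`, from the output of the descent** (any of
`CoverModular.descent_modular`, `Kum.DescInst.descent_cover`, `KFB.descent_of_shape`) and the
"peu ramifié" output `β^q = q^(q j) w`, `w ∈ O₀ˣ`. -/
theorem global_of_descent {u : modularFunctionFieldBar (M * q)} {g h : D.coverField} {β : Qb}
    (hu0 : u ≠ 0) (hg0 : g ≠ 0) (hh0 : h ≠ 0) (hβ0 : β ≠ 0)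
    (hft : algebraMap (modularFunctionFieldBar (M * q)) D.coverField u * g ^ q ∈
      D.fixedField ρI hρ)
    (hhfix : h ∈ D.fixedField ρI hρ)
    (hβfix : ∀ τ ∈ P.inertiaSubgroupIn ℚ, τ (β ^ q) = β ^ q)
    (hσ : D.sigma (algebraMap (modularFunctionFieldBar (M * q)) D.coverField u * g ^ q) =
      algebraMap Qb D.coverField (β ^ q) * h ^ q *
        (algebraMap (modularFunctionFieldBar (M * q)) D.coverField u * g ^ q))
    (hpeu : ∃ j : ℤ, ∃ w ∈ Fermat.Agent.S40x.Kummer.unitFixed P,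
      β ^ q = (q : Qb) ^ ((q : ℤ) * j) * w) :
    ∃ (ft h' : D.E0 ρI hρ) (a : D.F0 ρI hρ), ft ≠ 0 ∧ h' ≠ 0 ∧ a ≠ 0 ∧
      E0.val D ρI hρ ft =
        algebraMap (modularFunctionFieldBar (M * q)) D.coverField u * g ^ q ∧
      E0.val D ρI hρ h' = h ∧
      E0.val D ρI hρ (a : D.E0 ρI hρ) = algebraMap Qb D.coverField (β ^ q) ∧
      D.sigmaAlg ρI hρ ft = algebraMap (D.F0 ρI hρ) (D.E0 ρI hρ) a * h' ^ q * ft ∧
      (q : ℤ) ∣ vinfD P π M q hqM hrk hπ D hρ a ∧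
      (q : ℤ) ∣ vzeroD P π M q hdeg hq hqM hrk hπ D hρ a := by
  obtain ⟨j, w, hw, hβw⟩ := hpeu
  refine ⟨E0.mk D ρI hρ _ hft, E0.mk D ρI hρ h hhfix,
    kappaD P M q D hρ ⟨β ^ q, hβfix⟩, ?_, ?_, ?_, rfl, rfl, rfl, ?_, ?_, ?_⟩
  · intro h0
    have := congrArg (E0.val D ρI hρ) h0
    rw [E0.val_mk, map_zero] at this
    have hu0' : algebraMap (modularFunctionFieldBar (M * q)) D.coverField u ≠ 0 := by
      rw [Ne, map_eq_zero]; exact hu0
    exact mul_ne_zero hu0' (pow_ne_zero q hg0) this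
  · intro h0
    have := congrArg (E0.val D ρI hρ) h0
    rw [E0.val_mk, map_zero] at this
    exact hh0 this
  · rw [Ne, map_eq_zero]
    intro h0
    exact pow_ne_zero q hβ0 (congrArg Subtype.val h0)
  · exact D.sigmaAlg_eq_of_sigma_eq ρI hρ hσ
  · exact dvd_vinfD_const P π M q hdeg hq hqM hrk hπ D hρ ⟨β ^ q, hβfix⟩ hw hβw
  · exact dvd_vzeroD_const P π M q hdeg hq hqM hrk hπ D hρ ⟨β ^ q, hβfix⟩ hw hβw

include hdeg hq in
/-- **`c3_core_pair` with its global hypotheses discharged** at `F0 := D.F0`, `E0 := D.E0`,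
`Oinf := OinfD`, … : only the per-node hypotheses remain. -/
theorem c3_pair_of_global {ft h : D.E0 ρI hρ} {a : D.F0 ρI hρ}
    (hft : ft ≠ 0) (hh : h ≠ 0) (ha : a ≠ 0)
    (hσ : D.sigmaAlg ρI hρ ft = algebraMap (D.F0 ρI hρ) (D.E0 ρI hρ) a * h ^ q * ft)
    (hainf : (q : ℤ) ∣ vinfD P π M q hqM hrk hπ D hρ a)
    (hazero : (q : ℤ) ∣ vzeroD P π M q hdeg hq hqM hrk hπ D hρ a)
    -- first node
    {Winf Wzero : ValuationSubring (D.E0 ρI hρ)} {winf wzero : D.E0 ρI hρ → ℤ}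
    (hWinf : ∀ e : D.F0 ρI hρ, algebraMap (D.F0 ρI hρ) (D.E0 ρI hρ) e ∈ Winf ↔
      e ∈ OinfD P π M q hqM hrk hπ D hρ)
    (hWzero : ∀ e : D.F0 ρI hρ, algebraMap (D.F0 ρI hρ) (D.E0 ρI hρ) e ∈ Wzero ↔
      e ∈ OzeroD P π M q hdeg hq hqM hrk hπ D hρ)
    (hwinf : IsOrd Winf winf) (hwzero : IsOrd Wzero wzero)
    (hvinf : ∀ e : D.F0 ρI hρ, e ≠ 0 →
      winf (algebraMap (D.F0 ρI hρ) (D.E0 ρI hρ) e) = vinfD P π M q hqM hrk hπ D hρ e)
    (hvzero : ∀ e : D.F0 ρI hρ, e ≠ 0 →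
      wzero (algebraMap (D.F0 ρI hρ) (D.E0 ρI hρ) e) = vzeroD P π M q hdeg hq hqM hrk hπ D hρ e)
    (n : ZMod q) (hn : n = ((wzero ft - winf ft : ℤ) : ZMod q))
    -- second node
    {Winf' Wzero' : ValuationSubring (D.E0 ρI hρ)} {winf' wzero' : D.E0 ρI hρ → ℤ}
    (hWinf' : ∀ e : D.F0 ρI hρ, algebraMap (D.F0 ρI hρ) (D.E0 ρI hρ) e ∈ Winf' ↔
      e ∈ OinfD P π M q hqM hrk hπ D hρ)
    (hWzero' : ∀ e : D.F0 ρI hρ, algebraMap (D.F0 ρI hρ) (D.E0 ρI hρ) e ∈ Wzero' ↔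
      e ∈ OzeroD P π M q hdeg hq hqM hrk hπ D hρ)
    (hwinf' : IsOrd Winf' winf') (hwzero' : IsOrd Wzero' wzero')
    (hvinf' : ∀ e : D.F0 ρI hρ, e ≠ 0 →
      winf' (algebraMap (D.F0 ρI hρ) (D.E0 ρI hρ) e) = vinfD P π M q hqM hrk hπ D hρ e)
    (hvzero' : ∀ e : D.F0 ρI hρ, e ≠ 0 →
      wzero' (algebraMap (D.F0 ρI hρ) (D.E0 ρI hρ) e) =
        vzeroD P π M q hdeg hq hqM hrk hπ D hρ e)
    (n' : ZMod q) (hn' : n' = ((wzero' ft - winf' ft : ℤ) : ZMod q)) :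
    n = n' :=
  c3_core_pair (c := ((q : ℕ) : D.F0 ρI hρ)) (natCast_ne_zero P M q hq D hρ)
    (by rw [vinfD_natCast P π M q hdeg hq hqM hrk hπ D hρ]; exact one_ne_zero)
    (by rw [vzeroD_natCast P π M q hdeg hq hqM hrk hπ D hρ]; exact one_ne_zero)
    (D.sigmaAlg_generates ρI hρ) hft hh ha hσ hainf hazero
    hWinf hWzero hwinf hwzero hvinf hvzero n hn
    hWinf' hWzero' hwinf' hwzero' hvinf' hvzero' n' hn'

end OrdD

/-! ### The modular instance: `D := coverDatumOfKummer …` -/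

section Modular

variable (P : ValuationSubring Qb) {k : Type} [Field k] (π : P →+* k) [IsAlgClosed k]
variable (M q : ℕ) [NeZero M] [Fact q.Prime] [CharP k q]
variable (hdeg : finrankAlong Qb (heckeAlphaBar Qb M q) = q + 1) (hq : q.Prime)
  (hqM : ¬ q ∣ M)
variable (hrk : ∀ x ∈ maximalIdeal P, ∀ c : P, c ≠ 0 → ∃ j : ℕ, c ∣ x ^ j)
  (hπ : Function.Surjective π)

include hdeg in
/-- **The global block at the modular level `M q`** (explicit Kummer element `b` of `(d')`):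
`(KF) + (COV) + (DESC) + (KUM) + [FP] + [N] + [KU]` in one call. -/
theorem global_modular (hP : P.LiesOverPrime q)
    {ζ : Qb} (hζ : IsPrimitiveRoot ζ q) {l0 : JZero (M * q)}
    (hl0 : l0 ≠ 0) {u0 : modularFunctionFieldBar (M * q)} (hu0 : IsKummerRep q l0 u0)
    (hnorm : Normalized (u0 : LaurentSeries Qb))
    (hI : ∀ σ ∈ P.inertiaSubgroupIn ℚ, ∃ a : ℕ, σ • l0 = a • l0 ∧ σ ζ = ζ ^ a)
    {x : JZero (M * q)} {u : modularFunctionFieldBar (M * q)} (hu : IsKummerRep q x u)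
    (hun : Normalized (u : LaurentSeries Qb))
    (j : Γℚ → ℕ) (hx : ∀ σ ∈ P.inertiaSubgroupIn ℚ, σ • x - x = j σ • l0)
    {b : Qb} (hb : b ^ q ∈ Fermat.Agent.S40x.Kummer.unitFixed P)
    (hjb : ∀ τ ∈ P.inertiaSubgroupIn ℚ, τ ζ = ζ → τ b = ζ ^ j τ * b) :
    let D := coverDatumOfKummer hq hζ hl0 hu0 hnorm
    let ρ := rhoOfSubgroup (P.inertiaSubgroupIn ℚ)
    let hρ := stable_rhoOfSubgroup hq hζ hl0 hu0 hnorm (P.inertiaSubgroupIn ℚ) hI
    ∃ (ft h : D.E0 ρ hρ) (a : D.F0 ρ hρ) (g : D.coverField), ft ≠ 0 ∧ h ≠ 0 ∧ a ≠ 0 ∧ g ≠ 0 ∧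
      E0.val D ρ hρ ft =
        algebraMap (modularFunctionFieldBar (M * q)) D.coverField u * g ^ q ∧
      D.sigmaAlg ρ hρ ft = algebraMap (D.F0 ρ hρ) (D.E0 ρ hρ) a * h ^ q * ft ∧
      (q : ℤ) ∣ vinfD P π M q hqM hrk hπ D hρ a ∧
      (q : ℤ) ∣ vzeroD P π M q hdeg hq hqM hrk hπ D hρ a := by
  intro D ρ hρ
  obtain ⟨g, h, β, hg0, hh0, hβ0, hft, hhm, hβfix, hσ, -, hpeu⟩ :=
    Fermat.Agent.S40x.R2.CoverModular.descent_modular_peu hq P hP hζ hl0 hu0 hnorm hI hu hun j hx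
      hb hjb
  obtain ⟨ft, h', a, hft0, hh'0, ha0, hval, -, -, hσ', hinf, hzero⟩ :=
    global_of_descent P π M q hdeg hq hqM hrk hπ D hρ hu.ne_zero hg0 hh0 hβ0 hft hhm hβfix hσ hpeu
  exact ⟨ft, h', a, g, hft0, hh'0, ha0, hg0, hval, hσ', hinf, hzero⟩

end Modular

end Fermat.Agent.S40x.R2.Asm.GlobalBlock
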