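/-
P-S44/S40, block C3, sub-assembly (F) FIELD in the `D.E0 / D.F0` vocabulary (helper48).

The per-node suppliers of C3-ASM are stated in the [FP] vocabulary of `R2/Cover/FixedGalois`
(`E0 := D.E0 ρ hρ`, `F0 := ↥(D.F0 ρ hρ)` a subfield of `E0`): `R2/Asm/CfeModular` ([CFE]),
`NodeRing/CoverSeam` ([ET]), `EdgeB/AsmNode.c3_pair`.  This file is the twin, in that vocabulary
and on top of `R2/Asm/GlobalBlock`, of helper78's `Kum/PairModular` + `Kum/PairNodes` (which live in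
the `FixedBase / FixedCover` vocabulary of `R2/Cover/FixedPart`):

* `dvd_of_isOrd_OinfD`, `dvd_of_isOrd_OzeroD` : `hainf` / `hazero` in the shape of
  `EdgeB/AsmNode.c3_pair` (for EVERY order function of `OinfD` normalised by `v q = 1`);
* `exists_ftD_raw` : [DI] + [FP] + [KU] + [N] for ANY cover datum `D` over level `M q` whose Kummer
  function represents `l0` (hypotheses: `hx` in `∃ j` form, `hd` = the `I°`-form of `s44_geo'`):
  `ft h : D.E0`, `a : D.F0`, `g`, `E0.val ft = u g^q`, `D.sigmaAlg ft = a h^q ft`, `q ∣ vinfD a`,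
  `q ∣ vzeroD a`;
* `FtSpecD`, `exists_ftD`, `exists_ftD_kummer` : the descended Kummer function with `(Tinf)`,
  `(Tzero)`;
* `NodeDataD`, `exists_const_of_ftSpecD`, `exists_const_slopeD` : all node slopes are equal;
* `package_kummer` : ONE existential package for `AsmNode.c3_pair` (`σ := D.sigmaAlg`, `hgen`,
  `ft h a`, `hσ`, `hainf`, `hazero`, link `E0.val ft = u g^q`).
-/
import Fermat.Agent.S40x.R2.Asm.GlobalBlock

set_option autoImplicit false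
set_option linter.unusedSectionVars false
set_option linter.unusedVariables false
set_option linter.style.haveILetI false

noncomputable section

namespace Fermat.Agent.S40x.R2.Asm.FieldSideD

open HahnSeries ModularCurve AlgebraicCurve IsLocalRing
open Fermat.Agent.Gateway.Kummer Fermat.Agent.Gateway.Hecke
open Fermat.Agent.S34x.TwoVal Fermat.Agent.S34x.Inst.RedSetupInst
open Fermat.Agent.S33x.H1.FixData2Inst Fermat.Agent.S34x.TwoVal.ResidueInst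
open Fermat.Agent.S40x.R2.Transitive (IsOrd)
open Fermat.Agent.S40x.Kummer (unitFixed)
open Fermat.Agent.S40x.R2.Cover Fermat.Agent.S40x.R2.Cover.CoverDatum
open Fermat.Agent.S40x.Node
open Fermat.Agent.S40x.R2.Asm.GlobalBlock

local notation "Qb" => AlgebraicClosure ℚ
local notation "Γℚ" => (AlgebraicClosure ℚ ≃ₐ[ℚ] AlgebraicClosure ℚ)

variable (P : ValuationSubring Qb) {k : Type} [Field k] (π : P →+* k) [IsAlgClosed k]
variable (M q : ℕ) [NeZero M] [Fact q.Prime] [CharP k q]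
variable (hdeg : finrankAlong Qb (heckeAlphaBar Qb M q) = q + 1) (hq : q.Prime)
  (hqM : ¬ q ∣ M)
variable (hrk : ∀ x ∈ maximalIdeal P, ∀ c : P, c ≠ 0 → ∃ j : ℕ, c ∣ x ^ j)
  (hπ : Function.Surjective π)
variable (D : CoverDatum (modularFunctionFieldBar (M * q)) q)
variable (hρ : ∀ g, D.Stable (rhoOfSubgroup (P.inertiaSubgroupIn ℚ) g))

local notation "ρI" => rhoOfSubgroup (P.inertiaSubgroupIn ℚ)

/-! ### `hainf`, `hazero` for every normalised order function -/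

include hdeg hq in
/-- `hainf` in the shape of `EdgeB/AsmNode.c3_pair`: for EVERY order function `v` of `OinfD`
normalised by `v q = 1`. -/
theorem dvd_of_isOrd_OinfD {a : D.F0 ρI hρ} (ha : a ≠ 0)
    (h : (q : ℤ) ∣ vinfD P π M q hqM hrk hπ D hρ a) (v : D.F0 ρI hρ → ℤ)
    (hv : IsOrd (OinfD P π M q hqM hrk hπ D hρ) v) (hvq : v ((q : ℕ) : D.F0 ρI hρ) = 1) :
    (q : ℤ) ∣ v a := by
  have h1 := vinfD_natCast P π M q hdeg hq hqM hrk hπ D hρ
  rw [hv.unique (isOrd_vinfD P π M q hdeg hq hqM hrk hπ D hρ) (natCast_ne_zero P M q hq D hρ)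
    (by rw [hvq]; exact one_ne_zero) (by rw [hvq, h1]) ha]
  exact h

include hq in
/-- `hazero` in the shape of `EdgeB/AsmNode.c3_pair`. -/
theorem dvd_of_isOrd_OzeroD {a : D.F0 ρI hρ} (ha : a ≠ 0)
    (h : (q : ℤ) ∣ vzeroD P π M q hdeg hq hqM hrk hπ D hρ a) (v : D.F0 ρI hρ → ℤ)
    (hv : IsOrd (OzeroD P π M q hdeg hq hqM hrk hπ D hρ) v)
    (hvq : v ((q : ℕ) : D.F0 ρI hρ) = 1) :
    (q : ℤ) ∣ v a := by
  have h1 := vzeroD_natCast P π M q hdeg hq hqM hrk hπ D hρ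
  rw [hv.unique (isOrd_vzeroD P π M q hdeg hq hqM hrk hπ D hρ) (natCast_ne_zero P M q hq D hρ)
    (by rw [hvq]; exact one_ne_zero) (by rw [hvq, h1]) ha]
  exact h

/-! ### The chain [DI] + [FP] + [KU] + [N] -/

include hdeg hq in
/-- the raw output of [DI] + [FP] + [KU] + [N]: the descended Kummer function `ft ∈ E0`, with
`σ0 ft = a h ^ q ft`, `a ∈ F0`, `q ∣ v_∞ a`, `q ∣ v_0 a`. -/
theorem exists_ftD_raw (hP : P.LiesOverPrime q) {l0 x : JZero (M * q)}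
    (hD0 : IsKummerRep q l0 D.f0)
    {u : modularFunctionFieldBar (M * q)} (hu : IsKummerRep q x u)
    (hun : Normalized (u : LaurentSeries Qb))
    (hx : ∀ σ ∈ P.inertiaSubgroupIn ℚ, ∃ j : ℕ, σ • x - x = j • l0)
    (hd : ∀ τ ∈ P.inertiaSubgroupIn ℚ,
      (∀ b : Qb, b ^ q ∈ unitFixed P → τ b = b) → τ • x = x) :
    ∃ (ft h : D.E0 ρI hρ) (a : D.F0 ρI hρ) (g : D.coverField),
      ft ≠ 0 ∧ h ≠ 0 ∧ a ≠ 0 ∧ g ≠ 0 ∧
      E0.val D ρI hρ ft =
        algebraMap (modularFunctionFieldBar (M * q)) D.coverField u * g ^ q ∧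
      D.sigmaAlg ρI hρ ft = algebraMap (D.F0 ρI hρ) (D.E0 ρI hρ) a * h ^ q * ft ∧
      (q : ℤ) ∣ vinfD P π M q hqM hrk hπ D hρ a ∧
      (q : ℤ) ∣ vzeroD P π M q hdeg hq hqM hrk hπ D hρ a := by
  classical
  obtain ⟨G', hG'fin, hG'⟩ :=
    Fermat.Agent.S40x.R2.CoverModular.exists_finiteIndex_fixing (P.inertiaSubgroupIn ℚ) u
  haveI := hG'fin
  have hii : ∀ τ : P.inertiaSubgroupIn ℚ, ∃ (j : ℕ) (k : modularFunctionFieldBar (M * q))
      (c : Qb), k ≠ 0 ∧ c ≠ 0 ∧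
      coeffMap ((ρI τ : Qb ≃+* Qb) : Qb →+* Qb) (u : LaurentSeries Qb) =
        (HahnSeries.C c : LaurentSeries Qb) * (u : LaurentSeries Qb) *
          (D.f0 : LaurentSeries Qb) ^ j * (k : LaurentSeries Qb) ^ q := by
    intro τ
    obtain ⟨j, hj⟩ := hx τ τ.2
    obtain ⟨k, c, hk0, hc0, hkc⟩ :=
      Fermat.Agent.S40x.R2.CoverModular.hii_of_smul_sub hu hD0 (τ : Γℚ) hj
    exact ⟨j, k, c, hk0, hc0, hkc⟩
  obtain ⟨g, h, β, hg0, hh0, hβ0, hft, hhfix, hβp, hσ, hkum⟩ :=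
    Fermat.Agent.S40x.Kum.DescInst.descent_cover D ρI hρ (f := u) hu.ne_zero hun G' hG' hii
  -- the Kummer constant
  have hβfix : ∀ τ ∈ P.inertiaSubgroupIn ℚ, τ (β ^ q) = β ^ q := fun τ hτ => hβp ⟨τ, hτ⟩
  have hI0 : ∀ τ ∈ P.inertiaSubgroupIn ℚ,
      (∀ b : Qb, b ^ q ∈ unitFixed P → τ b = b) → τ β = β := by
    intro τ hτ hb
    have h0 : τ • x - x = (0 : ℕ) • l0 := by rw [hd τ hτ hb, sub_self, zero_nsmul]
    obtain ⟨k, c, hk0, hc0, hkc⟩ :=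
      Fermat.Agent.S40x.R2.CoverModular.hii_of_smul_sub hu hD0 τ h0
    have := hkum ⟨τ, hτ⟩ 0 k c hk0 hc0 hkc
    rwa [pow_zero, mul_one] at this
  have hpeu : ∃ i : ℤ, ∃ w ∈ unitFixed P, β ^ q = (q : Qb) ^ ((q : ℤ) * i) * w :=
    Fermat.Agent.S40x.Kummer.peu_dvd P hq hP hβ0 hβfix hI0
  obtain ⟨ft, h', a, hft0, hh'0, ha0, hval, -, -, hσ', hinf, hzero⟩ :=
    global_of_descent P π M q hdeg hq hqM hrk hπ D hρ hu.ne_zero hg0 hh0 hβ0
      ((D.mem_fixedField_iff ρI hρ).mpr hft) ((D.mem_fixedField_iff ρI hρ).mpr hhfix) hβfix hσ hpeu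
  exact ⟨ft, h', a, g, hft0, hh'0, ha0, hg0, hval, hσ', hinf, hzero⟩

/-- The conclusion of the sub-assembly: a descended Kummer function `ft = u g ^ q ∈ E0` of the
class with Kummer function `u`, with `Tinf` and `Tzero`: the order of `ft` mod `q` does not depend
on the valuation of `E0` over `O_∞ ∩ F0` (resp. over `O_0 ∩ F0`). -/
def FtSpecD (u : modularFunctionFieldBar (M * q)) : Prop :=
    ∃ (ft : D.E0 ρI hρ) (g : D.coverField), ft ≠ 0 ∧ g ≠ 0 ∧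
      E0.val D ρI hρ ft =
        algebraMap (modularFunctionFieldBar (M * q)) D.coverField u * g ^ q ∧
      (∀ {W W' : ValuationSubring (D.E0 ρI hρ)} {w w' : D.E0 ρI hρ → ℤ},
        (∀ e : D.F0 ρI hρ, algebraMap (D.F0 ρI hρ) (D.E0 ρI hρ) e ∈ W ↔
          e ∈ OinfD P π M q hqM hrk hπ D hρ) →
        (∀ e : D.F0 ρI hρ, algebraMap (D.F0 ρI hρ) (D.E0 ρI hρ) e ∈ W' ↔
          e ∈ OinfD P π M q hqM hrk hπ D hρ) →
        IsOrd W w → IsOrd W' w' →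
        (∀ e : D.F0 ρI hρ, e ≠ 0 →
          w (algebraMap (D.F0 ρI hρ) (D.E0 ρI hρ) e) = vinfD P π M q hqM hrk hπ D hρ e) →
        (∀ e : D.F0 ρI hρ, e ≠ 0 →
          w' (algebraMap (D.F0 ρI hρ) (D.E0 ρI hρ) e) = vinfD P π M q hqM hrk hπ D hρ e) →
        (q : ℤ) ∣ w' ft - w ft) ∧
      (∀ {W W' : ValuationSubring (D.E0 ρI hρ)} {w w' : D.E0 ρI hρ → ℤ},
        (∀ e : D.F0 ρI hρ, algebraMap (D.F0 ρI hρ) (D.E0 ρI hρ) e ∈ W ↔
          e ∈ OzeroD P π M q hdeg hq hqM hrk hπ D hρ) →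
        (∀ e : D.F0 ρI hρ, algebraMap (D.F0 ρI hρ) (D.E0 ρI hρ) e ∈ W' ↔
          e ∈ OzeroD P π M q hdeg hq hqM hrk hπ D hρ) →
        IsOrd W w → IsOrd W' w' →
        (∀ e : D.F0 ρI hρ, e ≠ 0 →
          w (algebraMap (D.F0 ρI hρ) (D.E0 ρI hρ) e) =
            vzeroD P π M q hdeg hq hqM hrk hπ D hρ e) →
        (∀ e : D.F0 ρI hρ, e ≠ 0 →
          w' (algebraMap (D.F0 ρI hρ) (D.E0 ρI hρ) e) =
            vzeroD P π M q hdeg hq hqM hrk hπ D hρ e) →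
        (q : ℤ) ∣ w' ft - w ft)

/-- **Sub-assembly [DI] + [FP] + [N] + [KU] + TRANS** in the `D.E0 / D.F0` vocabulary. -/
theorem exists_ftD (hP : P.LiesOverPrime q) {l0 x : JZero (M * q)}
    (hD0 : IsKummerRep q l0 D.f0)
    {u : modularFunctionFieldBar (M * q)} (hu : IsKummerRep q x u)
    (hun : Normalized (u : LaurentSeries Qb))
    (hx : ∀ σ ∈ P.inertiaSubgroupIn ℚ, ∃ j : ℕ, σ • x - x = j • l0)
    (hd : ∀ τ ∈ P.inertiaSubgroupIn ℚ,
      (∀ b : Qb, b ^ q ∈ unitFixed P → τ b = b) → τ • x = x) :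
    FtSpecD P π M q hdeg hq hqM hrk hπ D hρ u := by
  obtain ⟨ft, h, a, g, hft0, hh0, ha0, hg0, hftg, hσ, hainf, hazero⟩ :=
    exists_ftD_raw P π M q hdeg hq hqM hrk hπ D hρ hP hD0 hu hun hx hd
  refine ⟨ft, g, hft0, hg0, hftg, ?_, ?_⟩
  · intro W W' w w' hW hW' hw hw' hv hv'
    refine Fermat.Agent.S40x.R2.Transitive.ord_sub_dvd_of_generator_gal hW hW' hw hw' hv hv'
      (natCast_ne_zero P M q hq D hρ) ?_ q hft0 (D.sigmaAlg_generates ρI hρ) ha0 hh0 hσ hainf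
    rw [vinfD_natCast P π M q hdeg hq hqM hrk hπ D hρ]
    exact one_ne_zero
  · intro W W' w w' hW hW' hw hw' hv hv'
    refine Fermat.Agent.S40x.R2.Transitive.ord_sub_dvd_of_generator_gal hW hW' hw hw' hv hv'
      (natCast_ne_zero P M q hq D hρ) ?_ q hft0 (D.sigmaAlg_generates ρI hρ) ha0 hh0 hσ hazero
    rw [vzeroD_natCast P π M q hdeg hq hqM hrk hπ D hρ]
    exact one_ne_zero

/-! ### All node slopes are equal -/

/-- The valuation data at one node `s` for a given `ft ∈ E0` (conclusion of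
`Asm/Core.node_slope_eq` together with the [ET] facts), in the `D.E0 / D.F0` vocabulary. -/
def NodeDataD (ft : D.E0 ρI hρ) (n : ZMod q) : Prop :=
  ∃ (Winf Wzero : ValuationSubring (D.E0 ρI hρ)) (winf wzero : D.E0 ρI hρ → ℤ),
    (∀ e : D.F0 ρI hρ, algebraMap (D.F0 ρI hρ) (D.E0 ρI hρ) e ∈ Winf ↔
      e ∈ OinfD P π M q hqM hrk hπ D hρ) ∧
    (∀ e : D.F0 ρI hρ, algebraMap (D.F0 ρI hρ) (D.E0 ρI hρ) e ∈ Wzero ↔
      e ∈ OzeroD P π M q hdeg hq hqM hrk hπ D hρ) ∧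
    IsOrd Winf winf ∧ IsOrd Wzero wzero ∧
    (∀ e : D.F0 ρI hρ, e ≠ 0 →
      winf (algebraMap (D.F0 ρI hρ) (D.E0 ρI hρ) e) = vinfD P π M q hqM hrk hπ D hρ e) ∧
    (∀ e : D.F0 ρI hρ, e ≠ 0 →
      wzero (algebraMap (D.F0 ρI hρ) (D.E0 ρI hρ) e) =
        vzeroD P π M q hdeg hq hqM hrk hπ D hρ e) ∧
    n = ((wzero ft - winf ft : ℤ) : ZMod q)

theorem zmod_sub_eq_of_dvd {a b a' b' : ℤ} (h1 : (q : ℤ) ∣ a' - a) (h2 : (q : ℤ) ∣ b' - b) :
    ((b - a : ℤ) : ZMod q) = ((b' - a' : ℤ) : ZMod q) := by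
  rw [← sub_eq_zero, ← Int.cast_sub, ZMod.intCast_zmod_eq_zero_iff_dvd]
  have : b - a - (b' - a') = (a' - a) - (b' - b) := by ring
  rw [this]
  exact dvd_sub h1 h2

/-- **All node slopes are equal** (`D.E0 / D.F0` vocabulary). -/
theorem exists_const_of_ftSpecD {u : modularFunctionFieldBar (M * q)}
    (hspec : FtSpecD P π M q hdeg hq hqM hrk hπ D hρ u) {ι : Type*} (n : ι → ZMod q)
    (hnode : ∀ (ft : D.E0 ρI hρ) (g : D.coverField), ft ≠ 0 → g ≠ 0 →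
      E0.val D ρI hρ ft =
        algebraMap (modularFunctionFieldBar (M * q)) D.coverField u * g ^ q →
      ∀ s : ι, NodeDataD P π M q hdeg hq hqM hrk hπ D hρ ft (n s)) :
    ∀ s s' : ι, n s = n s' := by
  obtain ⟨ft, g, hft0, hg0, hftg, hTinf, hTzero⟩ := hspec
  intro s s'
  obtain ⟨Winf, Wzero, winf, wzero, hWinf, hWzero, hwinf, hwzero, hvinf, hvzero, hn⟩ :=
    hnode ft g hft0 hg0 hftg s
  obtain ⟨Winf', Wzero', winf', wzero', hWinf', hWzero', hwinf', hwzero', hvinf', hvzero', hn'⟩ :=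
    hnode ft g hft0 hg0 hftg s'
  rw [hn, hn']
  exact zmod_sub_eq_of_dvd q (hTinf hWinf hWinf' hwinf hwinf' hvinf hvinf')
    (hTzero hWzero hWzero' hwzero hwzero' hvzero hvzero')

/-- the same with a common value `c` -/
theorem exists_const_slopeD {u : modularFunctionFieldBar (M * q)}
    (hspec : FtSpecD P π M q hdeg hq hqM hrk hπ D hρ u) {ι : Type*} (n : ι → ZMod q)
    (hnode : ∀ (ft : D.E0 ρI hρ) (g : D.coverField), ft ≠ 0 → g ≠ 0 →
      E0.val D ρI hρ ft =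
        algebraMap (modularFunctionFieldBar (M * q)) D.coverField u * g ^ q →
      ∀ s : ι, NodeDataD P π M q hdeg hq hqM hrk hπ D hρ ft (n s)) :
    ∃ c : ZMod q, ∀ s : ι, n s = c := by
  classical
  by_cases hι : Nonempty ι
  · obtain ⟨s0⟩ := hι
    exact ⟨n s0, fun s =>
      exists_const_of_ftSpecD P π M q hdeg hq hqM hrk hπ D hρ hspec n hnode s s0⟩
  · exact ⟨0, fun s => absurd ⟨s⟩ hι⟩

/-! ### The Kummer cover datum of `l0` -/

omit D hρ in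
include hdeg in
/-- `exists_ftD` for the Kummer cover datum of `l0` (`Cover/Modular.coverDatumOfKummer`), the
inertia group acting on `l0` through the cyclotomic character. -/
theorem exists_ftD_kummer (hP : P.LiesOverPrime q) {ζ : Qb} (hζ : IsPrimitiveRoot ζ q)
    {l0 x : JZero (M * q)} (hl0 : l0 ≠ 0) {u0 : modularFunctionFieldBar (M * q)}
    (hu0 : IsKummerRep q l0 u0) (hnorm : Normalized (u0 : LaurentSeries Qb))
    (hI : ∀ σ ∈ P.inertiaSubgroupIn ℚ, ∃ a : ℕ, σ • l0 = a • l0 ∧ σ ζ = ζ ^ a)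
    {u : modularFunctionFieldBar (M * q)} (hu : IsKummerRep q x u)
    (hun : Normalized (u : LaurentSeries Qb))
    (hx : ∀ σ ∈ P.inertiaSubgroupIn ℚ, ∃ j : ℕ, σ • x - x = j • l0)
    (hd : ∀ τ ∈ P.inertiaSubgroupIn ℚ,
      (∀ b : Qb, b ^ q ∈ unitFixed P → τ b = b) → τ • x = x) :
    FtSpecD P π M q hdeg hq hqM hrk hπ (coverDatumOfKummer hq hζ hl0 hu0 hnorm)
      (stable_rhoOfSubgroup hq hζ hl0 hu0 hnorm (P.inertiaSubgroupIn ℚ) hI) u :=
  exists_ftD P π M q hdeg hq hqM hrk hπ (coverDatumOfKummer hq hζ hl0 hu0 hnorm)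
    (stable_rhoOfSubgroup hq hζ hl0 hu0 hnorm (P.inertiaSubgroupIn ℚ) hI) hP hu0 hu hun hx hd

omit D hρ in
include hdeg in
/-- **ONE existential package for `EdgeB/AsmNode.c3_pair`** at `F0 := D.F0`, `E0 := D.E0`,
`Oinf := OinfD`, `Ozero := OzeroD`, `σ := D.sigmaAlg` (`hgen := D.sigmaAlg_generates`): `ft h a`,
`hσ`, `hainf`, `hazero` in the `∀ v, IsOrd → v q = 1 →` shape, and the link `E0.val ft = u g^q`. -/
theorem package_kummer (hP : P.LiesOverPrime q) {ζ : Qb} (hζ : IsPrimitiveRoot ζ q)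
    {l0 x : JZero (M * q)} (hl0 : l0 ≠ 0) {u0 : modularFunctionFieldBar (M * q)}
    (hu0 : IsKummerRep q l0 u0) (hnorm : Normalized (u0 : LaurentSeries Qb))
    (hI : ∀ σ ∈ P.inertiaSubgroupIn ℚ, ∃ a : ℕ, σ • l0 = a • l0 ∧ σ ζ = ζ ^ a)
    {u : modularFunctionFieldBar (M * q)} (hu : IsKummerRep q x u)
    (hun : Normalized (u : LaurentSeries Qb))
    (hx : ∀ σ ∈ P.inertiaSubgroupIn ℚ, ∃ j : ℕ, σ • x - x = j • l0)
    (hd : ∀ τ ∈ P.inertiaSubgroupIn ℚ,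
      (∀ b : Qb, b ^ q ∈ unitFixed P → τ b = b) → τ • x = x) :
    let D := coverDatumOfKummer hq hζ hl0 hu0 hnorm
    let ρ := rhoOfSubgroup (P.inertiaSubgroupIn ℚ)
    let hρ := stable_rhoOfSubgroup hq hζ hl0 hu0 hnorm (P.inertiaSubgroupIn ℚ) hI
    ∃ (ft h : D.E0 ρ hρ) (a : D.F0 ρ hρ) (g : D.coverField),
      ft ≠ 0 ∧ h ≠ 0 ∧ a ≠ 0 ∧ g ≠ 0 ∧
      E0.val D ρ hρ ft =
        algebraMap (modularFunctionFieldBar (M * q)) D.coverField u * g ^ q ∧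
      D.sigmaAlg ρ hρ ft = algebraMap (D.F0 ρ hρ) (D.E0 ρ hρ) a * h ^ q * ft ∧
      (∀ v : D.F0 ρ hρ → ℤ, IsOrd (OinfD P π M q hqM hrk hπ D hρ) v →
        v ((q : ℕ) : D.F0 ρ hρ) = 1 → (q : ℤ) ∣ v a) ∧
      (∀ v : D.F0 ρ hρ → ℤ, IsOrd (OzeroD P π M q hdeg hq hqM hrk hπ D hρ) v →
        v ((q : ℕ) : D.F0 ρ hρ) = 1 → (q : ℤ) ∣ v a) := by
  intro D ρ hρ
  obtain ⟨ft, h, a, g, hft0, hh0, ha0, hg0, hval, hσ, hinf, hzero⟩ :=
    exists_ftD_raw P π M q hdeg hq hqM hrk hπ D hρ hP hu0 hu hun hx hd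
  exact ⟨ft, h, a, g, hft0, hh0, ha0, hg0, hval, hσ,
    dvd_of_isOrd_OinfD P π M q hdeg hq hqM hrk hπ D hρ ha0 hinf,
    dvd_of_isOrd_OzeroD P π M q hdeg hq hqM hrk hπ D hρ ha0 hzero⟩

end Fermat.Agent.S40x.R2.Asm.FieldSideD
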