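import Fermat.Agent.S40x.R2.Asm.Core
import Fermat.Agent.S40x.R2.NodeCover.PrimeOrd

/-!
# P-S44, block C3, C3-ASM sub-assembly (helper68): the seam `[ET] × [Core]`

`K = F_0`, `L = FL_0`.  Downstairs: a node ring `R ⊆ K` (`Frac R = K`) with primes `u, u'` and the
two order functions `vinf, vzero` of `K` normalised by `vinf u = 1`, `vinf r = 0` for `u ∤ r`
(resp. `u'`).  Upstairs: a UFD `S ⊆ L` (`Frac S = L`) over `R` in which `u, u'` stay prime and
non-associated and which has the contraction property `u^n S ∩ R = u^n R` (C3-ET).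

* `node_upstairs`: `NodeCover.primeOrd_lift_package` (twice) + `Asm.node_slope_eq` give the
  complete per-node input of `Asm.c3_core_pair`.
* `c3_two_nodes`: two nodes (with their own rings `R₁ S₁`, `R₂ S₂`) + the Kummer relation
  `σ ft = a h^p ft`, `p ∣ vinf a`, `p ∣ vzero a` give `n₁ = n₂`.
-/

set_option autoImplicit false

namespace Fermat.Agent.S40x.R2.Asm.NodeSeam

open Fermat.Agent.S40x.R2.Transitive Fermat.Agent.S40x.R2.NodeCover Fermat.Agent.S40x.R2.Asm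

section OneNode

variable {R : Type*} [CommRing R] [IsDomain R] [WfDvdMonoid R]
variable {K : Type*} [Field K] [Algebra R K] [IsFractionRing R K]
variable {S : Type*} [CommRing S] [IsDomain S] [UniqueFactorizationMonoid S]
variable {L : Type*} [Field L] [Algebra S L] [IsFractionRing S L]
variable [Algebra R S] [Algebra K L] [Algebra R L] [IsScalarTower R S L] [IsScalarTower R K L]

/-- the per-node package consumed by `Asm.c3_core_pair` -/
def NodeOut (p : ℕ) (Oinf Ozero : ValuationSubring K) (vinf vzero : K → ℤ) (ft : L)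
    (n : ZMod p) : Prop :=
  ∃ (Winf Wzero : ValuationSubring L) (winf wzero : L → ℤ),
    (∀ e : K, algebraMap K L e ∈ Winf ↔ e ∈ Oinf) ∧
    (∀ e : K, algebraMap K L e ∈ Wzero ↔ e ∈ Ozero) ∧
    IsOrd Winf winf ∧ IsOrd Wzero wzero ∧
    (∀ e : K, e ≠ 0 → winf (algebraMap K L e) = vinf e) ∧
    (∀ e : K, e ≠ 0 → wzero (algebraMap K L e) = vzero e) ∧
    n = ((wzero ft - winf ft : ℤ) : ZMod p)

/-- **One node, upstairs.** -/
theorem node_upstairs {p : ℕ} (hp : p ≠ 0) {u u' : R} (hu : Prime u) (hu' : Prime u')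
    (hSu : Prime (algebraMap R S u)) (hSu' : Prime (algebraMap R S u'))
    (hcontr : ∀ (n : ℕ) (r : R), algebraMap R S u ^ n ∣ algebraMap R S r → u ^ n ∣ r)
    (hcontr' : ∀ (n : ℕ) (r : R), algebraMap R S u' ^ n ∣ algebraMap R S r → u' ^ n ∣ r)
    {Oinf Ozero : ValuationSubring K} {vinf vzero : K → ℤ}
    (hvinf : IsOrd Oinf vinf) (hvinf_u : vinf (algebraMap R K u) = 1)
    (hvinf_0 : ∀ r : R, ¬ u ∣ r → vinf (algebraMap R K r) = 0)
    (hvzero : IsOrd Ozero vzero) (hvzero_u' : vzero (algebraMap R K u') = 1)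
    (hvzero_0 : ∀ r : R, ¬ u' ∣ r → vzero (algebraMap R K r) = 0)
    (hndvd : ¬ algebraMap R S u ∣ algebraMap R S u')
    (hndvd' : ¬ algebraMap R S u' ∣ algebraMap R S u)
    {ft : L} (hft : ft ≠ 0)
    (H : ∀ h : S, Prime h → ¬ Associated h (algebraMap R S u) →
      ¬ Associated h (algebraMap R S u') →
      ∀ f1 f2 : S, f2 ≠ 0 → ft * algebraMap S L f2 = algebraMap S L f1 →
      ∀ n1 n2 : ℕ, h ^ n1 ∣ f1 → ¬ h ^ (n1 + 1) ∣ f1 → h ^ n2 ∣ f2 → ¬ h ^ (n2 + 1) ∣ f2 →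
        (p : ℤ) ∣ (n1 : ℤ) - n2)
    (n : ZMod p)
    (hsl : ∀ (A B : ℤ) (ε : Sˣ) (g1 g2 : S), ¬ algebraMap R S u ∣ g1 →
      ¬ algebraMap R S u' ∣ g1 → ¬ algebraMap R S u ∣ g2 → ¬ algebraMap R S u' ∣ g2 →
      ft = algebraMap S L ε * algebraMap S L (algebraMap R S u) ^ A *
        algebraMap S L (algebraMap R S u') ^ B *
        (algebraMap S L g1 / algebraMap S L g2) ^ p → n = ((B - A : ℤ) : ZMod p)) :
    NodeOut p Oinf Ozero vinf vzero ft n := by
  obtain ⟨hw1, hw1u, hw10, hW1, hv1⟩ :=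
    primeOrd_lift_package (K := K) (L := L) hu hSu hcontr hvinf hvinf_u hvinf_0
  obtain ⟨hw2, hw2u, hw20, hW2, hv2⟩ :=
    primeOrd_lift_package (K := K) (L := L) hu' hSu' hcontr' hvzero hvzero_u' hvzero_0
  refine ⟨primeValuationSubring (K := L) hSu, primeValuationSubring (K := L) hSu',
    primeOrd (algebraMap R S u), primeOrd (algebraMap R S u'), hW1, hW2, hw1, hw2, hv1, hv2, ?_⟩
  exact node_slope_eq hp hSu hSu' hw1 hw2 hw1u hw10 hw2u hw20 hndvd hndvd' hft H n hsl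

end OneNode

section TwoNodes

variable {K L : Type*} [Field K] [Field L] [Algebra K L] [FiniteDimensional K L] [IsGalois K L]

/-- **Two nodes**: the per-node packages of two nodes and the Kummer relation give `n₁ = n₂`. -/
theorem c3_two_nodes {p : ℕ} {Oinf Ozero : ValuationSubring K} {vinf vzero : K → ℤ}
    {c : K} (hc0 : c ≠ 0) (hcinf : vinf c ≠ 0) (hczero : vzero c ≠ 0)
    {σ : L ≃ₐ[K] L} (hgen : ∀ g : L ≃ₐ[K] L, g ∈ Subgroup.zpowers σ)
    {ft h : L} {a : K} (hft : ft ≠ 0) (hh : h ≠ 0) (ha : a ≠ 0)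
    (hσ : σ ft = algebraMap K L a * h ^ p * ft)
    (hainf : (p : ℤ) ∣ vinf a) (hazero : (p : ℤ) ∣ vzero a)
    {n₁ n₂ : ZMod p} (h₁ : NodeOut p Oinf Ozero vinf vzero ft n₁)
    (h₂ : NodeOut p Oinf Ozero vinf vzero ft n₂) : n₁ = n₂ := by
  obtain ⟨Winf, Wzero, winf, wzero, hW1, hW2, hw1, hw2, hv1, hv2, hn⟩ := h₁
  obtain ⟨Winf', Wzero', winf', wzero', hW1', hW2', hw1', hw2', hv1', hv2', hn'⟩ := h₂
  exact c3_core_pair hc0 hcinf hczero hgen hft hh ha hσ hainf hazero hW1 hW2 hw1 hw2 hv1 hv2 n₁ hn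
    hW1' hW2' hw1' hw2' hv1' hv2' n₂ hn'

end TwoNodes

end Fermat.Agent.S40x.R2.Asm.NodeSeam
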