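/-
P-S44/S40, block C3, C3-ASM: ADAPTER between the two landed [FP] vocabularies (helper48).

* `R2/Cover/FixedGalois` (helper48): `E0 := D.E0 ρ hρ`, `F0 := ↥(D.F0 ρ hρ)` (a subfield of `E0`),
  order functions `OinfD / vinfD / OzeroD / vzeroD` of `R2/Asm/GlobalBlock` — the vocabulary of the
  per-node suppliers (`R2/Asm/CfeModular`, `NodeRing/CoverSeam`, `EdgeB/AsmNode`);
* `R2/Cover/FixedPart` (helper15): `E0 := D.FixedCover ρ hρ`, `F0 := FixedBase F ρ`, order functions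
  `OinfB / vinfB / OzeroB / vzeroB` of `Kum/PairModular` — the vocabulary of helper78's field side
  (`Kum/PairModular`, `Kum/PairNodes`, `Kum/GlobalGeo`).

`coverIso : D.FixedCover ρ hρ ≃+* D.E0 ρ hρ` (same carrier), `baseIsoB : FixedBase F ρ ≃+* D.F0 ρ hρ`,
compatible with the two algebra maps (`coverIso_algebraMap`), with the valuation subrings
(`baseIsoB_mem_OinfD_iff`, `baseIsoB_mem_OzeroD_iff`) and with the order functions
(`vinfD_baseIsoB`, `vzeroD_baseIsoB`).  Consumer forms: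

* `nodeOut_of_D` : `NodeSeam.NodeOut q OinfD OzeroD vinfD vzeroD (coverIso ft) n →
  NodeSeam.NodeOut q OinfB OzeroB vinfB vzeroB ft n` (= `PairNodes.NodeData … ft n`);
* `nodeOut_to_D` : the converse;
* `nodeData_of_D` : `FieldSideD.NodeDataD (coverIso ft) n → PairNodes.NodeData ft n`.
-/
import Fermat.Agent.S40x.R2.Asm.FieldSideD
import Fermat.Agent.S40x.Kum.PairNodes
import Fermat.Agent.S40x.R2.Asm.NodeSeam

set_option autoImplicit false
set_option linter.unusedSectionVars false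
set_option linter.unusedVariables false
set_option linter.style.haveILetI false

noncomputable section

namespace Fermat.Agent.S40x.R2.Asm.FieldSideAdapter

open HahnSeries ModularCurve AlgebraicCurve IsLocalRing
open Fermat.Agent.Gateway.Kummer Fermat.Agent.Gateway.Hecke
open Fermat.Agent.S34x.TwoVal Fermat.Agent.S34x.Inst.RedSetupInst
open Fermat.Agent.S33x.H1.FixData2Inst Fermat.Agent.S34x.TwoVal.ResidueInst
open Fermat.Agent.S40x.R2.Transitive (IsOrd)
open Fermat.Agent.S40x.R2.Cover Fermat.Agent.S40x.R2.Cover.CoverDatum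
open Fermat.Agent.S40x.Node
open Fermat.Agent.S40x.R2.Asm.GlobalBlock Fermat.Agent.S40x.R2.Asm.FieldSideD
open Fermat.Agent.S40x.Kum.PairModular Fermat.Agent.S40x.Kum.PairNodes
open Fermat.Agent.S40x.R2.Asm.NodeSeam

local notation "Qb" => AlgebraicClosure ℚ

variable (P : ValuationSubring Qb) {k : Type} [Field k] (π : P →+* k) [IsAlgClosed k]
variable (M q : ℕ) [NeZero M] [Fact q.Prime] [CharP k q]
variable (hdeg : finrankAlong Qb (heckeAlphaBar Qb M q) = q + 1) (hq : q.Prime)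
  (hqM : ¬ q ∣ M)
variable (hrk : ∀ x ∈ maximalIdeal P, ∀ c : P, c ≠ 0 → ∃ j : ℕ, c ∣ x ^ j)
  (hπ : Function.Surjective π)
variable (D : CoverDatum (modularFunctionFieldBar (M * q)) q)
variable (hρ : ∀ g, D.Stable (rhoOfSubgroup (P.inertiaSubgroupIn ℚ) g))

local notation "ρI" => rhoOfSubgroup (P.inertiaSubgroupIn ℚ)

/-- `D.FixedCover ρ hρ ≃ D.E0 ρ hρ` (the same carrier `↥(D.fixedField ρ hρ)`). -/
def coverIso : D.FixedCover ρI hρ ≃+* D.E0 ρI hρ := RingEquiv.refl _

@[simp] theorem val_coverIso (x : D.FixedCover ρI hρ) :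
    E0.val D ρI hρ (coverIso P M q D hρ x) = D.fixedVal ρI hρ x := rfl

/-- `FixedBase F ρ ≃ Vocab.F0 P (M q)` (the same underlying functions). -/
def toVocab : F0 P M q ≃+* ↥(Vocab.F0 P (M * q)) :=
  (FixedBase.ofSub (modularFunctionFieldBar (M * q)) ρI).symm.trans (vocabIso P (M * q)).symm

theorem coe_toVocab (e : F0 P M q) :
    ((toVocab P M q e : Vocab.F0 P (M * q)) : modularFunctionFieldBar (M * q)) =
      FixedBase.val (modularFunctionFieldBar (M * q)) ρI e := rfl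

/-- `FixedBase F ρ ≃ D.F0 ρ hρ`. -/
def baseIsoB : F0 P M q ≃+* ↥(D.F0 ρI hρ) := (toVocab P M q).trans (isoF0 P M q D hρ)

theorem baseIsoB_apply (e : F0 P M q) :
    baseIsoB P M q D hρ e = isoF0 P M q D hρ (toVocab P M q e) := rfl

/-- the two algebra maps correspond -/
theorem coverIso_algebraMap (e : F0 P M q) :
    coverIso P M q D hρ (algebraMap (F0 P M q) (D.FixedCover ρI hρ) e) =
      algebraMap (D.F0 ρI hρ) (D.E0 ρI hρ) (baseIsoB P M q D hρ e) := rfl

theorem baseIsoB_mem_OinfD_iff (e : F0 P M q) :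
    baseIsoB P M q D hρ e ∈ OinfD P π M q hqM hrk hπ D hρ ↔ e ∈ OinfB P π M q hqM hrk hπ := by
  rw [baseIsoB_apply, isoF0_mem_OinfD_iff]
  rfl

theorem baseIsoB_mem_OzeroD_iff (e : F0 P M q) :
    baseIsoB P M q D hρ e ∈ OzeroD P π M q hdeg hq hqM hrk hπ D hρ ↔
      e ∈ OzeroB P π M q hdeg hq hqM hrk hπ := by
  rw [baseIsoB_apply, isoF0_mem_OzeroD_iff]
  rfl

theorem vinfD_baseIsoB (e : F0 P M q) :
    vinfD P π M q hqM hrk hπ D hρ (baseIsoB P M q D hρ e) = vinfB P π M q hqM hrk hπ e := by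
  rw [baseIsoB_apply, vinfD_isoF0]
  rfl

theorem vzeroD_baseIsoB (e : F0 P M q) :
    vzeroD P π M q hdeg hq hqM hrk hπ D hρ (baseIsoB P M q D hρ e) =
      vzeroB P π M q hdeg hq hqM hrk hπ e := by
  rw [baseIsoB_apply, vzeroD_isoF0]
  rfl

/-! ### The per-node package in the two vocabularies -/

/-- **Adapter** `D.E0 / D.F0` ⟹ `FixedCover / FixedBase`. -/
theorem nodeOut_of_D {ft : D.FixedCover ρI hρ} {n : ZMod q}
    (h : NodeOut q (OinfD P π M q hqM hrk hπ D hρ) (OzeroD P π M q hdeg hq hqM hrk hπ D hρ)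
      (vinfD P π M q hqM hrk hπ D hρ) (vzeroD P π M q hdeg hq hqM hrk hπ D hρ)
      (coverIso P M q D hρ ft) n) :
    NodeOut q (OinfB P π M q hqM hrk hπ) (OzeroB P π M q hdeg hq hqM hrk hπ)
      (vinfB P π M q hqM hrk hπ) (vzeroB P π M q hdeg hq hqM hrk hπ) ft n := by
  obtain ⟨Winf, Wzero, winf, wzero, hWinf, hWzero, hwinf, hwzero, hvinf, hvzero, hn⟩ := h
  refine ⟨Winf.comap (coverIso P M q D hρ : D.FixedCover ρI hρ →+* D.E0 ρI hρ),
    Wzero.comap (coverIso P M q D hρ : D.FixedCover ρI hρ →+* D.E0 ρI hρ),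
    fun x => winf (coverIso P M q D hρ x), fun x => wzero (coverIso P M q D hρ x),
    ?_, ?_, isOrd_comap (coverIso P M q D hρ) hwinf, isOrd_comap (coverIso P M q D hρ) hwzero,
    ?_, ?_, hn⟩
  · intro e
    show coverIso P M q D hρ (algebraMap (F0 P M q) (D.FixedCover ρI hρ) e) ∈ Winf ↔ _
    rw [coverIso_algebraMap, hWinf, baseIsoB_mem_OinfD_iff]
  · intro e
    show coverIso P M q D hρ (algebraMap (F0 P M q) (D.FixedCover ρI hρ) e) ∈ Wzero ↔ _
    rw [coverIso_algebraMap, hWzero, baseIsoB_mem_OzeroD_iff]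
  · intro e he
    show winf (coverIso P M q D hρ (algebraMap (F0 P M q) (D.FixedCover ρI hρ) e)) = _
    rw [coverIso_algebraMap, hvinf _ ((map_ne_zero (baseIsoB P M q D hρ)).mpr he),
      vinfD_baseIsoB]
  · intro e he
    show wzero (coverIso P M q D hρ (algebraMap (F0 P M q) (D.FixedCover ρI hρ) e)) = _
    rw [coverIso_algebraMap, hvzero _ ((map_ne_zero (baseIsoB P M q D hρ)).mpr he),
      vzeroD_baseIsoB]

/-- **Adapter** `FixedCover / FixedBase` ⟹ `D.E0 / D.F0`. -/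
theorem nodeOut_to_D {ft : D.FixedCover ρI hρ} {n : ZMod q}
    (h : NodeOut q (OinfB P π M q hqM hrk hπ) (OzeroB P π M q hdeg hq hqM hrk hπ)
      (vinfB P π M q hqM hrk hπ) (vzeroB P π M q hdeg hq hqM hrk hπ) ft n) :
    NodeOut q (OinfD P π M q hqM hrk hπ D hρ) (OzeroD P π M q hdeg hq hqM hrk hπ D hρ)
      (vinfD P π M q hqM hrk hπ D hρ) (vzeroD P π M q hdeg hq hqM hrk hπ D hρ)
      (coverIso P M q D hρ ft) n := by
  obtain ⟨Winf, Wzero, winf, wzero, hWinf, hWzero, hwinf, hwzero, hvinf, hvzero, hn⟩ := h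
  have key : ∀ e : D.F0 ρI hρ, algebraMap (D.F0 ρI hρ) (D.E0 ρI hρ) e =
      coverIso P M q D hρ (algebraMap (F0 P M q) (D.FixedCover ρI hρ)
        ((baseIsoB P M q D hρ).symm e)) := by
    intro e
    rw [coverIso_algebraMap, RingEquiv.apply_symm_apply]
  refine ⟨Winf.comap ((coverIso P M q D hρ).symm : D.E0 ρI hρ →+* D.FixedCover ρI hρ),
    Wzero.comap ((coverIso P M q D hρ).symm : D.E0 ρI hρ →+* D.FixedCover ρI hρ),
    fun x => winf ((coverIso P M q D hρ).symm x), fun x => wzero ((coverIso P M q D hρ).symm x),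
    ?_, ?_, isOrd_comap (coverIso P M q D hρ).symm hwinf,
    isOrd_comap (coverIso P M q D hρ).symm hwzero, ?_, ?_, ?_⟩
  · intro e
    show (coverIso P M q D hρ).symm (algebraMap (D.F0 ρI hρ) (D.E0 ρI hρ) e) ∈ Winf ↔ _
    rw [key e, RingEquiv.symm_apply_apply, hWinf, ← baseIsoB_mem_OinfD_iff P π M q hqM hrk hπ D hρ,
      RingEquiv.apply_symm_apply]
  · intro e
    show (coverIso P M q D hρ).symm (algebraMap (D.F0 ρI hρ) (D.E0 ρI hρ) e) ∈ Wzero ↔ _
    rw [key e, RingEquiv.symm_apply_apply, hWzero,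
      ← baseIsoB_mem_OzeroD_iff P π M q hdeg hq hqM hrk hπ D hρ, RingEquiv.apply_symm_apply]
  · intro e he
    show winf ((coverIso P M q D hρ).symm (algebraMap (D.F0 ρI hρ) (D.E0 ρI hρ) e)) = _
    rw [key e, RingEquiv.symm_apply_apply,
      hvinf _ ((map_ne_zero (baseIsoB P M q D hρ).symm).mpr he),
      ← vinfD_baseIsoB P π M q hqM hrk hπ D hρ, RingEquiv.apply_symm_apply]
  · intro e he
    show wzero ((coverIso P M q D hρ).symm (algebraMap (D.F0 ρI hρ) (D.E0 ρI hρ) e)) = _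
    rw [key e, RingEquiv.symm_apply_apply,
      hvzero _ ((map_ne_zero (baseIsoB P M q D hρ).symm).mpr he),
      ← vzeroD_baseIsoB P π M q hdeg hq hqM hrk hπ D hρ, RingEquiv.apply_symm_apply]
  · show n = ((wzero ((coverIso P M q D hρ).symm (coverIso P M q D hρ ft)) -
      winf ((coverIso P M q D hρ).symm (coverIso P M q D hρ ft)) : ℤ) : ZMod q)
    rw [RingEquiv.symm_apply_apply]
    exact hn

/-- `FieldSideD.NodeDataD` is `NodeSeam.NodeOut` in the `D.E0 / D.F0` vocabulary. -/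
theorem nodeDataD_iff_nodeOut {ft : D.E0 ρI hρ} {n : ZMod q} :
    NodeDataD P π M q hdeg hq hqM hrk hπ D hρ ft n ↔
      NodeOut q (OinfD P π M q hqM hrk hπ D hρ) (OzeroD P π M q hdeg hq hqM hrk hπ D hρ)
        (vinfD P π M q hqM hrk hπ D hρ) (vzeroD P π M q hdeg hq hqM hrk hπ D hρ) ft n :=
  Iff.rfl

/-- **Adapter for `Kum/PairNodes`**: node data in the `D.E0 / D.F0` vocabulary give helper78's
`NodeData`. -/
theorem nodeData_of_D {ft : D.FixedCover ρI hρ} {n : ZMod q}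
    (h : NodeDataD P π M q hdeg hq hqM hrk hπ D hρ (coverIso P M q D hρ ft) n) :
    NodeData P π M q hdeg hq hqM hrk hπ D hρ ft n :=
  nodeOut_of_D P π M q hdeg hq hqM hrk hπ D hρ h

end Fermat.Agent.S40x.R2.Asm.FieldSideAdapter
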