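import Fermat.Agent.S40x.R2.NodeCover.ASDatumInst

/-!
# P-S44, block C3, C3-ASM (helper41): the seam `[COV] → hG` of the per-place statements

The per-place composites `Asm/PlaceB.node_side`, `Asm/PlaceSmoothB.smooth_side`,
`NodeRing/SlopePlug` (helper4), `Asm/SlopeInst` (helper12) ask for a finite group `G` acting on the
cover field `E` with invariants `F` such that every `g : G` acts as an iterate `σ^[i]`, `i < p`, of
the `R`-algebra endomorphism `σ` of the `ASDatum`.  For `E := D.coverField` (helper48's Kummer cover)
take `G := E ≃ₐ[F] E` and `σ := ASInst.sigmaR D` (helper2): `hG_cover`.  All the class assumptions on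
`G` are Mathlib instances (checked below by `example`s).
-/

set_option autoImplicit false
set_option linter.unusedSectionVars false

noncomputable section

namespace Fermat.Agent.S40x.R2.Asm.GalSeamB

open HahnSeries ModularCurve IntermediateField AlgebraicCurve
open Fermat.Agent.S40x.R2.Cover Fermat.Agent.S40x.R2.Cover.CoverDatum
  Fermat.Agent.S40x.R2.NodeCover.ASInst

variable {L : Type*} [Field L]
variable {F : IntermediateField L (LaurentSeries L)} {p : ℕ} (D : CoverDatum F p)
variable (R : Type*) [CommRing R] [Algebra R F] [Algebra R D.coverField]
  [IsScalarTower R F D.coverField]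

/-- powers of the deck transformation are iterates of `sigmaR` -/
theorem sigma_pow_apply (j : ℕ) (e : D.coverField) :
    (D.sigma ^ j) e = ((sigmaR D (R := R))^[j]) e := by
  induction j generalizing e with
  | zero => rfl
  | succ j ih =>
    rw [pow_succ, Function.iterate_succ_apply, ← ih]
    rfl

/-- **hypothesis `hG` of the per-place composites** for the Kummer cover -/
theorem hG_cover : ∀ g : D.coverField ≃ₐ[F] D.coverField, ∃ i : ℕ, i < p ∧
    ∀ e : D.coverField, g • e = ((sigmaR D (R := R))^[i]) e := by
  intro g
  obtain ⟨i, hi, rfl⟩ := D.exists_sigma_pow_eq g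
  exact ⟨i, hi, fun e => sigma_pow_apply D R i e⟩

example : Fintype (D.coverField ≃ₐ[F] D.coverField) := inferInstance
example : MulSemiringAction (D.coverField ≃ₐ[F] D.coverField) D.coverField := inferInstance
example : SMulCommClass (D.coverField ≃ₐ[F] D.coverField) F D.coverField := inferInstance
example : Algebra.IsInvariant F D.coverField (D.coverField ≃ₐ[F] D.coverField) := inferInstance
example : FaithfulSMul (D.coverField ≃ₐ[F] D.coverField) D.coverField := inferInstance

end Fermat.Agent.S40x.R2.Asm.GalSeamB
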