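/-
P-S44/S40, block C3, sub-assembly of `S44-IFACE-C3-ASM v1` (helper15; independent SECOND of
helper48's `Asm/GlobalBlock`, in the vocabulary of `Cover/FixedPart`): ALL NON-PER-NODE hypotheses
of `Asm/Core.c3_core_pair` at the modular Kummer cover of level `M q` over `Qbar`, in ONE theorem.

Types: `F₀ := FixedBase (modularFunctionFieldBar (M q)) ρ`, `E₀ := D.FixedCover ρ hρ`
(`Cover/FixedPart`), `ρ := rhoOfSubgroup I`, `I` the inertia group of `P`,
`D := coverDatumOfKummer ..` the cover datum of a normalised Kummer function `u0` of `l0 ≠ 0`.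
Since `FixedBase F ρ` is by definition the subfield `fixedBase F ρ` of the function field, the
order functions of `Node/OrdF0` (helper6, item [N]) apply with `F' := fixedBase F ρ` and NO
transport.

* `fixedSub`, `isFixed_of_mem_fixedSub` : `F' := fixedBase ..` and `hF'` of `Node/OrdF0`;
* `constK0 : K0 P →+* F₀` : the constants; `val_constK0`;
* `OinfB, OzeroB : ValuationSubring F₀`, `vinfB, vzeroB : F₀ → ℤ` (= `OrdF0.Oinf ..` at `F'`),
  `isOrd_vinfB`, `isOrd_vzeroB`, `vinfB_natCast`, `vzeroB_natCast` (`v (q) = 1`),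
  `mem_OinfB_iff`, `mem_OzeroB_iff` (membership = membership of the underlying function in
  `valInfty` / `valZero`: the form in which [ET] states `hWinf`, `hWzero`);
* `descent_fixedPart` : [DI] (`Kum/DescFixed.descent_fixed`) for the inertia group, hypotheses of
  `CoverModular.descent_modular`, output in the `sigma0Alg`/`algebraMap` form (`hσ` of
  `c3_core_pair`);
* `dvd_vinfB_const`, `dvd_vzeroB_const` : [KU] (`Asm/KU.dvd_ord_const_I0`) for `a = β ^ q`;
* `global_block` : ONE theorem: `∃ ft h a g`, nonzero, `ft = u g ^ q` in the cover field,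
  `σ₀ ft = a h ^ q ft`, `q ∣ v_∞ a`, `q ∣ v_0 a`;
* `c3_pair_modular` : `c3_core_pair` with every non-per-node hypothesis discharged: `∃ ft g`,
  `ft ≠ 0`, `ft = u g ^ q`, such that for ANY two per-node packages
  `(Winf, Wzero, winf, wzero, hWinf, hWzero, hwinf, hwzero, hvinf, hvzero, n, hn)` one has `n = n'`.
-/
import Fermat.Agent.S40x.R2.Cover.FixedPart
import Fermat.Agent.S40x.R2.Cover.ModularSpan
import Fermat.Agent.S40x.R2.CoverModular
import Fermat.Agent.S40x.Kum.DescFixed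
import Fermat.Agent.S40x.Node.OrdF0
import Fermat.Agent.S40x.R2.Asm.Core

set_option autoImplicit false
set_option linter.style.haveILetI false
set_option linter.unusedSectionVars false
set_option linter.unusedVariables false

noncomputable section

namespace Fermat.Agent.S40x.R2.Asm.GlobalBlockB

open HahnSeries AlgebraicCurve IsLocalRing ModularCurve
open Fermat.Agent.Gateway.Kummer Fermat.Agent.Gateway.Hecke
open Fermat.Agent.S19x.Geo.LatticeFixed (IsFixed IsFixedK)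
open Fermat.Agent.S33x.H1.FixData2Inst
open Fermat.Agent.S34x.TwoVal Fermat.Agent.S34x.Inst.RedSetupInst
open Fermat.Agent.S34x.TwoVal.ResidueInst
open Fermat.Agent.S40x.R2.Cover Fermat.Agent.S40x.R2.Cover.CoverDatum
open Fermat.Agent.S40x.R2.Transitive (IsOrd)
open Fermat.Agent.S40x.Kummer (unitFixed)
open Fermat.Agent.S40x.Node.Vocab Fermat.Agent.S40x.Node

local notation "Qb" => AlgebraicClosure ℚ
local notation "Γℚ" => (AlgebraicClosure ℚ ≃ₐ[ℚ] AlgebraicClosure ℚ)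

/-! ### The base field `F₀` at level `N` and its constants -/

section Base

variable (P : ValuationSubring Qb) (N : ℕ)

/-- the inertia group acting on `Qbar` -/
abbrev rhoI : ↥(P.inertiaSubgroupIn ℚ) →* RingAut Qb := rhoOfSubgroup (P.inertiaSubgroupIn ℚ)

/-- `F' := fixedBase F ρ`, the subfield of inertia-fixed functions of level `N`
(same carrier as `Vocab.F0 P N`). -/
abbrev fixedSub : Subfield ↥(modularFunctionFieldBar N) :=
  fixedBase (modularFunctionFieldBar N) (rhoI P)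

/-- `F₀` as a field type (`Cover/FixedPart`). -/
abbrev F₀ : Type := FixedBase (modularFunctionFieldBar N) (rhoI P)

theorem isFixed_of_mem_fixedSub (f : ↥(modularFunctionFieldBar N)) (hf : f ∈ fixedSub P N) :
    IsFixed (inertiaAct P N) f :=
  (mem_F0 P N).mp ((mem_F0_iff_mem_fixedBase P N).mpr hf)

/-- the constants `K0 → F₀` -/
def constK0 : K0 P →+* F₀ P N :=
  (FixedBase.ofSub (modularFunctionFieldBar N) (rhoI P) : _ →+* _).comp
    (((algebraMap Qb ↥(modularFunctionFieldBar N)).comp (K0 P).subtype).codRestrict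
      (fixedSub P N)
      (fun c => (mem_F0_iff_mem_fixedBase P N).mp ((algebraMap_mem_F0_iff P N).2 c.2)))

@[simp] theorem val_constK0 (c : K0 P) :
    FixedBase.val (modularFunctionFieldBar N) (rhoI P) (constK0 P N c) =
      algebraMap Qb (modularFunctionFieldBar N) (c : Qb) := rfl

end Base

/-! ### Item [N]: the two order functions on `F₀` (`Node/OrdF0` at `F' := fixedBase ..`) -/

section Orders

variable (P : ValuationSubring Qb) {k : Type} [Field k] (π : P →+* k) [IsAlgClosed k]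
variable (M q : ℕ) [NeZero M] [Fact q.Prime] [CharP k q]
variable (hdeg : finrankAlong Qb (heckeAlphaBar Qb M q) = q + 1) (hq : q.Prime)
  (hqM : ¬ q ∣ M)
variable (hrk : ∀ x ∈ maximalIdeal P, ∀ c : P, c ≠ 0 → ∃ j : ℕ, c ∣ x ^ j)
  (hπ : Function.Surjective π)

/-- `O_∞ ∩ F₀`. -/
def OinfB : ValuationSubring (F₀ P (M * q)) :=
  OrdF0.Oinf P π M q hqM hrk hπ (fixedSub P (M * q))

/-- `O_0 ∩ F₀`. -/
def OzeroB : ValuationSubring (F₀ P (M * q)) :=
  OrdF0.Ozero P π M q hdeg hq hqM hrk hπ (fixedSub P (M * q))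

/-- `v_∞` on `F₀`, normalised by `v_∞ (q) = 1`. -/
def vinfB : F₀ P (M * q) → ℤ := OrdF0.vinf P π M q hqM hrk hπ (fixedSub P (M * q))

/-- `v_0` on `F₀`, normalised by `v_0 (q) = 1`. -/
def vzeroB : F₀ P (M * q) → ℤ := OrdF0.vzero P π M q hdeg hq hqM hrk hπ (fixedSub P (M * q))

/-- membership in `O_∞ ∩ F₀` is membership of the underlying function in `valInfty` (the form in
which the per-node layer [ET] states `hWinf`). -/
theorem mem_OinfB_iff {f : F₀ P (M * q)} :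
    f ∈ OinfB P π M q hqM hrk hπ ↔
      ((FixedBase.val (modularFunctionFieldBar (M * q)) (rhoI P) f :
        ↥(modularFunctionFieldBar (M * q))) : FL Qb (M * q)) ∈ valInfty P π M q hrk hπ hqM :=
  Iff.rfl

theorem mem_OzeroB_iff {f : F₀ P (M * q)} :
    f ∈ OzeroB P π M q hdeg hq hqM hrk hπ ↔
      ((FixedBase.val (modularFunctionFieldBar (M * q)) (rhoI P) f :
        ↥(modularFunctionFieldBar (M * q))) : FL Qb (M * q)) ∈
          valZero P π M q hdeg hq hqM hrk hπ :=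
  Iff.rfl

include hdeg hq in
theorem isOrd_vinfB : IsOrd (OinfB P π M q hqM hrk hπ) (vinfB P π M q hqM hrk hπ) :=
  OrdF0.isOrd_vinf P π M q hdeg hq hqM hrk hπ (fixedSub P (M * q))
    (isFixed_of_mem_fixedSub P (M * q))

theorem isOrd_vzeroB :
    IsOrd (OzeroB P π M q hdeg hq hqM hrk hπ) (vzeroB P π M q hdeg hq hqM hrk hπ) :=
  OrdF0.isOrd_vzero P π M q hdeg hq hqM hrk hπ (fixedSub P (M * q))
    (isFixed_of_mem_fixedSub P (M * q))

include hdeg hq in
/-- `v_∞ (q) = 1` -/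
theorem vinfB_natCast : vinfB P π M q hqM hrk hπ ((q : ℕ) : F₀ P (M * q)) = 1 :=
  OrdF0.vinf_natCast P π M q hdeg hq hqM hrk hπ (fixedSub P (M * q))

/-- `v_0 (q) = 1` -/
theorem vzeroB_natCast : vzeroB P π M q hdeg hq hqM hrk hπ ((q : ℕ) : F₀ P (M * q)) = 1 :=
  OrdF0.vzero_natCast P π M q hdeg hq hqM hrk hπ (fixedSub P (M * q))

include hdeg hq in
/-- `hvp` of `Asm/KU` at `∞` -/
theorem vinfB_constK0_natCast :
    vinfB P π M q hqM hrk hπ (constK0 P (M * q) (q : K0 P)) = 1 := by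
  rw [map_natCast]
  exact vinfB_natCast P π M q hdeg hq hqM hrk hπ

/-- `hvp` of `Asm/KU` at `0` -/
theorem vzeroB_constK0_natCast :
    vzeroB P π M q hdeg hq hqM hrk hπ (constK0 P (M * q) (q : K0 P)) = 1 := by
  rw [map_natCast]
  exact vzeroB_natCast P π M q hdeg hq hqM hrk hπ

include hdeg hq in
/-- `hvu` of `Asm/KU` at `∞` -/
theorem vinfB_constK0_unit (u : K0 P) (hu : (u : Qb) ∈ unitFixed P) :
    vinfB P π M q hqM hrk hπ (constK0 P (M * q) u) = 0 :=
  OrdF0.vinf_map_unit P π M q hdeg hq hqM hrk hπ (fixedSub P (M * q)) rfl hu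

/-- `hvu` of `Asm/KU` at `0` -/
theorem vzeroB_constK0_unit (u : K0 P) (hu : (u : Qb) ∈ unitFixed P) :
    vzeroB P π M q hdeg hq hqM hrk hπ (constK0 P (M * q) u) = 0 :=
  OrdF0.vzero_map_unit P π M q hdeg hq hqM hrk hπ (fixedSub P (M * q)) rfl hu

end Orders

/-! ### Item [KU]: `q ∣ v (β ^ q)` for the Kummer constant -/

section KU

variable (P : ValuationSubring Qb) {k : Type} [Field k] (π : P →+* k) [IsAlgClosed k]
variable (M q : ℕ) [NeZero M] [Fact q.Prime] [CharP k q]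
variable (hdeg : finrankAlong Qb (heckeAlphaBar Qb M q) = q + 1) (hq : q.Prime)
  (hqM : ¬ q ∣ M)
variable (hrk : ∀ x ∈ maximalIdeal P, ∀ c : P, c ≠ 0 → ∃ j : ℕ, c ∣ x ^ j)
  (hπ : Function.Surjective π)

include hdeg hq in
/-- **[KU] at `∞`** (`I°`-form): `q ∣ v_∞ (β ^ q)`. -/
theorem dvd_vinfB_const (hP : P.LiesOverPrime q) {β : Qb} (hβ0 : β ≠ 0)
    (hβfix : ∀ τ ∈ P.inertiaSubgroupIn ℚ, τ (β ^ q) = β ^ q)
    (hI0 : ∀ τ ∈ P.inertiaSubgroupIn ℚ,
      (∀ b : Qb, b ^ q ∈ unitFixed P → τ b = b) → τ β = β) :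
    (q : ℤ) ∣ vinfB P π M q hqM hrk hπ (constK0 P (M * q) ⟨β ^ q, hβfix⟩) :=
  Fermat.Agent.S40x.R2.Asm.KU.dvd_ord_const_I0
    (isOrd_vinfB P π M q hdeg hq hqM hrk hπ) (K0 P) (fun _ hc => hc) (constK0 P (M * q))
    (vinfB_constK0_natCast P π M q hdeg hq hqM hrk hπ)
    (vinfB_constK0_unit P π M q hdeg hq hqM hrk hπ) hq hP hβ0 hβfix hI0

/-- **[KU] at `0`** (`I°`-form): `q ∣ v_0 (β ^ q)`. -/
theorem dvd_vzeroB_const (hP : P.LiesOverPrime q) {β : Qb} (hβ0 : β ≠ 0)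
    (hβfix : ∀ τ ∈ P.inertiaSubgroupIn ℚ, τ (β ^ q) = β ^ q)
    (hI0 : ∀ τ ∈ P.inertiaSubgroupIn ℚ,
      (∀ b : Qb, b ^ q ∈ unitFixed P → τ b = b) → τ β = β) :
    (q : ℤ) ∣ vzeroB P π M q hdeg hq hqM hrk hπ (constK0 P (M * q) ⟨β ^ q, hβfix⟩) :=
  Fermat.Agent.S40x.R2.Asm.KU.dvd_ord_const_I0
    (isOrd_vzeroB P π M q hdeg hq hqM hrk hπ) (K0 P) (fun _ hc => hc) (constK0 P (M * q))
    (vzeroB_constK0_natCast P π M q hdeg hq hqM hrk hπ)
    (vzeroB_constK0_unit P π M q hdeg hq hqM hrk hπ) hq hP hβ0 hβfix hI0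

end KU

/-! ### Item [DI]: the descended Kummer function in `E₀ = FL₀`, `σ₀ ft = a h ^ p ft` -/

section Descent

open Fermat.Agent.S40x.R2.CoverModular

variable {N : ℕ} [NeZero N] {p : ℕ}

/-- **[DI] in the `Cover/FixedPart` vocabulary**, for a subgroup `I ≤ G_ℚ` acting on `l0` through
the cyclotomic character and on `x` by `σ x - x = j σ • l0` (hypotheses of
`CoverModular.descent_modular`).  Output: `ft h : E₀`, `a : F₀`, `β : Qbar`, `g : F(z)`, all
nonzero, `ft = u g ^ p`, `a = β ^ p`, `σ₀ ft = a h ^ p ft` in the `sigma0Alg` / `algebraMap` form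
(`hσ` of `Asm/Core.c3_core_pair`), `β ^ p` fixed by `I`, and `τ β * ζ ^ j τ = β` on `I`. -/
theorem descent_fixedPart (hp : p.Prime) {ζ : Qb} (hζ : IsPrimitiveRoot ζ p) {l0 : JZero N}
    (hl0 : l0 ≠ 0) {u0 : modularFunctionFieldBar N} (hu0 : IsKummerRep p l0 u0)
    (hnorm : Normalized (u0 : LaurentSeries Qb)) (I : Subgroup Γℚ)
    (hI : ∀ σ ∈ I, ∃ a : ℕ, σ • l0 = a • l0 ∧ σ ζ = ζ ^ a)
    {x : JZero N} {u : modularFunctionFieldBar N} (hu : IsKummerRep p x u)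
    (hun : Normalized (u : LaurentSeries Qb))
    (j : Γℚ → ℕ) (hx : ∀ σ ∈ I, σ • x - x = j σ • l0) :
    ∃ (ft h : (coverDatumOfKummer hp hζ hl0 hu0 hnorm).FixedCover (rhoOfSubgroup I)
        (stable_rhoOfSubgroup hp hζ hl0 hu0 hnorm I hI))
      (a : FixedBase (modularFunctionFieldBar N) (rhoOfSubgroup I)) (β : Qb)
      (g : (coverDatumOfKummer hp hζ hl0 hu0 hnorm).coverField),
      ft ≠ 0 ∧ h ≠ 0 ∧ a ≠ 0 ∧ β ≠ 0 ∧ g ≠ 0 ∧
      (coverDatumOfKummer hp hζ hl0 hu0 hnorm).fixedVal (rhoOfSubgroup I)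
          (stable_rhoOfSubgroup hp hζ hl0 hu0 hnorm I hI) ft =
        algebraMap (modularFunctionFieldBar N)
          (coverDatumOfKummer hp hζ hl0 hu0 hnorm).coverField u * g ^ p ∧
      FixedBase.val (modularFunctionFieldBar N) (rhoOfSubgroup I) a =
        algebraMap Qb (modularFunctionFieldBar N) (β ^ p) ∧
      (coverDatumOfKummer hp hζ hl0 hu0 hnorm).sigma0Alg (rhoOfSubgroup I)
          (stable_rhoOfSubgroup hp hζ hl0 hu0 hnorm I hI) ft =
        algebraMap (FixedBase (modularFunctionFieldBar N) (rhoOfSubgroup I))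
          ((coverDatumOfKummer hp hζ hl0 hu0 hnorm).FixedCover (rhoOfSubgroup I)
            (stable_rhoOfSubgroup hp hζ hl0 hu0 hnorm I hI)) a * h ^ p * ft ∧
      (∀ τ ∈ I, τ (β ^ p) = β ^ p) ∧
      ∀ τ ∈ I, τ β * ζ ^ j τ = β := by
  classical
  set D := coverDatumOfKummer hp hζ hl0 hu0 hnorm with hD
  obtain ⟨G', hG'fin, hG'⟩ := exists_finiteIndex_fixing I u
  haveI := hG'fin
  have hii : ∀ τ : I, ∃ (j' : ℕ) (k : modularFunctionFieldBar N) (c : Qb), k ≠ 0 ∧ c ≠ 0 ∧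
      coeffMap ((rhoOfSubgroup I τ : Qb ≃+* Qb) : Qb →+* Qb) (u : LaurentSeries Qb) =
        (HahnSeries.C c : LaurentSeries Qb) * (u : LaurentSeries Qb) *
          (D.f0 : LaurentSeries Qb) ^ j' * (k : LaurentSeries Qb) ^ p := by
    intro τ
    obtain ⟨k, c, hk0, hc0, hkc⟩ := hii_of_smul_sub hu hu0 (τ : Γℚ) (hx τ τ.2)
    exact ⟨j τ, k, c, hk0, hc0, hkc⟩
  obtain ⟨ft, h, a, β, g, hft0, hh0, ha0, hβ0, hg0, hft, ha, hσ, hβp, hkum⟩ :=
    Fermat.Agent.S40x.Kum.DescFixed.descent_fixed D (rhoOfSubgroup I)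
      (stable_rhoOfSubgroup hp hζ hl0 hu0 hnorm I hI) (f := u) hu.ne_zero hun G' hG' hii
  refine ⟨D.toFixedCover _ _ ft, D.toFixedCover _ _ h, FixedBase.ofSub _ _ a, β, g,
    D.toFixedCover_ne_zero _ _ hft0, D.toFixedCover_ne_zero _ _ hh0,
    FixedBase.ofSub_ne_zero ha0, hβ0, hg0, hft, ha, D.sigma0Alg_eq_of_coe _ _ hσ,
    fun τ hτ => hβp ⟨τ, hτ⟩, fun τ hτ => ?_⟩
  obtain ⟨k, c, hk0, hc0, hkc⟩ := hii_of_smul_sub hu hu0 τ (hx τ hτ)
  exact hkum ⟨τ, hτ⟩ (j τ) k c hk0 hc0 hkc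

end Descent

/-! ### The global block and `c3_core_pair` with every non-per-node hypothesis discharged -/

section Global

variable (P : ValuationSubring Qb) {k : Type} [Field k] (π : P →+* k) [IsAlgClosed k]
variable (M q : ℕ) [NeZero M] [Fact q.Prime] [CharP k q]
variable (hdeg : finrankAlong Qb (heckeAlphaBar Qb M q) = q + 1) (hq : q.Prime)
  (hqM : ¬ q ∣ M)
variable (hrk : ∀ x ∈ maximalIdeal P, ∀ c : P, c ≠ 0 → ∃ j : ℕ, c ∣ x ^ j)
  (hπ : Function.Surjective π)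

include hq in
theorem natCast_F₀_ne_zero (N : ℕ) : ((q : ℕ) : F₀ P N) ≠ 0 := by
  intro h0
  have h1 := congrArg (FixedBase.val (modularFunctionFieldBar N) (rhoI P)) h0
  rw [map_natCast, map_zero] at h1
  have h2 : algebraMap Qb (modularFunctionFieldBar N) ((q : ℕ) : Qb) = 0 := by
    rw [map_natCast]; exact h1
  rw [map_eq_zero] at h2
  exact (Nat.cast_ne_zero.mpr hq.ne_zero) h2

include hq in
/-- `ζ ^ j = 1` from `j • l0 = 0` for a point `l0 ≠ 0` killed by `q`. -/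
theorem zeta_pow_eq_one_of_nsmul_eq_zero {A : Type*} [AddGroup A] {ζ : Qb}
    (hζ : IsPrimitiveRoot ζ q) {l0 : A} (hl0 : l0 ≠ 0) (hql0 : q • l0 = 0) {j : ℕ}
    (hj : j • l0 = 0) : ζ ^ j = 1 := by
  have h1 : addOrderOf l0 ∣ q := addOrderOf_dvd_of_nsmul_eq_zero hql0
  have h2 : addOrderOf l0 = q := by
    rcases (Nat.dvd_prime hq).mp h1 with h | h
    · exact absurd (AddMonoid.addOrderOf_eq_one_iff.mp h) hl0
    · exact h
  have h3 : q ∣ j := by
    rw [← h2]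
    exact addOrderOf_dvd_of_nsmul_eq_zero hj
  obtain ⟨m, rfl⟩ := h3
  rw [pow_mul, hζ.pow_eq_one, one_pow]

include hq in
/-- the hypothesis `hd` of `global_block` from the `I°`-form of peu ramifié for the class `x`
(`hd` of `s44_geo'`: the elements of `I°` fix `x`). -/
theorem hd_of_fixed {N : ℕ} {ζ : Qb} (hζ : IsPrimitiveRoot ζ q) {l0 x : JZero N} (hl0 : l0 ≠ 0)
    (hql0 : q • l0 = 0) (j : Γℚ → ℕ)
    (hx : ∀ σ ∈ P.inertiaSubgroupIn ℚ, σ • x - x = j σ • l0)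
    (hfix : ∀ τ ∈ P.inertiaSubgroupIn ℚ,
      (∀ b : Qb, b ^ q ∈ unitFixed P → τ b = b) → τ • x = x) :
    ∀ τ ∈ P.inertiaSubgroupIn ℚ,
      (∀ b : Qb, b ^ q ∈ unitFixed P → τ b = b) → ζ ^ j τ = 1 := by
  intro τ hτ hb
  refine zeta_pow_eq_one_of_nsmul_eq_zero q hq hζ hl0 hql0 ?_
  rw [← hx τ hτ, hfix τ hτ hb, sub_self]

variable {ζ : Qb} (hζ : IsPrimitiveRoot ζ q) {l0 : JZero (M * q)} (hl0 : l0 ≠ 0)
  {u0 : modularFunctionFieldBar (M * q)} (hu0 : IsKummerRep q l0 u0)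
  (hnorm : Normalized (u0 : LaurentSeries Qb))
  (hI : ∀ σ ∈ P.inertiaSubgroupIn ℚ, ∃ a : ℕ, σ • l0 = a • l0 ∧ σ ζ = ζ ^ a)

/-- the cover datum of `u0` -/
abbrev Dat : CoverDatum (modularFunctionFieldBar (M * q)) q :=
  coverDatumOfKummer hq hζ hl0 hu0 hnorm

include hI in
/-- the inertia group acts stably on the cover -/
theorem stableI (σ : ↥(P.inertiaSubgroupIn ℚ)) :
    (Dat M q hq hζ hl0 hu0 hnorm).Stable (rhoI P σ) :=
  stable_rhoOfSubgroup hq hζ hl0 hu0 hnorm (P.inertiaSubgroupIn ℚ) hI σ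

/-- `E₀ = FL₀` as a field type (`Cover/FixedPart`). -/
abbrev E₀ : Type :=
  (Dat M q hq hζ hl0 hu0 hnorm).FixedCover (rhoI P) (stableI P M q hq hζ hl0 hu0 hnorm hI)

include hdeg in
/-- **The global block of C3-ASM**: ALL non-per-node data of `Asm/Core.c3_core_pair` at the
modular Kummer cover of level `M q`.  `hd` is the `I°`-form of peu ramifié for the class `x`. -/
theorem global_block (hP : P.LiesOverPrime q)
    {x : JZero (M * q)} {u : modularFunctionFieldBar (M * q)} (hu : IsKummerRep q x u)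
    (hun : Normalized (u : LaurentSeries Qb))
    (j : Γℚ → ℕ) (hx : ∀ σ ∈ P.inertiaSubgroupIn ℚ, σ • x - x = j σ • l0)
    (hd : ∀ τ ∈ P.inertiaSubgroupIn ℚ,
      (∀ b : Qb, b ^ q ∈ unitFixed P → τ b = b) → ζ ^ j τ = 1) :
    ∃ (ft h : E₀ P M q hq hζ hl0 hu0 hnorm hI) (a : F₀ P (M * q))
      (g : (Dat M q hq hζ hl0 hu0 hnorm).coverField),
      ft ≠ 0 ∧ h ≠ 0 ∧ a ≠ 0 ∧ g ≠ 0 ∧
      (Dat M q hq hζ hl0 hu0 hnorm).fixedVal (rhoI P)
          (stableI P M q hq hζ hl0 hu0 hnorm hI) ft =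
        algebraMap (modularFunctionFieldBar (M * q))
          (Dat M q hq hζ hl0 hu0 hnorm).coverField u * g ^ q ∧
      (Dat M q hq hζ hl0 hu0 hnorm).sigma0Alg (rhoI P)
          (stableI P M q hq hζ hl0 hu0 hnorm hI) ft =
        algebraMap (F₀ P (M * q)) (E₀ P M q hq hζ hl0 hu0 hnorm hI) a * h ^ q * ft ∧
      (q : ℤ) ∣ vinfB P π M q hqM hrk hπ a ∧
      (q : ℤ) ∣ vzeroB P π M q hdeg hq hqM hrk hπ a := by
  obtain ⟨ft, h, a, β, g, hft0, hh0, ha0, hβ0, hg0, hft, ha, hσ, hβp, hkum⟩ :=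
    descent_fixedPart hq hζ hl0 hu0 hnorm (P.inertiaSubgroupIn ℚ) hI hu hun j hx
  have hI0 : ∀ τ ∈ P.inertiaSubgroupIn ℚ,
      (∀ b : Qb, b ^ q ∈ unitFixed P → τ b = b) → τ β = β := by
    intro τ hτ hb
    have h1 := hkum τ hτ
    rwa [hd τ hτ hb, mul_one] at h1
  have haK : a = constK0 P (M * q) ⟨β ^ q, hβp⟩ :=
    FixedBase.val_injective (by rw [ha, val_constK0])
  refine ⟨ft, h, a, g, hft0, hh0, ha0, hg0, hft, hσ, ?_, ?_⟩
  · rw [haK]
    exact dvd_vinfB_const P π M q hdeg hq hqM hrk hπ hP hβ0 hβp hI0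
  · rw [haK]
    exact dvd_vzeroB_const P π M q hdeg hq hqM hrk hπ hP hβ0 hβp hI0

include hdeg in
/-- **`c3_core_pair` at the modular Kummer cover, every non-per-node hypothesis discharged.**
There is a descended Kummer function `ft = u g ^ q ∈ E₀` such that any two per-node packages (in
the literal shape of `Asm/Core.c3_core_pair`, over `OinfB`, `OzeroB`, `vinfB`, `vzeroB`) have the
same slope. -/
theorem c3_pair_modular (hP : P.LiesOverPrime q)
    {x : JZero (M * q)} {u : modularFunctionFieldBar (M * q)} (hu : IsKummerRep q x u)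
    (hun : Normalized (u : LaurentSeries Qb))
    (j : Γℚ → ℕ) (hx : ∀ σ ∈ P.inertiaSubgroupIn ℚ, σ • x - x = j σ • l0)
    (hd : ∀ τ ∈ P.inertiaSubgroupIn ℚ,
      (∀ b : Qb, b ^ q ∈ unitFixed P → τ b = b) → ζ ^ j τ = 1) :
    ∃ (ft : E₀ P M q hq hζ hl0 hu0 hnorm hI)
      (g : (Dat M q hq hζ hl0 hu0 hnorm).coverField),
      ft ≠ 0 ∧ g ≠ 0 ∧
      (Dat M q hq hζ hl0 hu0 hnorm).fixedVal (rhoI P)
          (stableI P M q hq hζ hl0 hu0 hnorm hI) ft =
        algebraMap (modularFunctionFieldBar (M * q))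
          (Dat M q hq hζ hl0 hu0 hnorm).coverField u * g ^ q ∧
      ∀ {Winf Wzero : ValuationSubring (E₀ P M q hq hζ hl0 hu0 hnorm hI)}
        {winf wzero : E₀ P M q hq hζ hl0 hu0 hnorm hI → ℤ}
        (hWinf : ∀ e : F₀ P (M * q),
          algebraMap (F₀ P (M * q)) (E₀ P M q hq hζ hl0 hu0 hnorm hI) e ∈ Winf ↔
            e ∈ OinfB P π M q hqM hrk hπ)
        (hWzero : ∀ e : F₀ P (M * q),
          algebraMap (F₀ P (M * q)) (E₀ P M q hq hζ hl0 hu0 hnorm hI) e ∈ Wzero ↔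
            e ∈ OzeroB P π M q hdeg hq hqM hrk hπ)
        (hwinf : IsOrd Winf winf) (hwzero : IsOrd Wzero wzero)
        (hvinf : ∀ e : F₀ P (M * q), e ≠ 0 →
          winf (algebraMap (F₀ P (M * q)) (E₀ P M q hq hζ hl0 hu0 hnorm hI) e) =
            vinfB P π M q hqM hrk hπ e)
        (hvzero : ∀ e : F₀ P (M * q), e ≠ 0 →
          wzero (algebraMap (F₀ P (M * q)) (E₀ P M q hq hζ hl0 hu0 hnorm hI) e) =
            vzeroB P π M q hdeg hq hqM hrk hπ e)
        (n : ZMod q) (hn : n = ((wzero ft - winf ft : ℤ) : ZMod q))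
        {Winf' Wzero' : ValuationSubring (E₀ P M q hq hζ hl0 hu0 hnorm hI)}
        {winf' wzero' : E₀ P M q hq hζ hl0 hu0 hnorm hI → ℤ}
        (hWinf' : ∀ e : F₀ P (M * q),
          algebraMap (F₀ P (M * q)) (E₀ P M q hq hζ hl0 hu0 hnorm hI) e ∈ Winf' ↔
            e ∈ OinfB P π M q hqM hrk hπ)
        (hWzero' : ∀ e : F₀ P (M * q),
          algebraMap (F₀ P (M * q)) (E₀ P M q hq hζ hl0 hu0 hnorm hI) e ∈ Wzero' ↔
            e ∈ OzeroB P π M q hdeg hq hqM hrk hπ)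
        (hwinf' : IsOrd Winf' winf') (hwzero' : IsOrd Wzero' wzero')
        (hvinf' : ∀ e : F₀ P (M * q), e ≠ 0 →
          winf' (algebraMap (F₀ P (M * q)) (E₀ P M q hq hζ hl0 hu0 hnorm hI) e) =
            vinfB P π M q hqM hrk hπ e)
        (hvzero' : ∀ e : F₀ P (M * q), e ≠ 0 →
          wzero' (algebraMap (F₀ P (M * q)) (E₀ P M q hq hζ hl0 hu0 hnorm hI) e) =
            vzeroB P π M q hdeg hq hqM hrk hπ e)
        (n' : ZMod q) (hn' : n' = ((wzero' ft - winf' ft : ℤ) : ZMod q)),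
        n = n' := by
  obtain ⟨ft, h, a, g, hft0, hh0, ha0, hg0, hft, hσ, hainf, hazero⟩ :=
    global_block P π M q hdeg hq hqM hrk hπ hζ hl0 hu0 hnorm hI hP hu hun j hx hd
  refine ⟨ft, g, hft0, hg0, hft, ?_⟩
  intro Winf Wzero winf wzero hWinf hWzero hwinf hwzero hvinf hvzero n hn
    Winf' Wzero' winf' wzero' hWinf' hWzero' hwinf' hwzero' hvinf' hvzero' n' hn'
  have hcinf : vinfB P π M q hqM hrk hπ ((q : ℕ) : F₀ P (M * q)) ≠ 0 := by
    rw [vinfB_natCast P π M q hdeg hq hqM hrk hπ]; exact one_ne_zero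
  have hczero : vzeroB P π M q hdeg hq hqM hrk hπ ((q : ℕ) : F₀ P (M * q)) ≠ 0 := by
    rw [vzeroB_natCast P π M q hdeg hq hqM hrk hπ]; exact one_ne_zero
  exact Fermat.Agent.S40x.R2.Asm.c3_core_pair (natCast_F₀_ne_zero P q hq (M * q)) hcinf hczero
    ((Dat M q hq hζ hl0 hu0 hnorm).mem_zpowers_sigma0Alg (rhoI P)
      (stableI P M q hq hζ hl0 hu0 hnorm hI))
    hft0 hh0 ha0 hσ hainf hazero
    hWinf hWzero hwinf hwzero hvinf hvzero n hn
    hWinf' hWzero' hwinf' hwzero' hvinf' hvzero' n' hn'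

end Global

end Fermat.Agent.S40x.R2.Asm.GlobalBlockB
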