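/-
P-S44, block C3, seam for [ET-inst] (helper16; independent SECOND of helper2's
`R2/NodeCover/InertiaCard.lean`, different proof [norm + value group of the inertia field], plus the
cover-vocabulary forms): **the inertia group at `p` acts on the `p`-th roots
of unity through the FULL group `(ℤ/p)ˣ`.**

`P` a valuation subring of `ℚ̄` over `p`, `I = P.inertiaSubgroupIn ℚ`, `ζ` a primitive `p`-th root
of unity.  Every abstract ET/AS-descent leaf takes `|I / G1| = p - 1` (`Fintype.card ι + 1 = p`,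
`Fintype.card G = p - 1`) as a hypothesis; this file proves it.

* `card_conjSet` : the set of inertia conjugates of `ζ` (helper3's `W/G1.conjSet`) has exactly
  `p - 1` elements.  Proof: the norm `N = ∏ (t - 1)` over the conjugates is inertia-fixed, so
  `v(N) = v(p)^k` with `k ≥ 1` (value group of the inertia field, `Kummer.fixed_eq_zpow_mul_unit`);
  every factor has the valuation of `ζ - 1` and `v(p) ≤ v(ζ - 1)^(p-1)`; hence `m ≥ p - 1`.
* `exists_inertia_apply_eq` : every primitive `p`-th root of unity is `σ ζ` with `σ ∈ I`;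
  `exists_inertia_zeta_pow` : for `p ∤ a` there is `σ ∈ I` with `σ ζ = ζ ^ a`.
* `natCard_quotient_G1` : for any cover datum `D` over `ℚ̄` with `D.ζ = ζ`:
  `Nat.card (I ⧸ D.G1 (rhoOfSubgroup I)) = p - 1`  (+ `Fintype` form `card + 1 = p`).
-/
import Fermat.Agent.S40x.W.G1
import Fermat.Agent.S40x.R2.KummerPeu
import Fermat.Agent.S40x.R2.Cover.Modular
import Fermat.Agent.S40x.R2.Cover.Span

set_option autoImplicit false
set_option linter.style.haveILetI false

noncomputable section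

namespace Fermat.Agent.S40x.R2.Asm.InertiaCyclo

open Fermat.Agent.S40x.W.G1 Fermat.Agent.S40x.R2.Cover

local notation "Qb" => AlgebraicClosure ℚ
local notation "Γℚ" => (AlgebraicClosure ℚ ≃ₐ[ℚ] AlgebraicClosure ℚ)

variable {P : ValuationSubring Qb} {p : ℕ} {ζ : Qb}

/-- **The inertia group acts transitively on the primitive `p`-th roots of unity**, counting
form. -/
theorem card_conjSet (hp : p.Prime) (hP : P.LiesOverPrime p) (hζ : IsPrimitiveRoot ζ p) :
    (conjSet P p ζ).card = p - 1 := by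
  classical
  haveI : Algebra.IsAlgebraic ℚ Qb := AlgebraicClosure.isAlgebraic ℚ
  refine le_antisymm (card_conjSet_le hp) ?_
  set m := (conjSet P p ζ).card with hm
  set x := P.valuation (ζ - 1) with hx
  have hπ0 : ζ - 1 ≠ 0 := sub_one_ne_zero hp hζ
  have hx0 : x ≠ 0 := (Valuation.ne_zero_iff _).mpr hπ0
  have hxpos : 0 < x := zero_lt_iff.mpr hx0
  have hx1 : x < 1 := (P.mem_nonunits_iff).mp (sub_one_mem_nonunits hp hP hζ)
  -- the norm of `ζ - 1`
  set Nm := normG1 P p ζ (ζ - 1) with hNm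
  have hfixπ : ∀ t ∈ G1 P ζ, t (ζ - 1) = ζ - 1 := by
    intro t ht
    rw [map_sub, map_one, ht.2]
  have hNfix : ∀ t ∈ P.inertiaSubgroupIn ℚ, t Nm = Nm := fun t ht =>
    normG1_fixed hp hζ hfixπ t ht
  have hvN : P.valuation Nm = x ^ m := by
    rw [hNm, normG1, map_prod]
    rw [Finset.prod_congr rfl (g := fun _ => x)]
    · rw [Finset.prod_const]
    · intro t ht
      obtain ⟨h1, -⟩ := lift_spec (P := P) (ζ := ζ) ((mem_conjSet hp hζ).mp ht)
      exact Fermat.Agent.S13.InertiaVal.inertia_valuation_eq h1 (ζ - 1)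
  have hN0 : Nm ≠ 0 := by
    rw [← Valuation.ne_zero_iff P.valuation, hvN]
    exact pow_ne_zero _ hx0
  have hmpos : 0 < m := Finset.card_pos.mpr ⟨ζ, zeta_mem_conjSet hp hζ⟩
  -- value group of the inertia field
  obtain ⟨k, w, hw, hNw⟩ := Fermat.Agent.S40x.Kummer.fixed_eq_zpow_mul_unit P hp hP hN0 hNfix
  set y := P.valuation (p : Qb) with hy
  have hvN' : P.valuation Nm = y ^ k := by
    rw [hNw, map_mul, map_zpow₀, hw.1, mul_one]
  -- `v(p) ≤ v(ζ - 1)^(p-1)`
  obtain ⟨z, hz, hpz⟩ := exists_natCast_eq_mul_sub_one_pow (P := P) hp hζ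
  have hy_le : y ≤ x ^ (p - 1) := by
    rw [hy, hpz, map_mul, map_pow]
    calc P.valuation z * x ^ (p - 1) ≤ 1 * x ^ (p - 1) :=
          mul_le_mul_left ((P.valuation_le_one_iff z).mpr hz) _
      _ = x ^ (p - 1) := one_mul _
  have hp1 : 0 < p - 1 := Nat.sub_pos_of_lt hp.one_lt
  have hy1 : y < 1 := lt_of_le_of_lt hy_le (pow_lt_one₀ hxpos.le hx1 hp1.ne')
  have hy0 : y ≠ 0 := by
    rw [hy]
    exact (Valuation.ne_zero_iff _).mpr (Nat.cast_ne_zero.mpr hp.ne_zero)
  have hypos : 0 < y := zero_lt_iff.mpr hy0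
  -- `k ≥ 1`
  have hk : 1 ≤ k := by
    by_contra hk
    have hk0 : k ≤ 0 := by omega
    have h1 : (1 : P.ValueGroup) ≤ y ^ k := by
      obtain ⟨n, hn⟩ := Int.eq_ofNat_of_zero_le (neg_nonneg.mpr hk0)
      have hkn : k = -(n : ℤ) := by omega
      rw [hkn, zpow_neg, zpow_natCast]
      exact (one_le_inv₀ (pow_pos hypos n)).mpr (pow_le_one₀ hypos.le hy1.le)
    have h2 : x ^ m < 1 := pow_lt_one₀ hxpos.le hx1 hmpos.ne'
    rw [← hvN, hvN'] at h2
    exact absurd h1 (not_le.mpr h2)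
  -- `x^m = y^k ≤ y ≤ x^(p-1)`
  have h3 : x ^ m ≤ x ^ (p - 1) := by
    rw [← hvN, hvN']
    obtain ⟨n, hn⟩ := Int.eq_ofNat_of_zero_le (le_trans zero_le_one hk)
    have hn1 : 1 ≤ n := by omega
    rw [hn, zpow_natCast]
    calc y ^ n ≤ y ^ 1 := pow_le_pow_of_le_one hypos.le hy1.le hn1
      _ = y := pow_one y
      _ ≤ x ^ (p - 1) := hy_le
  exact (pow_le_pow_iff_right_of_lt_one₀ hxpos hx1).mp h3

/-- every primitive `p`-th root of unity is an inertia conjugate of `ζ` -/
theorem exists_inertia_apply_eq (hp : p.Prime) (hP : P.LiesOverPrime p)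
    (hζ : IsPrimitiveRoot ζ p) {ξ : Qb} (hξ : IsPrimitiveRoot ξ p) :
    ∃ σ ∈ P.inertiaSubgroupIn ℚ, σ ζ = ξ := by
  classical
  have hsub : conjSet P p ζ ⊆ primitiveRoots p Qb := by
    unfold conjSet
    exact Finset.filter_subset _ _
  have hcard : (primitiveRoots p Qb).card ≤ (conjSet P p ζ).card := by
    rw [card_conjSet hp hP hζ, hζ.card_primitiveRoots, Nat.totient_prime hp]
  have heq := Finset.eq_of_subset_of_card_le hsub hcard
  have hmem : ξ ∈ conjSet P p ζ := by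
    rw [heq, mem_primitiveRoots hp.pos]
    exact hξ
  exact (mem_conjSet hp hζ).mp hmem

/-- **surjectivity of the mod `p` cyclotomic character on inertia** -/
theorem exists_inertia_zeta_pow (hp : p.Prime) (hP : P.LiesOverPrime p)
    (hζ : IsPrimitiveRoot ζ p) {a : ℕ} (ha : ¬ p ∣ a) :
    ∃ σ ∈ P.inertiaSubgroupIn ℚ, σ ζ = ζ ^ a :=
  exists_inertia_apply_eq hp hP hζ
    (hζ.pow_of_coprime a ((Nat.Prime.coprime_iff_not_dvd hp).mpr ha).symm)

/-- **`|I / G1| = p - 1`** in helper48's cover vocabulary (`G := ↥I`, `ρ := rhoOfSubgroup I`). -/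
theorem natCard_quotient_G1 (hp : p.Prime) (hP : P.LiesOverPrime p)
    {F : IntermediateField Qb (LaurentSeries Qb)} (D : CoverDatum F p) :
    Nat.card (↥(P.inertiaSubgroupIn ℚ) ⧸
      D.G1 (rhoOfSubgroup (P.inertiaSubgroupIn ℚ))) = p - 1 := by
  classical
  have hζ : IsPrimitiveRoot D.ζ p := D.hζ
  rw [← card_conjSet hp hP hζ, ← Nat.card_eq_finsetCard]
  refine Nat.card_congr (Equiv.ofBijective
    (fun q => ⟨D.chi (rhoOfSubgroup (P.inertiaSubgroupIn ℚ)) q, ?_⟩) ⟨?_, ?_⟩)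
  · induction q using QuotientGroup.induction_on with
    | H g =>
      rw [CoverDatum.chi_mk]
      exact (mem_conjSet hp hζ).mpr ⟨(g : Γℚ), g.2, rfl⟩
  · intro a b hab
    exact D.chi_injective _ (congrArg Subtype.val hab)
  · rintro ⟨t, ht⟩
    obtain ⟨σ, hσ, rfl⟩ := (mem_conjSet hp hζ).mp ht
    exact ⟨QuotientGroup.mk ⟨σ, hσ⟩, rfl⟩

/-- `Fintype` form: `card (I / G1) + 1 = p` (the shape `hcard` of `NodeCover/SimpleRoot`,
`NodeRing/Main.ASDatum.card`). -/
theorem card_quotient_G1_add_one (hp : p.Prime) (hP : P.LiesOverPrime p)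
    {F : IntermediateField Qb (LaurentSeries Qb)} (D : CoverDatum F p)
    [Fintype (↥(P.inertiaSubgroupIn ℚ) ⧸ D.G1 (rhoOfSubgroup (P.inertiaSubgroupIn ℚ)))] :
    Fintype.card (↥(P.inertiaSubgroupIn ℚ) ⧸
      D.G1 (rhoOfSubgroup (P.inertiaSubgroupIn ℚ))) + 1 = p := by
  rw [← Nat.card_eq_fintype_card, natCard_quotient_G1 hp hP D]
  exact Nat.sub_add_cancel hp.one_lt.le

end Fermat.Agent.S40x.R2.Asm.InertiaCyclo
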