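/-
P-S44/S40, block C3, sub-assembly [KU] of `S44-IFACE-C3-ASM v1` (helper32): the Kummer glue in the
shape consumed by `Asm/Core.c3_core_pair` (hypotheses `hainf`, `hazero`).

`P` a valuation subring of `Qbar` over `p`, `I = P.inertiaSubgroupIn ℚ`, `ζ` a primitive `p`-th
root of unity.  From C3-DESC: `β ≠ 0` with `a = β^p` fixed by `I` and a character relation
`τ β * ζ^j = β`; from block B (peu ramifié): either the explicit Kummer element `b` of `(d')`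
(`b^p ∈ unitFixed P = O₀ˣ`, `τ b = ζ^j * b`) or the `I°`-form `hd` of `s44_geo'`.  Then
`a = p^(p k) * u` with `u ∈ O₀ˣ` (`Kummer.kummer_glue_char` resp. `Kummer.peu_dvd`), so for every
order function `v` (in the sense of `Transitive.IsOrd`) on a field `F0` receiving the inertia
field `K0` with `v p = 1` and `v (O₀ˣ) = 0`: `p ∣ v a`.

* `dvd_ord_of_eq_zpow_mul_unit` : the valuation computation `a = p^(p k) u ⇒ p ∣ v (κ a)`;
* `exists_eq_zpow_mul_unit` : the Kummer glue with an existential exponent per `τ`;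
* `dvd_ord_const`, `dvd_ord_const'` : consumer form, explicit Kummer element `b` (`(d')`/`(h3)`);
* `dvd_ord_const_of_shape` : the same with the exponents matched through an arbitrary shape
  relation `Sh τ j` (instance: `galTors τ x - x = j • l₀`, the last conclusion of
  `KFB.descent_of_shape` and `(d')` of `Ell.Iface.freyLocalShape`);
* `dvd_ord_const_I0` : consumer form with the `I°`-hypothesis (`hd` of `s44_geo'`), via `peu_dvd`;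
* `dvd_ord_const_I0_of_shape` : the `I°`-form obtained from a shape relation (`j = 0` on `I°`).
-/
import Mathlib
import Fermat.Agent.S40x.R2.KummerPeu
import Fermat.Agent.S40x.R2.Transitive

set_option autoImplicit false
set_option linter.unusedSectionVars false
set_option linter.unusedVariables false

namespace Fermat.Agent.S40x.R2.Asm.KU

open Fermat.Agent.S40x.Kummer Fermat.Agent.S40x.R2.Transitive

local notation "Qbar" => AlgebraicClosure ℚ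
local notation "Γℚ" => (AlgebraicClosure ℚ ≃ₐ[ℚ] AlgebraicClosure ℚ)

variable {P : ValuationSubring Qbar} {p : ℕ} {ζ : Qbar}

/-! ### The valuation computation -/

/-- `a = p^(p k) * u`, `u ∈ O₀ˣ`, `v p = 1`, `v (O₀ˣ) = 0` ⟹ `p ∣ v a`. -/
theorem dvd_ord_of_eq_zpow_mul_unit {F0 : Type*} [Field F0] {O : ValuationSubring F0}
    {v : F0 → ℤ} (hv : IsOrd O v) (K0 : Subfield Qbar)
    (hK0 : ∀ c : Qbar, (∀ τ ∈ P.inertiaSubgroupIn ℚ, τ c = c) → c ∈ K0)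
    (κ : K0 →+* F0) (hvp : v (κ (p : K0)) = 1)
    (hvu : ∀ u : K0, (u : Qbar) ∈ unitFixed P → v (κ u) = 0)
    (hp : p.Prime) (a : K0) {k : ℤ} {u : Qbar} (hu : u ∈ unitFixed P)
    (hau : (a : Qbar) = (p : Qbar) ^ ((p : ℤ) * k) * u) : (p : ℤ) ∣ v (κ a) := by
  have huK : u ∈ K0 := hK0 u hu.2
  have hu0 : u ≠ 0 := fun h0 => zero_notMem_unitFixed P (h0 ▸ hu)
  have hp0 : (p : K0) ≠ 0 := Nat.cast_ne_zero.mpr hp.ne_zero
  have haK : a = (p : K0) ^ ((p : ℤ) * k) * ⟨u, huK⟩ := by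
    apply Subtype.ext
    rw [hau]
    push_cast
    rfl
  have hκp0 : κ (p : K0) ≠ 0 := (map_ne_zero κ).mpr hp0
  have hκu0 : κ ⟨u, huK⟩ ≠ 0 := (map_ne_zero κ).mpr (fun h0 => hu0 (congrArg Subtype.val h0))
  rw [haK, map_mul, map_zpow₀, hv.map_mul (zpow_ne_zero _ hκp0) hκu0, hv.map_zpow hκp0, hvp,
    hvu ⟨u, huK⟩ hu, mul_one, add_zero]
  exact Dvd.intro k rfl

/-! ### The explicit Kummer element `b` (`(d')` of block B, `(h3)` of `c3_diagonal`) -/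

/-- **Kummer glue, existential exponents.** -/
theorem exists_eq_zpow_mul_unit (hp : p.Prime) (hP : P.LiesOverPrime p)
    (hζ : IsPrimitiveRoot ζ p) {a β b : Qbar} (ha0 : a ≠ 0)
    (ha : ∀ τ ∈ P.inertiaSubgroupIn ℚ, τ a = a) (hβ : β ^ p = a) (hb : b ^ p ∈ unitFixed P)
    (hchar : ∀ τ ∈ P.inertiaSubgroupIn ℚ, τ ζ = ζ →
      ∃ j : ℕ, τ β * ζ ^ j = β ∧ τ b = ζ ^ j * b) :
    ∃ k : ℤ, ∃ u ∈ unitFixed P, a = (p : Qbar) ^ ((p : ℤ) * k) * u := by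
  classical
  let j : Γℚ → ℕ := fun τ =>
    if h : τ ∈ P.inertiaSubgroupIn ℚ ∧ τ ζ = ζ then (hchar τ h.1 h.2).choose else 0
  have hj : ∀ τ (h1 : τ ∈ P.inertiaSubgroupIn ℚ) (h2 : τ ζ = ζ),
      τ β * ζ ^ j τ = β ∧ τ b = ζ ^ j τ * b := by
    intro τ h1 h2
    have : j τ = (hchar τ h1 h2).choose := dif_pos ⟨h1, h2⟩
    rw [this]
    exact (hchar τ h1 h2).choose_spec
  exact kummer_glue_char P hp hP hζ ha0 ha hβ hb j (fun τ h1 h2 => (hj τ h1 h2).1)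
    (fun τ h1 h2 => (hj τ h1 h2).2)

/-- **[KU], consumer form**: `p ∣ v a` for the constant `a = β^p`. -/
theorem dvd_ord_const {F0 : Type*} [Field F0] {O : ValuationSubring F0} {v : F0 → ℤ}
    (hv : IsOrd O v) (K0 : Subfield Qbar)
    (hK0 : ∀ c : Qbar, (∀ τ ∈ P.inertiaSubgroupIn ℚ, τ c = c) → c ∈ K0)
    (κ : K0 →+* F0) (hvp : v (κ (p : K0)) = 1)
    (hvu : ∀ u : K0, (u : Qbar) ∈ unitFixed P → v (κ u) = 0)
    (hp : p.Prime) (hP : P.LiesOverPrime p) (hζ : IsPrimitiveRoot ζ p) {β b : Qbar}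
    (hβ0 : β ≠ 0) (a : K0) (ha : (a : Qbar) = β ^ p)
    (hafix : ∀ τ ∈ P.inertiaSubgroupIn ℚ, τ (a : Qbar) = a)
    (hb : b ^ p ∈ unitFixed P)
    (hchar : ∀ τ ∈ P.inertiaSubgroupIn ℚ, τ ζ = ζ →
      ∃ j : ℕ, τ β * ζ ^ j = β ∧ τ b = ζ ^ j * b) :
    (p : ℤ) ∣ v (κ a) := by
  have ha0 : (a : Qbar) ≠ 0 := by
    rw [ha]
    exact pow_ne_zero _ hβ0
  obtain ⟨k, u, hu, hau⟩ := exists_eq_zpow_mul_unit hp hP hζ ha0 hafix ha.symm hb hchar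
  exact dvd_ord_of_eq_zpow_mul_unit hv K0 hK0 κ hvp hvu hp a hu hau

/-- **[KU], consumer form**, `a` given in `Qbar`. -/
theorem dvd_ord_const' {F0 : Type*} [Field F0] {O : ValuationSubring F0} {v : F0 → ℤ}
    (hv : IsOrd O v) (K0 : Subfield Qbar)
    (hK0 : ∀ c : Qbar, (∀ τ ∈ P.inertiaSubgroupIn ℚ, τ c = c) → c ∈ K0)
    (κ : K0 →+* F0) (hvp : v (κ (p : K0)) = 1)
    (hvu : ∀ u : K0, (u : Qbar) ∈ unitFixed P → v (κ u) = 0)
    (hp : p.Prime) (hP : P.LiesOverPrime p) (hζ : IsPrimitiveRoot ζ p) {β b : Qbar}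
    (hβ0 : β ≠ 0) (hβfix : ∀ τ ∈ P.inertiaSubgroupIn ℚ, τ (β ^ p) = β ^ p)
    (hb : b ^ p ∈ unitFixed P)
    (hchar : ∀ τ ∈ P.inertiaSubgroupIn ℚ, τ ζ = ζ →
      ∃ j : ℕ, τ β * ζ ^ j = β ∧ τ b = ζ ^ j * b) :
    (p : ℤ) ∣ v (κ ⟨β ^ p, hK0 _ hβfix⟩) :=
  dvd_ord_const hv K0 hK0 κ hvp hvu hp hP hζ hβ0 ⟨β ^ p, hK0 _ hβfix⟩ rfl hβfix hb hchar

/-- **[KU], shape form**: the exponents of `β` (C3-DESC) and of `b` (block B) are matched through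
a shape relation `Sh τ j` (instance: `galTors τ x - x = j • l₀`). -/
theorem dvd_ord_const_of_shape {F0 : Type*} [Field F0] {O : ValuationSubring F0} {v : F0 → ℤ}
    (hv : IsOrd O v) (K0 : Subfield Qbar)
    (hK0 : ∀ c : Qbar, (∀ τ ∈ P.inertiaSubgroupIn ℚ, τ c = c) → c ∈ K0)
    (κ : K0 →+* F0) (hvp : v (κ (p : K0)) = 1)
    (hvu : ∀ u : K0, (u : Qbar) ∈ unitFixed P → v (κ u) = 0)
    (hp : p.Prime) (hP : P.LiesOverPrime p) (hζ : IsPrimitiveRoot ζ p) {β b : Qbar}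
    (hβ0 : β ≠ 0) (hβfix : ∀ τ ∈ P.inertiaSubgroupIn ℚ, τ (β ^ p) = β ^ p)
    (hb : b ^ p ∈ unitFixed P) (Sh : Γℚ → ℕ → Prop)
    (h2 : ∀ τ ∈ P.inertiaSubgroupIn ℚ, ∃ j : ℕ, Sh τ j)
    (hβchar : ∀ τ ∈ P.inertiaSubgroupIn ℚ, ∀ j : ℕ, Sh τ j → τ β * ζ ^ j = β)
    (hbchar : ∀ τ ∈ P.inertiaSubgroupIn ℚ, ∀ j : ℕ, Sh τ j → τ b = ζ ^ j * b) :
    (p : ℤ) ∣ v (κ ⟨β ^ p, hK0 _ hβfix⟩) :=
  dvd_ord_const' hv K0 hK0 κ hvp hvu hp hP hζ hβ0 hβfix hb fun τ hτ _ => by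
    obtain ⟨j, hj⟩ := h2 τ hτ
    exact ⟨j, hβchar τ hτ j hj, hbchar τ hτ j hj⟩

/-! ### The `I°`-form (`hd` of `s44_geo'`) -/

/-- **[KU], `I°`-form**: if every `τ ∈ I` fixing all `b` with `b^p ∈ O₀ˣ` fixes `β`, then
`p ∣ v (β^p)` (via `Kummer.peu_dvd`). -/
theorem dvd_ord_const_I0 {F0 : Type*} [Field F0] {O : ValuationSubring F0} {v : F0 → ℤ}
    (hv : IsOrd O v) (K0 : Subfield Qbar)
    (hK0 : ∀ c : Qbar, (∀ τ ∈ P.inertiaSubgroupIn ℚ, τ c = c) → c ∈ K0)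
    (κ : K0 →+* F0) (hvp : v (κ (p : K0)) = 1)
    (hvu : ∀ u : K0, (u : Qbar) ∈ unitFixed P → v (κ u) = 0)
    (hp : p.Prime) (hP : P.LiesOverPrime p) {β : Qbar}
    (hβ0 : β ≠ 0) (hβfix : ∀ τ ∈ P.inertiaSubgroupIn ℚ, τ (β ^ p) = β ^ p)
    (hI0 : ∀ τ ∈ P.inertiaSubgroupIn ℚ,
      (∀ b : Qbar, b ^ p ∈ unitFixed P → τ b = b) → τ β = β) :
    (p : ℤ) ∣ v (κ ⟨β ^ p, hK0 _ hβfix⟩) := by
  obtain ⟨k, u, hu, hau⟩ := peu_dvd P hp hP hβ0 hβfix hI0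
  exact dvd_ord_of_eq_zpow_mul_unit hv K0 hK0 κ hvp hvu hp ⟨β ^ p, hK0 _ hβfix⟩ hu hau

/-- **[KU], `I°`-form from a shape relation**: `hd` says that `τ ∈ I°` has shape `0`, and shape
`j` gives `τ β * ζ^j = β` (last conclusion of `KFB.descent_of_shape`). -/
theorem dvd_ord_const_I0_of_shape {F0 : Type*} [Field F0] {O : ValuationSubring F0}
    {v : F0 → ℤ} (hv : IsOrd O v) (K0 : Subfield Qbar)
    (hK0 : ∀ c : Qbar, (∀ τ ∈ P.inertiaSubgroupIn ℚ, τ c = c) → c ∈ K0)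
    (κ : K0 →+* F0) (hvp : v (κ (p : K0)) = 1)
    (hvu : ∀ u : K0, (u : Qbar) ∈ unitFixed P → v (κ u) = 0)
    (hp : p.Prime) (hP : P.LiesOverPrime p) {β : Qbar}
    (hβ0 : β ≠ 0) (hβfix : ∀ τ ∈ P.inertiaSubgroupIn ℚ, τ (β ^ p) = β ^ p)
    (Sh : Γℚ → ℕ → Prop)
    (hd : ∀ τ ∈ P.inertiaSubgroupIn ℚ,
      (∀ b : Qbar, b ^ p ∈ unitFixed P → τ b = b) → Sh τ 0)
    (hβchar : ∀ τ ∈ P.inertiaSubgroupIn ℚ, ∀ j : ℕ, Sh τ j → τ β * ζ ^ j = β) :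
    (p : ℤ) ∣ v (κ ⟨β ^ p, hK0 _ hβfix⟩) :=
  dvd_ord_const_I0 hv K0 hK0 κ hvp hvu hp hP hβ0 hβfix fun τ hτ h => by
    have := hβchar τ hτ 0 (hd τ hτ h)
    rwa [pow_zero, mul_one] at this

end Fermat.Agent.S40x.R2.Asm.KU
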