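/-
P-S44/S40, block C3, sub-assembly [KU] of `S44-IFACE-C3-ASM v1` in the concrete vocabulary
(helper32; reader helper49): from the output of `KFB.descent_of_shape` (with `H` the inertia
group of `B`) and the `I°`-form `hd` of `s44_geo'` to the hypotheses `hainf` / `hazero` of
`Asm/Core.c3_core_pair`.

INPUT: `β ≠ 0`, `β ^ p` fixed by `I = B.inertiaSubgroupIn ℚ`,
`hβchar : ∀ τ ∈ I, ∀ j, galTors N p τ x - x = j • l₀ → τ β * ζ ^ j = β` (last conclusion of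
`descent_of_shape`), `hd : ∀ τ ∈ I, (∀ b, b ^ p ∈ unitFixed B → τ b = b) → galTors N p τ x = x`.

* `fixes_of_I0` : every `τ ∈ I°` fixes `β` (shape `j = 0`);
* `exists_eq_zpow_mul_unit` (OUTPUT 1) : `β ^ p = p ^ (p k) * u`, `u ∈ unitFixed B = O₀ˣ`
  (`Kummer.peu_dvd`);
* `dvd_val_pow` (OUTPUT 2) : for every `v : E → ℤ` on a field `E` receiving `Qb`, additive on
  products of nonzero elements, with `v p = 1` and `v u = 0` for `u ∈ unitFixed B`: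
  `p ∣ v (β ^ p)`;  `dvd_val_pow_id` : the case `E = Qb`;
* `dvd_val_const` (OUTPUT 2, constants-of-`F₀` form) : the same for `κ : K0 →+* F0`, `K0` a
  subfield of `Qb` containing the `I`-fixed elements, `v` an order function (`Transitive.IsOrd`)
  on `F0` (this is `Asm/KU.dvd_ord_const_I0_of_shape`).
-/
import Mathlib
import Fermat.Agent.S40x.R2.Asm.KU
import Fermat.Agent.Gateway.S31.FromExport

set_option autoImplicit false
set_option linter.unusedSectionVars false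
set_option linter.unusedVariables false

namespace Fermat.Agent.S40x.R2.Asm.KummerVal

open Fermat.Agent.S40x.Kummer Fermat.Agent.S40x.R2.Transitive
open AlgebraicCurve ModularCurve Fermat.Agent.Gateway.S31Red

local notation "Qb" => AlgebraicClosure ℚ
local notation "Γℚ" => (AlgebraicClosure ℚ ≃ₐ[ℚ] AlgebraicClosure ℚ)

variable {N : ℕ} [NeZero N] {p : ℕ} {B : ValuationSubring Qb} {ζ : Qb}

/-- every `τ ∈ I°` fixes `β`. -/
theorem fixes_of_I0 {x l₀ : JTors N p} {β : Qb}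
    (hβchar : ∀ τ ∈ B.inertiaSubgroupIn ℚ, ∀ j : ℕ,
      galTors N p τ x - x = j • l₀ → τ β * ζ ^ j = β)
    (hd : ∀ τ ∈ B.inertiaSubgroupIn ℚ,
      (∀ b : Qb, b ^ p ∈ unitFixed B → τ b = b) → galTors N p τ x = x)
    {τ : Γℚ} (hτ : τ ∈ B.inertiaSubgroupIn ℚ)
    (h : ∀ b : Qb, b ^ p ∈ unitFixed B → τ b = b) : τ β = β := by
  have h0 : galTors N p τ x - x = 0 • l₀ := by
    rw [hd τ hτ h, sub_self, zero_smul]
  have := hβchar τ hτ 0 h0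
  rwa [pow_zero, mul_one] at this

/-- **OUTPUT (1)**: `β ^ p = p ^ (p k) * u` with `u ∈ O₀ˣ`. -/
theorem exists_eq_zpow_mul_unit (hp : p.Prime) (hB : B.LiesOverPrime p)
    {x l₀ : JTors N p} {β : Qb} (hβ0 : β ≠ 0)
    (hβfix : ∀ τ ∈ B.inertiaSubgroupIn ℚ, τ (β ^ p) = β ^ p)
    (hβchar : ∀ τ ∈ B.inertiaSubgroupIn ℚ, ∀ j : ℕ,
      galTors N p τ x - x = j • l₀ → τ β * ζ ^ j = β)
    (hd : ∀ τ ∈ B.inertiaSubgroupIn ℚ,
      (∀ b : Qb, b ^ p ∈ unitFixed B → τ b = b) → galTors N p τ x = x) :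
    ∃ k : ℤ, ∃ u ∈ unitFixed B, β ^ p = (p : Qb) ^ ((p : ℤ) * k) * u :=
  peu_dvd B hp hB hβ0 hβfix fun τ hτ h => fixes_of_I0 hβchar hd hτ h

/-! ### Additive functions on nonzero elements -/

section Additive

variable {E : Type*} [Field E] {v : E → ℤ}

theorem val_one (hv : ∀ a b : E, a ≠ 0 → b ≠ 0 → v (a * b) = v a + v b) : v 1 = 0 := by
  have := hv 1 1 one_ne_zero one_ne_zero
  rw [mul_one] at this
  linarith

theorem val_inv (hv : ∀ a b : E, a ≠ 0 → b ≠ 0 → v (a * b) = v a + v b) {a : E} (ha : a ≠ 0) :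
    v a⁻¹ = - v a := by
  have := hv a a⁻¹ ha (inv_ne_zero ha)
  rw [mul_inv_cancel₀ ha, val_one hv] at this
  linarith

theorem val_pow (hv : ∀ a b : E, a ≠ 0 → b ≠ 0 → v (a * b) = v a + v b) {a : E} (ha : a ≠ 0)
    (n : ℕ) : v (a ^ n) = n * v a := by
  induction n with
  | zero => simp [val_one hv]
  | succ n ih =>
    rw [pow_succ, hv _ _ (pow_ne_zero n ha) ha, ih]
    push_cast
    ring

theorem val_zpow (hv : ∀ a b : E, a ≠ 0 → b ≠ 0 → v (a * b) = v a + v b) {a : E} (ha : a ≠ 0)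
    (n : ℤ) : v (a ^ n) = n * v a := by
  obtain ⟨m, rfl | rfl⟩ := n.eq_nat_or_neg
  · rw [zpow_natCast, val_pow hv ha]
  · rw [zpow_neg, zpow_natCast, val_inv hv (pow_ne_zero m ha), val_pow hv ha]
    ring

end Additive

/-- **OUTPUT (2)**: for every `v : E → ℤ` on a field `E` receiving `Qb`, additive on products of
nonzero elements, with `v p = 1` and `v u = 0` for `u ∈ O₀ˣ`: `p ∣ v (β ^ p)`. -/
theorem dvd_val_pow (hp : p.Prime) (hB : B.LiesOverPrime p)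
    {x l₀ : JTors N p} {β : Qb} (hβ0 : β ≠ 0)
    (hβfix : ∀ τ ∈ B.inertiaSubgroupIn ℚ, τ (β ^ p) = β ^ p)
    (hβchar : ∀ τ ∈ B.inertiaSubgroupIn ℚ, ∀ j : ℕ,
      galTors N p τ x - x = j • l₀ → τ β * ζ ^ j = β)
    (hd : ∀ τ ∈ B.inertiaSubgroupIn ℚ,
      (∀ b : Qb, b ^ p ∈ unitFixed B → τ b = b) → galTors N p τ x = x)
    {E : Type*} [Field E] (ι : Qb →+* E) (v : E → ℤ)
    (hv : ∀ a b : E, a ≠ 0 → b ≠ 0 → v (a * b) = v a + v b)
    (hvp : v (ι (p : Qb)) = 1) (hvu : ∀ u ∈ unitFixed B, v (ι u) = 0) :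
    (p : ℤ) ∣ v (ι (β ^ p)) := by
  obtain ⟨k, u, hu, hβu⟩ := exists_eq_zpow_mul_unit hp hB hβ0 hβfix hβchar hd
  have hu0 : u ≠ 0 := fun h0 => zero_notMem_unitFixed B (h0 ▸ hu)
  have hp0 : (p : Qb) ≠ 0 := Nat.cast_ne_zero.mpr hp.ne_zero
  have hιp0 : ι (p : Qb) ≠ 0 := (map_ne_zero ι).mpr hp0
  have hιu0 : ι u ≠ 0 := (map_ne_zero ι).mpr hu0
  rw [hβu, map_mul, map_zpow₀, hv _ _ (zpow_ne_zero _ hιp0) hιu0, val_zpow hv hιp0, hvp,
    hvu u hu, mul_one, add_zero]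
  exact Dvd.intro k rfl

/-- **OUTPUT (2)** for `v : Qb → ℤ`. -/
theorem dvd_val_pow_id (hp : p.Prime) (hB : B.LiesOverPrime p)
    {x l₀ : JTors N p} {β : Qb} (hβ0 : β ≠ 0)
    (hβfix : ∀ τ ∈ B.inertiaSubgroupIn ℚ, τ (β ^ p) = β ^ p)
    (hβchar : ∀ τ ∈ B.inertiaSubgroupIn ℚ, ∀ j : ℕ,
      galTors N p τ x - x = j • l₀ → τ β * ζ ^ j = β)
    (hd : ∀ τ ∈ B.inertiaSubgroupIn ℚ,
      (∀ b : Qb, b ^ p ∈ unitFixed B → τ b = b) → galTors N p τ x = x)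
    (v : Qb → ℤ) (hv : ∀ a b : Qb, a ≠ 0 → b ≠ 0 → v (a * b) = v a + v b)
    (hvp : v (p : Qb) = 1) (hvu : ∀ u ∈ unitFixed B, v u = 0) :
    (p : ℤ) ∣ v (β ^ p) :=
  dvd_val_pow hp hB hβ0 hβfix hβchar hd (RingHom.id Qb) v hv hvp hvu

/-- **OUTPUT (2), constants-of-`F₀` form** (`hainf` / `hazero` of `Asm/Core.c3_core_pair` with
`a := κ ⟨β ^ p, _⟩`): `K0` a subfield of `Qb` containing the `I`-fixed elements, `κ : K0 →+* F0`,
`v` an order function on `F0` with `v p = 1`, `v (O₀ˣ) = 0`. -/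
theorem dvd_val_const (hp : p.Prime) (hB : B.LiesOverPrime p)
    {x l₀ : JTors N p} {β : Qb} (hβ0 : β ≠ 0)
    (hβfix : ∀ τ ∈ B.inertiaSubgroupIn ℚ, τ (β ^ p) = β ^ p)
    (hβchar : ∀ τ ∈ B.inertiaSubgroupIn ℚ, ∀ j : ℕ,
      galTors N p τ x - x = j • l₀ → τ β * ζ ^ j = β)
    (hd : ∀ τ ∈ B.inertiaSubgroupIn ℚ,
      (∀ b : Qb, b ^ p ∈ unitFixed B → τ b = b) → galTors N p τ x = x)
    {F0 : Type*} [Field F0] {O : ValuationSubring F0} {v : F0 → ℤ} (hv : IsOrd O v)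
    (K0 : Subfield Qb)
    (hK0 : ∀ c : Qb, (∀ τ ∈ B.inertiaSubgroupIn ℚ, τ c = c) → c ∈ K0)
    (κ : K0 →+* F0) (hvp : v (κ (p : K0)) = 1)
    (hvu : ∀ u : K0, (u : Qb) ∈ unitFixed B → v (κ u) = 0) :
    (p : ℤ) ∣ v (κ ⟨β ^ p, hK0 _ hβfix⟩) :=
  KU.dvd_ord_const_I0 hv K0 hK0 κ hvp hvu hp hB hβ0 hβfix
    fun τ hτ h => fixes_of_I0 hβchar hd hτ h

end Fermat.Agent.S40x.R2.Asm.KummerVal
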