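import Fermat.Agent.S40x.Kum.PairNodes
import Fermat.Agent.S40x.Slope.InstMq
import Fermat.Agent.S40x.Geo.ShapeFacts
import Fermat.Agent.S40x.Geo.Vocab

/-!
# P-S44, block C3: the MAIN ASSEMBLY `PlaceLeaf ⟹ LeafC3` (helper22)

Everything which does not depend on a place of the special fibre is landed and composed here:

* `Geo/ShapeFacts` (helper60): the generator `l₀` of `L`, the cyclotomic action of inertia on `l₀`,
  `τ x - x ∈ ℕ l₀` for `x ∈ V`;
* `Kum/PairModular.exists_ft_kummer` (helper78; `[DI] + [FP] + [N] + [KU] + TRANS`): the descended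
  Kummer function `ft = u g ^ p ∈ E0` of `x` in the fixed part `E0` of the Kummer cover of `l₀`, with
  the independence mod `p` of its orders along the valuations of `E0` over `O_∞ ∩ F0`, `O_0 ∩ F0`;
* `Kum/PairNodes.exists_const_slope` (helper78): node data `NodeData ft (n s)` for a family of
  numbers `n s` implies that all `n s` are equal.

What depends on a place is ONE closed hypothesis per good level (`PlaceHyp`, section 2): for the SAME
`ft`

* `NodeData ft (slopeInf x P)` at every `P ∈ nodeInf`,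
* `NodeData ft (- slopeZero x P)` at every `P ∈ nodeZero`  (helper12's two-ring trick: the two sides of
  a node may use different étale lifts of the node ring),
* `slopeInf x P = 0` for `P ∉ nodeInf`, `slopeZero x P = 0` for `P ∉ nodeZero` (smooth places, cusps
  included).

`exists_isDiagonal` (section 1) is the abstract-level assembly (context of `Kum/PairModular`),
`c3_goodLevel` (section 2) the statement at the `ℚ̄`-instance in the vocabulary of `Geo/Vocab.lean`:
local shape `GeoShape` + `L ≤ K_p` + `PlaceHyp` ⟹ every `x ∈ V` has a diagonal slope vector.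
-/

set_option autoImplicit false
set_option linter.unusedSectionVars false
set_option linter.unusedVariables false
set_option linter.style.haveILetI false

noncomputable section

namespace Fermat.Agent.S40x.R2.Asm.Main

open AlgebraicCurve IsLocalRing ModularCurve HahnSeries
open Fermat.Agent.Gateway.Hecke Fermat.Agent.Gateway.Kummer
open Fermat.Agent.S34x.TwoVal Fermat.Agent.S34x.Inst.RedSetupInst Fermat.Agent.S34x.Inst
open Fermat.Agent.S34x.TwoVal.ResidueInst
open Fermat.Agent.S40x.Kummer (unitFixed)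
open Fermat.Agent.S40x.R2.Cover Fermat.Agent.S40x.R2.Cover.CoverDatum
open Fermat.Agent.S40x.Kum.PairModular Fermat.Agent.S40x.Kum.PairNodes
open Fermat.Agent.S40x.Slope.InstMq

local notation "Qbar" => AlgebraicClosure ℚ

/-! ### 1. The assembly in the context of `Kum/PairModular` -/

section Abstract

variable (P : ValuationSubring Qbar) {k : Type} [Field k] (π : P →+* k) [IsAlgClosed k]
variable (M q : ℕ) [NeZero M] [NeZero q] [Fact q.Prime] [CharP k q]
variable (hdeg : finrankAlong Qbar (heckeAlphaBar Qbar M q) = q + 1) (hq : q.Prime)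
  (hqM : ¬ q ∣ M)
variable (hrk : ∀ x ∈ maximalIdeal P, ∀ c : P, c ≠ 0 → ∃ j : ℕ, c ∣ x ^ j)
  (hπ : Function.Surjective π)

/-- **C3, abstract assembly.**  `x`, `l0` classes of `J₀(M q)` with normalised Kummer functions `u`,
`u0`; inertia acts on `l0` through the cyclotomic character (`hI`), `σ x - x ∈ ℕ l0` (`hx`), peu
ramifié (`hd`).  If, for every descended Kummer function `ft = u g ^ q` in the fixed part of the
Kummer cover of `l0`, the node data exist at the node places of both components and the slopes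
vanish off the node places (`hplace`), then the slope vector of `x` is diagonal. -/
theorem exists_isDiagonal [Algebra.IsAlgebraic ℚ Qbar]
    (H : ResidueFacts P π M q hdeg hq hqM hrk hπ) (hP : P.LiesOverPrime q)
    {ζ : Qbar} (hζ : IsPrimitiveRoot ζ q)
    {l0 x : JZero (M * q)} (hl0 : l0 ≠ 0) {u0 : modularFunctionFieldBar (M * q)}
    (hu0 : IsKummerRep q l0 u0) (hnorm : Normalized (u0 : LaurentSeries Qbar))
    (hI : ∀ σ ∈ P.inertiaSubgroupIn ℚ, ∃ a : ℕ, σ • l0 = a • l0 ∧ σ ζ = ζ ^ a)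
    {u : modularFunctionFieldBar (M * q)} (hu : IsKummerRep q x u)
    (hun : Normalized (u : LaurentSeries Qbar))
    (hx : ∀ σ ∈ P.inertiaSubgroupIn ℚ, ∃ j : ℕ, σ • x - x = j • l0)
    (hd : ∀ τ ∈ P.inertiaSubgroupIn ℚ,
      (∀ b : Qbar, b ^ q ∈ unitFixed P → τ b = b) → τ • x = x)
    (nodeInf nodeZero : Set (Place k (modularFunctionFieldFullC k M)))
    (hplace : ∀ (ft : (coverDatumOfKummer hq hζ hl0 hu0 hnorm).FixedCover (rhoI P)
        (stable_rhoOfSubgroup hq hζ hl0 hu0 hnorm (P.inertiaSubgroupIn ℚ) hI))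
      (g : (coverDatumOfKummer hq hζ hl0 hu0 hnorm).coverField), ft ≠ 0 → g ≠ 0 →
      (coverDatumOfKummer hq hζ hl0 hu0 hnorm).fixedVal (rhoI P)
          (stable_rhoOfSubgroup hq hζ hl0 hu0 hnorm (P.inertiaSubgroupIn ℚ) hI) ft =
        algebraMap (modularFunctionFieldBar (M * q))
          (coverDatumOfKummer hq hζ hl0 hu0 hnorm).coverField u * g ^ q →
      (∀ Pl ∈ nodeInf, NodeData P π M q hdeg hq hqM hrk hπ
        (coverDatumOfKummer hq hζ hl0 hu0 hnorm)
        (stable_rhoOfSubgroup hq hζ hl0 hu0 hnorm (P.inertiaSubgroupIn ℚ) hI) ft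
        (slopeInf H hP q x Pl)) ∧
      (∀ Pl ∈ nodeZero, NodeData P π M q hdeg hq hqM hrk hπ
        (coverDatumOfKummer hq hζ hl0 hu0 hnorm)
        (stable_rhoOfSubgroup hq hζ hl0 hu0 hnorm (P.inertiaSubgroupIn ℚ) hI) ft
        (- slopeZero H hP q x Pl)) ∧
      (∀ Pl ∉ nodeInf, slopeInf H hP q x Pl = 0) ∧
      (∀ Pl ∉ nodeZero, slopeZero H hP q x Pl = 0)) :
    ∃ c : ZMod q, (∀ Pl ∈ nodeInf, slopeInf H hP q x Pl = c) ∧
      (∀ Pl ∈ nodeZero, slopeZero H hP q x Pl = -c) ∧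
      (∀ Pl ∉ nodeInf, slopeInf H hP q x Pl = 0) ∧
      (∀ Pl ∉ nodeZero, slopeZero H hP q x Pl = 0) := by
  have hspec := exists_ft_kummer P π M q hdeg hq hqM hrk hπ hP hζ hl0 hu0 hnorm hI hu hun hx hd
  obtain ⟨c, hc⟩ := exists_const_slope P π M q hdeg hq hqM hrk hπ
    (coverDatumOfKummer hq hζ hl0 hu0 hnorm)
    (stable_rhoOfSubgroup hq hζ hl0 hu0 hnorm (P.inertiaSubgroupIn ℚ) hI) hspec
    (ι := ↥nodeInf ⊕ ↥nodeZero)
    (Sum.elim (fun Pl => slopeInf H hP q x Pl.1) (fun Pl => - slopeZero H hP q x Pl.1))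
    (fun ft g hft hg hftg s => by
      rcases s with ⟨Pl, hPl⟩ | ⟨Pl, hPl⟩
      · exact (hplace ft g hft hg hftg).1 Pl hPl
      · exact (hplace ft g hft hg hftg).2.1 Pl hPl)
  obtain ⟨ft, g, hft0, hg0, hftg, -, -⟩ := hspec
  refine ⟨c, fun Pl hPl => hc (Sum.inl ⟨Pl, hPl⟩), fun Pl hPl => ?_,
    (hplace ft g hft0 hg0 hftg).2.2.1, (hplace ft g hft0 hg0 hftg).2.2.2⟩
  have h := hc (Sum.inr ⟨Pl, hPl⟩)
  simp only [Sum.elim_inr] at h
  rw [← h, neg_neg]

end Abstract

/-! ### 2. The `ℚ̄`-instance: `PlaceHyp ⟹` diagonal slope vectors -/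

section Qb

open Fermat.Agent.Gateway.S31Red Fermat.Agent.S33x.KummerPn
open Fermat.Agent.S40x.Geo.Vocab Fermat.Agent.S40x.Geo.ShapeFacts Fermat.Agent.S40x.Level.G0

variable (M₀ p : ℕ) [NeZero M₀] [NeZero p] (hp : p.Prime) (hpM : ¬ p ∣ M₀)
  (B : ValuationSubring Qbar) (hB : B.LiesOverPrime p)

/-- **The per-place hypothesis of block C3** at the good level `M₀ p` and the place `B`, for the
node sets `nodeInf`, `nodeZero`: `l0 ∈ K_p` a nonzero class on which inertia acts through the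
cyclotomic character, `x` a class with `σ x - x ∈ ℕ l0` and peu ramifié; `u0`, `u` normalised Kummer
functions; `ft = u g ^ p` ANY descended Kummer function of `x` in the fixed part `E0` of the Kummer
cover of `l0`.  Then

* at a node place `Pl` of `κ_∞` there are node data (valuations of `E0` over the two branches)
  with `slopeInfQb x Pl = wzero ft - winf ft`;
* at a node place `Pl` of `κ_0` the same with `- slopeZeroQb x Pl`;
* off the node places (cusps included) the slopes of `x` vanish. -/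
def PlaceHyp (nodeInf nodeZero : Set (Place (kB B) (FkB B M₀))) : Prop :=
  haveI : Algebra.IsAlgebraic ℚ Qbar := AlgebraicClosure.isAlgebraic ℚ
  haveI : Fact p.Prime := ⟨hp⟩
  haveI : IsAlgClosed (ResidueField B) := FinalBase.isAlgClosed_residueField B
  haveI : CharP (ResidueField B) p := FinalBase.charP_residueField B hB
  ∀ {ζ : Qbar} (hζ : IsPrimitiveRoot ζ p) {l0 x : JZero (M₀ * p)} (hl0 : l0 ≠ 0)
    (_hl0K : l0 ∈ KmQb M₀ p hp hpM B hB (p ^ 1))
    {u0 : modularFunctionFieldBar (M₀ * p)} (hu0 : IsKummerRep p l0 u0)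
    (hnorm : Normalized (u0 : LaurentSeries Qbar))
    (hI : ∀ σ ∈ B.inertiaSubgroupIn ℚ, ∃ a : ℕ, σ • l0 = a • l0 ∧ σ ζ = ζ ^ a)
    {u : modularFunctionFieldBar (M₀ * p)} (_hu : IsKummerRep p x u)
    (_hun : Normalized (u : LaurentSeries Qbar))
    (_hx : ∀ σ ∈ B.inertiaSubgroupIn ℚ, ∃ j : ℕ, σ • x - x = j • l0)
    (_hd : ∀ τ ∈ B.inertiaSubgroupIn ℚ,
      (∀ b : Qbar, b ^ p ∈ unitFixed B → τ b = b) → τ • x = x)
    (ft : (coverDatumOfKummer hp hζ hl0 hu0 hnorm).FixedCover (rhoI B)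
      (stable_rhoOfSubgroup hp hζ hl0 hu0 hnorm (B.inertiaSubgroupIn ℚ) hI))
    (g : (coverDatumOfKummer hp hζ hl0 hu0 hnorm).coverField), ft ≠ 0 → g ≠ 0 →
    (coverDatumOfKummer hp hζ hl0 hu0 hnorm).fixedVal (rhoI B)
        (stable_rhoOfSubgroup hp hζ hl0 hu0 hnorm (B.inertiaSubgroupIn ℚ) hI) ft =
      algebraMap (modularFunctionFieldBar (M₀ * p))
        (coverDatumOfKummer hp hζ hl0 hu0 hnorm).coverField u * g ^ p →
    (∀ Pl ∈ nodeInf, NodeData B (residue B) M₀ p (hdegQb M₀ p hp hpM) hp hpM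
      (FinalBase.rank_one B hp hB) (FinalBase.residue_surjective B)
      (coverDatumOfKummer hp hζ hl0 hu0 hnorm)
      (stable_rhoOfSubgroup hp hζ hl0 hu0 hnorm (B.inertiaSubgroupIn ℚ) hI) ft
      (slopeInfQb M₀ p hp hpM B hB x Pl)) ∧
    (∀ Pl ∈ nodeZero, NodeData B (residue B) M₀ p (hdegQb M₀ p hp hpM) hp hpM
      (FinalBase.rank_one B hp hB) (FinalBase.residue_surjective B)
      (coverDatumOfKummer hp hζ hl0 hu0 hnorm)
      (stable_rhoOfSubgroup hp hζ hl0 hu0 hnorm (B.inertiaSubgroupIn ℚ) hI) ft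
      (- slopeZeroQb M₀ p hp hpM B hB x Pl)) ∧
    (∀ Pl ∉ nodeInf, slopeInfQb M₀ p hp hpM B hB x Pl = 0) ∧
    (∀ Pl ∉ nodeZero, slopeZeroQb M₀ p hp hpM B hB x Pl = 0)

variable {M₀ p hp hpM B hB}

/-- **Block C3 at the good level** from the per-place hypothesis: for a pair `L < V` with the local
shape of `s44_geo'` and `L ≤ K_p`, every class of `V` has a diagonal slope vector. -/
theorem c3_goodLevel {V L : AddSubgroup (JTors (M₀ * p) (p ^ 1))}
    (hshape : GeoShape p (M₀ * p) B V L)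
    (hLK : L ≤ KmTors M₀ p hp hpM B hB (p ^ 1))
    (nodeInf nodeZero : Set (Place (kB B) (FkB B M₀)))
    (hpl : PlaceHyp M₀ p hp hpM B hB nodeInf nodeZero) :
    ∀ x ∈ V, ∃ c : ZMod p,
      IsDiagonal (hp := hp) (hpM := hpM) (hB := hB) nodeInf nodeZero (x : JZero (M₀ * p)) c := by
  haveI : Algebra.IsAlgebraic ℚ Qbar := AlgebraicClosure.isAlgebraic ℚ
  haveI : Fact p.Prime := ⟨hp⟩
  haveI : IsAlgClosed (ResidueField B) := FinalBase.isAlgClosed_residueField B
  haveI : CharP (ResidueField B) p := FinalBase.charP_residueField B hB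
  intro x hxV
  obtain ⟨ζ, hζ⟩ := HasEnoughRootsOfUnity.exists_primitiveRoot Qbar p
  obtain ⟨l₀, hl₀L, hl₀ne, hgen⟩ := exists_generator hshape hp
  have h1 := shape_h1 hshape hp hζ hl₀L
  have h2 := shape_h2 hshape hgen x hxV
  -- the classes in `J₀(M₀ p)`
  have hl0 : (l₀ : JZero (M₀ * p)) ≠ 0 := fun h => hl₀ne (Subtype.ext h)
  have hl0K : (l₀ : JZero (M₀ * p)) ∈ KmQb M₀ p hp hpM B hB (p ^ 1) :=
    mem_KmTors_iff.mp (hLK hl₀L)
  have hI : ∀ σ ∈ B.inertiaSubgroupIn ℚ, ∃ a : ℕ,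
      σ • (l₀ : JZero (M₀ * p)) = a • (l₀ : JZero (M₀ * p)) ∧ σ ζ = ζ ^ a := by
    intro σ hσ
    obtain ⟨a, ha, haζ⟩ := h1 σ hσ
    refine ⟨a, ?_, haζ⟩
    have := congrArg (fun y : JTors (M₀ * p) (p ^ 1) => (y : JZero (M₀ * p))) ha
    simpa [coe_galTors_apply] using this
  have hx : ∀ σ ∈ B.inertiaSubgroupIn ℚ, ∃ j : ℕ,
      σ • (x : JZero (M₀ * p)) - (x : JZero (M₀ * p)) = j • (l₀ : JZero (M₀ * p)) := by
    intro σ hσ
    obtain ⟨j, hj⟩ := h2 σ hσ
    refine ⟨j, ?_⟩
    have := congrArg (fun y : JTors (M₀ * p) (p ^ 1) => (y : JZero (M₀ * p))) hj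
    simpa [coe_galTors_apply] using this
  have hd : ∀ τ ∈ B.inertiaSubgroupIn ℚ,
      (∀ b : Qbar, b ^ p ∈ unitFixed B → τ b = b) → τ • (x : JZero (M₀ * p)) = x := by
    intro τ hτ hb
    have := congrArg (fun y : JTors (M₀ * p) (p ^ 1) => (y : JZero (M₀ * p)))
      (hshape.hd τ hτ hb x hxV)
    simpa [coe_galTors_apply] using this
  -- normalised Kummer functions
  have hpl0 : (p : ℤ) • (l₀ : JZero (M₀ * p)) = 0 := zsmul_coe_eq_zero l₀
  have hpx : (p : ℤ) • (x : JZero (M₀ * p)) = 0 := zsmul_coe_eq_zero x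
  obtain ⟨u0', hu0'⟩ := exists_isKummerRep hpl0
  obtain ⟨u0, hu0, hnorm⟩ := Fermat.Agent.S40x.R2.Cover.exists_normalized_kummer hu0'
  obtain ⟨u', hu'⟩ := exists_isKummerRep hpx
  obtain ⟨u, hu, hun⟩ := Fermat.Agent.S40x.R2.Cover.exists_normalized_kummer hu'
  -- the abstract assembly
  obtain ⟨c, hc1, hc2, hc3, hc4⟩ := exists_isDiagonal B (residue B) M₀ p (hdegQb M₀ p hp hpM) hp
    hpM (FinalBase.rank_one B hp hB) (FinalBase.residue_surjective B)
    (ResidueInst.residueFacts B (residue B) M₀ p (hdegQb M₀ p hp hpM) hp hpM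
      (FinalBase.rank_one B hp hB) (FinalBase.residue_surjective B)) hB hζ hl0 hu0 hnorm hI hu hun
    hx hd nodeInf nodeZero
    (fun ft g hft hg hftg => hpl hζ hl0 hl0K hu0 hnorm hI hu hun hx hd ft g hft hg hftg)
  exact ⟨c, ⟨hc1, hc2, hc3, hc4⟩⟩

end Qb

end Fermat.Agent.S40x.R2.Asm.Main
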