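/-
P-S44, block C3, C3-ASM: the PER-NODE theorem (helper16), on top of helper78's `Kum/PairNodes`
(`NodeData`, `exists_const_slope`), helper62's `EdgeB/AsmNode` (`NodeOver`) and `R2/Asm/CfeModular`.

* `node_slope_neg` (abstract, `Asm/Core` vocabulary): at one node ring the `∞`-side slope rule
  `n = B - A` and the `0`-side slope rule `n' = A - B` give `n' = -n` (edge factorisation used once).
* `c3_node_modular`: `NodeOver (F0 P M q) (D.FixedCover (rhoI P) hρ) i q u u' OinfB OzeroB`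
  (`[ET]` + `[N]`, `D` the Kummer cover datum of `l0`) + (n4)-type export `hO0` + the slope rule
  `hsl` (`[SL]`) ⟹ `PairNodes.NodeData … ft n`  (hypothesis `hnode` of
  `PairNodes.exists_const_slope`, for one node).
* `c3_node_modular_zero`: the same data and the `0`-side slope rule give `n' = -n`.
-/
import Fermat.Agent.S40x.Kum.PairNodes
import Fermat.Agent.S40x.R2.Asm.CfeNodeOver

set_option autoImplicit false
set_option linter.unusedSectionVars false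
set_option linter.unusedVariables false
set_option linter.style.haveILetI false

noncomputable section

namespace Fermat.Agent.S40x.R2.Asm.NodeModular

open AlgebraicCurve IsLocalRing ModularCurve HahnSeries
open Fermat.Agent.Gateway.Hecke Fermat.Agent.Gateway.Kummer
open Fermat.Agent.S40x.R2.Transitive (IsOrd)
open Fermat.Agent.S40x.R2.Cover Fermat.Agent.S40x.R2.Cover.CoverDatum
open Fermat.Agent.S40x.Kum.PairModular Fermat.Agent.S40x.Kum.PairNodes
open Fermat.Agent.S40x.R2.Asm.CfeModular Fermat.Agent.S40x.AsmNode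
open Fermat.Agent.S40x.PrimePlace Fermat.Agent.S40x.PrimeOrd Fermat.Agent.S40x.Edge

local notation "Qbar" => AlgebraicClosure ℚ

/-! ### Abstract: the two slope rules at one node ring -/

section Abstract

variable {E0 : Type*} [Field E0]
variable {R : Type*} [CommRing R] [IsDomain R] [UniqueFactorizationMonoid R] [Algebra R E0]
  [IsFractionRing R E0]

/-- the `∞`-side rule `n = B - A` and the `0`-side rule `n' = A - B` at the same node ring give
`n' = -n`. -/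
theorem node_slope_neg {p : ℕ} (hp : p ≠ 0) {u u' : R} (hu : Prime u) (hu' : Prime u')
    {ft : E0} (hft : ft ≠ 0)
    (H : ∀ h : R, Prime h → ¬ Associated h u → ¬ Associated h u' →
      ∀ f1 f2 : R, f2 ≠ 0 → ft * algebraMap R E0 f2 = algebraMap R E0 f1 →
      ∀ n1 n2 : ℕ, h ^ n1 ∣ f1 → ¬ h ^ (n1 + 1) ∣ f1 → h ^ n2 ∣ f2 → ¬ h ^ (n2 + 1) ∣ f2 →
        (p : ℤ) ∣ (n1 : ℤ) - n2)
    (n n' : ZMod p)
    (hsl : ∀ (A B : ℤ) (ε : Rˣ) (g1 g2 : R), ¬ u ∣ g1 → ¬ u' ∣ g1 → ¬ u ∣ g2 → ¬ u' ∣ g2 →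
      ft = algebraMap R E0 ε * algebraMap R E0 u ^ A * algebraMap R E0 u' ^ B *
        (algebraMap R E0 g1 / algebraMap R E0 g2) ^ p → n = ((B - A : ℤ) : ZMod p))
    (hsl' : ∀ (A B : ℤ) (ε : Rˣ) (g1 g2 : R), ¬ u ∣ g1 → ¬ u' ∣ g1 → ¬ u ∣ g2 → ¬ u' ∣ g2 →
      ft = algebraMap R E0 ε * algebraMap R E0 u ^ A * algebraMap R E0 u' ^ B *
        (algebraMap R E0 g1 / algebraMap R E0 g2) ^ p → n' = ((A - B : ℤ) : ZMod p)) :
    n' = -n := by
  obtain ⟨A, B, ε, g1, g2, h1, h1', h2, h2', hfact⟩ :=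
    exists_edge_factorisation_field hp hu hu' ft hft H
  rw [hsl A B ε g1 g2 h1 h1' h2 h2' hfact, hsl' A B ε g1 g2 h1 h1' h2 h2' hfact]
  push_cast
  ring

end Abstract

/-! ### The modular instance -/

variable (P : ValuationSubring Qbar) {k : Type} [Field k] (π : P →+* k) [IsAlgClosed k]
variable (M q : ℕ) [NeZero M] [Fact q.Prime] [CharP k q]
variable (hdeg : finrankAlong Qbar (heckeAlphaBar Qbar M q) = q + 1) (hq : q.Prime)
  (hqM : ¬ q ∣ M)
variable (hrk : ∀ x ∈ maximalIdeal P, ∀ c : P, c ≠ 0 → ∃ j : ℕ, c ∣ x ^ j)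
  (hπ : Function.Surjective π)

include hdeg hq in
theorem vinfB_natCast : vinfB P π M q hqM hrk hπ ((q : ℕ) : F0 P M q) = 1 := by
  have h := vinfB_kappa_natCast P π M q hdeg hq hqM hrk hπ
  rwa [map_natCast] at h

theorem vzeroB_natCast : vzeroB P π M q hdeg hq hqM hrk hπ ((q : ℕ) : F0 P M q) = 1 := by
  have h := vzeroB_kappa_natCast P π M q hdeg hq hqM hrk hπ
  rwa [map_natCast] at h

section Node

variable (hP : P.LiesOverPrime q) {ζ : Qbar} (hζ : IsPrimitiveRoot ζ q)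
  {l0 : JZero (M * q)} (hl0 : l0 ≠ 0) {u0 : modularFunctionFieldBar (M * q)}
  (hu0 : IsKummerRep q l0 u0) (hnorm : Normalized (u0 : LaurentSeries Qbar))
  (hI : ∀ σ ∈ P.inertiaSubgroupIn ℚ, ∃ a : ℕ, σ • l0 = a • l0 ∧ σ ζ = ζ ^ a)
  (hfix : ∀ σ ∈ P.inertiaSubgroupIn ℚ, σ ζ = ζ →
    coeffMap (σ : Qbar →+* Qbar) (u0 : LaurentSeries Qbar) = u0)

include hP hfix in
/-- hypothesis `H` of `NodeOver.slope_eq`, over helper15's `D.FixedCover` (defeq to helper48's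
`D.E0`, over which `CfeModular` is stated). -/
theorem edge_H_fixedCover
    {R : Type*} [CommRing R] [IsDomain R] [UniqueFactorizationMonoid R] [Algebra R (F0 P M q)]
    [IsFractionRing R (F0 P M q)]
    {R' : Type*} [CommRing R'] [IsDomain R'] [UniqueFactorizationMonoid R']
    [Algebra R' ((coverDatumOfKummer hq hζ hl0 hu0 hnorm).FixedCover (rhoI P)
      (stable_rhoOfSubgroup hq hζ hl0 hu0 hnorm (P.inertiaSubgroupIn ℚ) hI))]
    [IsFractionRing R' ((coverDatumOfKummer hq hζ hl0 hu0 hnorm).FixedCover (rhoI P)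
      (stable_rhoOfSubgroup hq hζ hl0 hu0 hnorm (P.inertiaSubgroupIn ℚ) hI))]
    {i : R →+* R'} {u u' : R}
    (h : NodeOver (F0 P M q) ((coverDatumOfKummer hq hζ hl0 hu0 hnorm).FixedCover (rhoI P)
      (stable_rhoOfSubgroup hq hζ hl0 hu0 hnorm (P.inertiaSubgroupIn ℚ) hI)) i q u u'
      (OinfB P π M q hqM hrk hπ) (OzeroB P π M q hdeg hq hqM hrk hπ))
    (hO0 : ∀ c : Qbar, c ∈ P → (∀ σ ∈ P.inertiaSubgroupIn ℚ, σ c = c) → ∃ a : R',
      (((coverDatumOfKummer hq hζ hl0 hu0 hnorm).fixedVal (rhoI P)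
        (stable_rhoOfSubgroup hq hζ hl0 hu0 hnorm (P.inertiaSubgroupIn ℚ) hI)
        (algebraMap R' _ a) : (coverDatumOfKummer hq hζ hl0 hu0 hnorm).coverField) :
          LaurentSeries Qbar) = algebraMap Qbar (LaurentSeries Qbar) c)
    {x : JZero (M * q)} {f : modularFunctionFieldBar (M * q)} (hf : IsKummerRep q x f)
    (g : (coverDatumOfKummer hq hζ hl0 hu0 hnorm).coverField) (hg0 : g ≠ 0)
    (ft : (coverDatumOfKummer hq hζ hl0 hu0 hnorm).FixedCover (rhoI P)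
      (stable_rhoOfSubgroup hq hζ hl0 hu0 hnorm (P.inertiaSubgroupIn ℚ) hI))
    (heq : (coverDatumOfKummer hq hζ hl0 hu0 hnorm).fixedVal (rhoI P)
        (stable_rhoOfSubgroup hq hζ hl0 hu0 hnorm (P.inertiaSubgroupIn ℚ) hI) ft =
      algebraMap (modularFunctionFieldBar (M * q)) _ f * g ^ q) :
    ∀ r : R', Prime r → ¬ Associated r (i u) → ¬ Associated r (i u') →
      ∀ f1 f2 : R', f2 ≠ 0 → ft * algebraMap R' _ f2 = algebraMap R' _ f1 →
      ∀ n1 n2 : ℕ, r ^ n1 ∣ f1 → ¬ r ^ (n1 + 1) ∣ f1 → r ^ n2 ∣ f2 → ¬ r ^ (n2 + 1) ∣ f2 →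
        (q : ℤ) ∣ (n1 : ℤ) - n2 := by
  obtain ⟨ψ, hψ, hrel⟩ := h.mul_eq
  have hψ' : IsUnit (i ψ) := hψ.map i
  letI iA : Algebra R' ((coverDatumOfKummer hq hζ hl0 hu0 hnorm).E0 (rhoI P)
      (stable_rhoOfSubgroup hq hζ hl0 hu0 hnorm (P.inertiaSubgroupIn ℚ) hI)) :=
    ‹Algebra R' ((coverDatumOfKummer hq hζ hl0 hu0 hnorm).FixedCover (rhoI P)
      (stable_rhoOfSubgroup hq hζ hl0 hu0 hnorm (P.inertiaSubgroupIn ℚ) hI))›
  haveI iF : IsFractionRing R' ((coverDatumOfKummer hq hζ hl0 hu0 hnorm).E0 (rhoI P)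
      (stable_rhoOfSubgroup hq hζ hl0 hu0 hnorm (P.inertiaSubgroupIn ℚ) hI)) :=
    ‹IsFractionRing R' ((coverDatumOfKummer hq hζ hl0 hu0 hnorm).FixedCover (rhoI P)
      (stable_rhoOfSubgroup hq hζ hl0 hu0 hnorm (P.inertiaSubgroupIn ℚ) hI))›
  exact edge_H_modular_node (R := R') hq hP hζ hl0 hu0 hnorm hI hfix h.prime_iu h.prime_iu'
    ⟨hψ'.unit, by rw [IsUnit.unit_spec, ← map_mul, hrel, map_mul, map_natCast]⟩ hO0 hf g hg0 ft heq

include hP hfix in
/-- **The per-node theorem of C3-ASM** (`hnode` of `PairNodes.exists_const_slope`, one node):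
`[ET]+[N]` (`NodeOver`) + (n4)-type export `hO0` + the slope rule `hsl` (`[SL]`) give the node data
of `ft`: the two branch valuations of `FL_0` at the node lie over `O_∞ ∩ F0`, `O_0 ∩ F0` with
restrictions `v_∞`, `v_0`, and `n = wzero ft - winf ft`. -/
theorem c3_node_modular
    {R : Type*} [CommRing R] [IsDomain R] [UniqueFactorizationMonoid R] [Algebra R (F0 P M q)]
    [IsFractionRing R (F0 P M q)]
    {R' : Type*} [CommRing R'] [IsDomain R'] [UniqueFactorizationMonoid R']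
    [Algebra R' ((coverDatumOfKummer hq hζ hl0 hu0 hnorm).FixedCover (rhoI P)
      (stable_rhoOfSubgroup hq hζ hl0 hu0 hnorm (P.inertiaSubgroupIn ℚ) hI))]
    [IsFractionRing R' ((coverDatumOfKummer hq hζ hl0 hu0 hnorm).FixedCover (rhoI P)
      (stable_rhoOfSubgroup hq hζ hl0 hu0 hnorm (P.inertiaSubgroupIn ℚ) hI))]
    {i : R →+* R'} {u u' : R}
    (h : NodeOver (F0 P M q) ((coverDatumOfKummer hq hζ hl0 hu0 hnorm).FixedCover (rhoI P)
      (stable_rhoOfSubgroup hq hζ hl0 hu0 hnorm (P.inertiaSubgroupIn ℚ) hI)) i q u u'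
      (OinfB P π M q hqM hrk hπ) (OzeroB P π M q hdeg hq hqM hrk hπ))
    (hO0 : ∀ c : Qbar, c ∈ P → (∀ σ ∈ P.inertiaSubgroupIn ℚ, σ c = c) → ∃ a : R',
      (((coverDatumOfKummer hq hζ hl0 hu0 hnorm).fixedVal (rhoI P)
        (stable_rhoOfSubgroup hq hζ hl0 hu0 hnorm (P.inertiaSubgroupIn ℚ) hI)
        (algebraMap R' _ a) : (coverDatumOfKummer hq hζ hl0 hu0 hnorm).coverField) :
          LaurentSeries Qbar) = algebraMap Qbar (LaurentSeries Qbar) c)
    {x : JZero (M * q)} {f : modularFunctionFieldBar (M * q)} (hf : IsKummerRep q x f)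
    (g : (coverDatumOfKummer hq hζ hl0 hu0 hnorm).coverField) (hg0 : g ≠ 0)
    (ft : (coverDatumOfKummer hq hζ hl0 hu0 hnorm).FixedCover (rhoI P)
      (stable_rhoOfSubgroup hq hζ hl0 hu0 hnorm (P.inertiaSubgroupIn ℚ) hI))
    (hft : ft ≠ 0)
    (heq : (coverDatumOfKummer hq hζ hl0 hu0 hnorm).fixedVal (rhoI P)
        (stable_rhoOfSubgroup hq hζ hl0 hu0 hnorm (P.inertiaSubgroupIn ℚ) hI) ft =
      algebraMap (modularFunctionFieldBar (M * q)) _ f * g ^ q)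
    (n : ZMod q)
    (hsl : ∀ (A B : ℤ) (ε : R'ˣ) (g1 g2 : R'), ¬ i u ∣ g1 → ¬ i u' ∣ g1 → ¬ i u ∣ g2 →
      ¬ i u' ∣ g2 →
      ft = algebraMap R' _ ε * algebraMap R' _ (i u) ^ A * algebraMap R' _ (i u') ^ B *
        (algebraMap R' _ g1 / algebraMap R' _ g2) ^ q → n = ((B - A : ℤ) : ZMod q)) :
    NodeData P π M q hdeg hq hqM hrk hπ (coverDatumOfKummer hq hζ hl0 hu0 hnorm)
      (stable_rhoOfSubgroup hq hζ hl0 hu0 hnorm (P.inertiaSubgroupIn ℚ) hI) ft n := by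
  have hn := h.slope_eq hq.ne_zero hft
    (edge_H_fixedCover P π M q hdeg hq hqM hrk hπ hP hζ hl0 hu0 hnorm hI hfix h hO0 hf g hg0 ft
      heq) n hsl
  refine ⟨valuationSubring h.prime_iu, valuationSubring h.prime_iu', ordAt h.prime_iu,
    ordAt h.prime_iu', h.mem_winf_iff, h.mem_wzero_iff, isOrd h.prime_iu, isOrd h.prime_iu',
    ?_, ?_, hn⟩
  · intro e he
    rw [ordAt_algebraMap_over h.prime_u i h.prime_iu h.compat h.contr he]
    exact h.vinf_eq (isOrd_vinfB P π M q hdeg hq hqM hrk hπ)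
      (vinfB_natCast P π M q hdeg hq hqM hrk hπ) he
  · intro e he
    rw [ordAt_algebraMap_over h.prime_u' i h.prime_iu' h.compat h.contr' he]
    exact h.vzero_eq (isOrd_vzeroB P π M q hdeg hq hqM hrk hπ)
      (vzeroB_natCast P π M q hdeg hq hqM hrk hπ) he

include hP hfix in
/-- the `0`-side twin: with the `0`-side slope rule `n' = A - B` at the same node ring,
`n' = -n`. -/
theorem c3_node_modular_zero
    {R : Type*} [CommRing R] [IsDomain R] [UniqueFactorizationMonoid R] [Algebra R (F0 P M q)]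
    [IsFractionRing R (F0 P M q)]
    {R' : Type*} [CommRing R'] [IsDomain R'] [UniqueFactorizationMonoid R']
    [Algebra R' ((coverDatumOfKummer hq hζ hl0 hu0 hnorm).FixedCover (rhoI P)
      (stable_rhoOfSubgroup hq hζ hl0 hu0 hnorm (P.inertiaSubgroupIn ℚ) hI))]
    [IsFractionRing R' ((coverDatumOfKummer hq hζ hl0 hu0 hnorm).FixedCover (rhoI P)
      (stable_rhoOfSubgroup hq hζ hl0 hu0 hnorm (P.inertiaSubgroupIn ℚ) hI))]
    {i : R →+* R'} {u u' : R}
    (h : NodeOver (F0 P M q) ((coverDatumOfKummer hq hζ hl0 hu0 hnorm).FixedCover (rhoI P)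
      (stable_rhoOfSubgroup hq hζ hl0 hu0 hnorm (P.inertiaSubgroupIn ℚ) hI)) i q u u'
      (OinfB P π M q hqM hrk hπ) (OzeroB P π M q hdeg hq hqM hrk hπ))
    (hO0 : ∀ c : Qbar, c ∈ P → (∀ σ ∈ P.inertiaSubgroupIn ℚ, σ c = c) → ∃ a : R',
      (((coverDatumOfKummer hq hζ hl0 hu0 hnorm).fixedVal (rhoI P)
        (stable_rhoOfSubgroup hq hζ hl0 hu0 hnorm (P.inertiaSubgroupIn ℚ) hI)
        (algebraMap R' _ a) : (coverDatumOfKummer hq hζ hl0 hu0 hnorm).coverField) :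
          LaurentSeries Qbar) = algebraMap Qbar (LaurentSeries Qbar) c)
    {x : JZero (M * q)} {f : modularFunctionFieldBar (M * q)} (hf : IsKummerRep q x f)
    (g : (coverDatumOfKummer hq hζ hl0 hu0 hnorm).coverField) (hg0 : g ≠ 0)
    (ft : (coverDatumOfKummer hq hζ hl0 hu0 hnorm).FixedCover (rhoI P)
      (stable_rhoOfSubgroup hq hζ hl0 hu0 hnorm (P.inertiaSubgroupIn ℚ) hI))
    (hft : ft ≠ 0)
    (heq : (coverDatumOfKummer hq hζ hl0 hu0 hnorm).fixedVal (rhoI P)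
        (stable_rhoOfSubgroup hq hζ hl0 hu0 hnorm (P.inertiaSubgroupIn ℚ) hI) ft =
      algebraMap (modularFunctionFieldBar (M * q)) _ f * g ^ q)
    (n n' : ZMod q)
    (hsl : ∀ (A B : ℤ) (ε : R'ˣ) (g1 g2 : R'), ¬ i u ∣ g1 → ¬ i u' ∣ g1 → ¬ i u ∣ g2 →
      ¬ i u' ∣ g2 →
      ft = algebraMap R' _ ε * algebraMap R' _ (i u) ^ A * algebraMap R' _ (i u') ^ B *
        (algebraMap R' _ g1 / algebraMap R' _ g2) ^ q → n = ((B - A : ℤ) : ZMod q))
    (hsl' : ∀ (A B : ℤ) (ε : R'ˣ) (g1 g2 : R'), ¬ i u ∣ g1 → ¬ i u' ∣ g1 → ¬ i u ∣ g2 →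
      ¬ i u' ∣ g2 →
      ft = algebraMap R' _ ε * algebraMap R' _ (i u) ^ A * algebraMap R' _ (i u') ^ B *
        (algebraMap R' _ g1 / algebraMap R' _ g2) ^ q → n' = ((A - B : ℤ) : ZMod q)) :
    n' = -n :=
  node_slope_neg hq.ne_zero h.prime_iu h.prime_iu' hft
    (edge_H_fixedCover P π M q hdeg hq hqM hrk hπ hP hζ hl0 hu0 hnorm hI hfix h hO0 hf g hg0 ft
      heq) n n' hsl hsl'

include hP hfix in
/-- **The node half of `c3_diagonal` in one call** (`PairModular.exists_ft_kummer` +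
`c3_node_modular` + `PairNodes.exists_const_slope`): a family of nodes `s : ι`, each with its
`NodeOver` datum, its export `hO0` and its slope rule (for every descended Kummer function
`ft = f g ^ q` of `x`); then all node slopes `n s` are equal. -/
theorem exists_const_slope_of_nodeOver {ι : Type*}
    (R : ι → Type*) [∀ s, CommRing (R s)] [∀ s, IsDomain (R s)]
    [∀ s, UniqueFactorizationMonoid (R s)] [∀ s, Algebra (R s) (F0 P M q)]
    [∀ s, IsFractionRing (R s) (F0 P M q)]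
    (R' : ι → Type*) [∀ s, CommRing (R' s)] [∀ s, IsDomain (R' s)]
    [∀ s, UniqueFactorizationMonoid (R' s)]
    [∀ s, Algebra (R' s) ((coverDatumOfKummer hq hζ hl0 hu0 hnorm).FixedCover (rhoI P)
      (stable_rhoOfSubgroup hq hζ hl0 hu0 hnorm (P.inertiaSubgroupIn ℚ) hI))]
    [∀ s, IsFractionRing (R' s) ((coverDatumOfKummer hq hζ hl0 hu0 hnorm).FixedCover (rhoI P)
      (stable_rhoOfSubgroup hq hζ hl0 hu0 hnorm (P.inertiaSubgroupIn ℚ) hI))]
    (i : ∀ s, R s →+* R' s) (u u' : ∀ s, R s)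
    (h : ∀ s, NodeOver (F0 P M q) ((coverDatumOfKummer hq hζ hl0 hu0 hnorm).FixedCover (rhoI P)
      (stable_rhoOfSubgroup hq hζ hl0 hu0 hnorm (P.inertiaSubgroupIn ℚ) hI)) (i s) q (u s) (u' s)
      (OinfB P π M q hqM hrk hπ) (OzeroB P π M q hdeg hq hqM hrk hπ))
    (hO0 : ∀ s, ∀ c : Qbar, c ∈ P → (∀ σ ∈ P.inertiaSubgroupIn ℚ, σ c = c) → ∃ a : R' s,
      (((coverDatumOfKummer hq hζ hl0 hu0 hnorm).fixedVal (rhoI P)
        (stable_rhoOfSubgroup hq hζ hl0 hu0 hnorm (P.inertiaSubgroupIn ℚ) hI)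
        (algebraMap (R' s) _ a) : (coverDatumOfKummer hq hζ hl0 hu0 hnorm).coverField) :
          LaurentSeries Qbar) = algebraMap Qbar (LaurentSeries Qbar) c)
    {x : JZero (M * q)} {f : modularFunctionFieldBar (M * q)} (hf : IsKummerRep q x f)
    (hfn : Normalized (f : LaurentSeries Qbar))
    (hx : ∀ σ ∈ P.inertiaSubgroupIn ℚ, ∃ j : ℕ, σ • x - x = j • l0)
    (hd : ∀ τ ∈ P.inertiaSubgroupIn ℚ,
      (∀ b : Qbar, b ^ q ∈ Fermat.Agent.S40x.Kummer.unitFixed P → τ b = b) → τ • x = x)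
    (n : ι → ZMod q)
    (hsl : ∀ (ft : (coverDatumOfKummer hq hζ hl0 hu0 hnorm).FixedCover (rhoI P)
        (stable_rhoOfSubgroup hq hζ hl0 hu0 hnorm (P.inertiaSubgroupIn ℚ) hI))
      (g : (coverDatumOfKummer hq hζ hl0 hu0 hnorm).coverField), ft ≠ 0 → g ≠ 0 →
      (coverDatumOfKummer hq hζ hl0 hu0 hnorm).fixedVal (rhoI P)
        (stable_rhoOfSubgroup hq hζ hl0 hu0 hnorm (P.inertiaSubgroupIn ℚ) hI) ft =
        algebraMap (modularFunctionFieldBar (M * q)) _ f * g ^ q →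
      ∀ (s : ι) (A B : ℤ) (ε : (R' s)ˣ) (g1 g2 : R' s), ¬ i s (u s) ∣ g1 → ¬ i s (u' s) ∣ g1 →
      ¬ i s (u s) ∣ g2 → ¬ i s (u' s) ∣ g2 →
      ft = algebraMap (R' s) _ ε * algebraMap (R' s) _ (i s (u s)) ^ A *
        algebraMap (R' s) _ (i s (u' s)) ^ B *
        (algebraMap (R' s) _ g1 / algebraMap (R' s) _ g2) ^ q → n s = ((B - A : ℤ) : ZMod q)) :
    ∃ c : ZMod q, ∀ s : ι, n s = c := by
  refine exists_const_slope P π M q hdeg hq hqM hrk hπ (coverDatumOfKummer hq hζ hl0 hu0 hnorm)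
    (stable_rhoOfSubgroup hq hζ hl0 hu0 hnorm (P.inertiaSubgroupIn ℚ) hI)
    (exists_ft_kummer P π M q hdeg hq hqM hrk hπ hP hζ hl0 hu0 hnorm hI hf hfn hx hd) n ?_
  intro ft g hft0 hg0 heq s
  exact c3_node_modular P π M q hdeg hq hqM hrk hπ hP hζ hl0 hu0 hnorm hI hfix (h s) (hO0 s) hf g
    hg0 ft hft0 heq (n s) (hsl ft g hft0 hg0 heq s)

end Node

end Fermat.Agent.S40x.R2.Asm.NodeModular
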