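import Fermat.Agent.S40x.R2.Slope.NodeGlue
import Fermat.Agent.S40x.NodeRing.Bundle
import Fermat.Agent.S40x.R2.Asm.NodeSeam

/-!
# P-S44, block C3, C3-ASM (helper41): the PER-NODE seam `[ET] × [SL] × [Core]`

One side of one node, everything plugged:

* `[ET]` (helper4, `NodeRing/Bundle`): `Rs = R_s` the node ring (a TYPE, `IsNode u u'`),
  `F0 = Frac Rs`, `E0 = FL_0 ⊇ F0` of degree `p`, `E = FL ⊇ E0` carrying the `ASDatum`;
* `[SL]` (helper41/helper12, `Slope/NodeGlue`): `F ⊇ Rs` the function field over the algebraically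
  closed constants `L`, `E ⊇ F` Galois with group `G` (every element acts as an iterate of `σ`),
  `O` a valuation subring of `F` containing `Rs` with `v(u) < 1`, `v(u') = 1`, the `RedSetup`, the
  place `P`, (D) and (n3) downstairs;
* `[Core]` (helper22/helper68): the output is `NodeSeam.NodeOut` together with the value of the slope.

`node_side` : `∃ n, NodeOut p Oa Ob va vb ft n ∧ slopeAt O₁ O₂ O RS.res p x P = n`, where `(Oa, va)`
is the `u`-adic and `(Ob, vb)` the `u'`-adic order function of `F0`.  On the component `C_∞` apply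
it with `(u, u', Oinf, Ozero)`; on `C_0` with `(u', u, Ozero, Oinf)` and `NodeOut.swap`.
-/

set_option autoImplicit false
set_option linter.unusedSectionVars false
set_option linter.style.haveILetI false

namespace Fermat.Agent.S40x.R2.Asm.PlaceB

open AlgebraicCurve IsLocalRing Polynomial Fermat.Agent.Gateway.Kummer Fermat.Agent.Gateway.C0
  Fermat.Agent.S40x.Slope.SlopeInv Fermat.Agent.S40x.R2.Transitive
  Fermat.Agent.S40x.R2.Asm.NodeSeam Fermat.Agent.S40x.NodeRing Fermat.Agent.S40x.R2.Slope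
  Fermat.Agent.S40x.R2.SlopeB.PlaceInst

/-- exchanging the roles of the two branches changes the sign of the per-node residue -/
theorem NodeOut.swap {K L : Type*} [Field K] [Field L] [Algebra K L] {p : ℕ}
    {Oinf Ozero : ValuationSubring K} {vinf vzero : K → ℤ} {ft : L} {n : ZMod p}
    (h : NodeOut p Oinf Ozero vinf vzero ft n) : NodeOut p Ozero Oinf vzero vinf ft (-n) := by
  obtain ⟨Winf, Wzero, winf, wzero, h1, h2, h3, h4, h5, h6, h7⟩ := h
  refine ⟨Wzero, Winf, wzero, winf, h2, h1, h4, h3, h6, h5, ?_⟩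
  rw [h7]
  push_cast
  ring

variable {L : Type*} [Field L] [IsAlgClosed L] {F : Type*} [Field F] [Algebra L F]
  [HasPrincipalDivisors L F]
  {k : Type*} [Field k] {Eκ : Type*} [Field Eκ] [Algebra k Eκ]
  {A : ValuationSubring L} {O₁ O₂ O : ValuationSubring F}
variable {Rs E0 E : Type*} [CommRing Rs] [IsDomain Rs] [IsLocalRing Rs] [IsNoetherianRing Rs]
  [IsIntegrallyClosed Rs] [IsAlgClosed (ResidueField Rs)]
  [Field E0] [Algebra Rs E0] [FaithfulSMul Rs E0] [Field E] [Algebra Rs E]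
  [Algebra E0 E] [IsScalarTower Rs E0 E] [Algebra Rs F] [Algebra F E] [IsScalarTower Rs F E]
variable {G : Type*} [Group G] [Fintype G] [MulSemiringAction G E] [SMulCommClass G F E]
  [Algebra.IsInvariant F E G] [FaithfulSMul G E]
variable {p : ℕ} [hp : Fact p.Prime]
  {σ : E →ₐ[Rs] E} {ι : Type*} [Fintype ι] {θ ζ : ι → E} {θ₀' : E0}

/-- **One side of one node**, everything plugged. -/
theorem node_side (RS : Fermat.Agent.Gateway.C0.RedSetup A O k Eκ) (P : Place k Eκ)
    (hS : SlopeData (L := L) O₁ O₂ O RS.res p)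
    -- [ET]
    (D : ASDatum Rs p σ θ ζ) (hpm : (p : Rs) ∈ maximalIdeal Rs)
    (hθ : algebraMap E0 E θ₀' = -∑ d, θ d) {u u' : Rs} (h : IsNode u u')
    (ψ : Rsˣ) (hψ : u * u' = (p : Rs) * ψ) (hpL : (p : L) ≠ 0)
    (F0 : Type*) [Field F0] [Algebra Rs F0] [IsFractionRing Rs F0] [Algebra F0 E0]
    [IsScalarTower Rs F0 E0] [FiniteDimensional F0 E0] (hfin : Module.finrank F0 E0 = p)
    {Oa Ob : ValuationSubring F0} {va vb : F0 → ℤ}
    (hva : IsOrd Oa va) (hva_u : va (algebraMap Rs F0 u) = 1)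
    (hva_0 : ∀ r : Rs, ¬ u ∣ r → va (algebraMap Rs F0 r) = 0)
    (hvb : IsOrd Ob vb) (hvb_u' : vb (algebraMap Rs F0 u') = 1)
    (hvb_0 : ∀ r : Rs, ¬ u' ∣ r → vb (algebraMap Rs F0 r) = 0)
    -- the Galois group of `E / F`
    (hG : ∀ g : G, ∃ i : ℕ, i < p ∧ ∀ e : E, g • e = (σ^[i]) e)
    -- [N] downstairs, in `F`
    (hRO : ∀ r : Rs, algebraMap Rs F r ∈ O)
    (hOu : O.valuation (algebraMap Rs F u) < 1) (hOu' : O.valuation (algebraMap Rs F u') = 1)
    (hdense : ∀ x : F, O.valuation x = 1 → ∃ r1 ∈ (algebraMap Rs F).range,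
      ∃ r2 ∈ (algebraMap Rs F).range, O.valuation r1 = 1 ∧
      O.valuation r2 = 1 ∧ O.valuation (x * r2 - r1) < 1)
    (hn3 : ∀ r : Rs, ¬ u ∣ r → ordAt O RS.res P (algebraMap Rs F r) = ordQ u u' r)
    -- the Kummer functions
    {x : Pic0 L F} {fx : F} (hfx : IsKummerRep p x fx) {c : L} (hc : c ≠ 0) {g : E} (hg : g ≠ 0)
    {ft : E0} (hft : ft ≠ 0)
    (hftx : algebraMap E0 E ft = algebraMap F E (algebraMap L F c) * algebraMap F E fx * g ^ p)
    -- [CFE], for every root `c'`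
    (H : ∀ (c' : Rs) (hc' : (minpoly Rs θ₀').eval c' ∈ maximalIdeal Rs),
      ∀ π : Embed.Rstar (ET.isIntegral' D hθ) hc', Prime π →
      ¬ Associated π (Embed.inclStar (ET.isIntegral' D hθ) hc' u) →
      ¬ Associated π (Embed.inclStar (ET.isIntegral' D hθ) hc' u') →
      ∀ f1 f2 : Embed.Rstar (ET.isIntegral' D hθ) hc', f2 ≠ 0 →
        ft * algebraMap (Embed.Rstar (ET.isIntegral' D hθ) hc') E0 f2 =
          algebraMap (Embed.Rstar (ET.isIntegral' D hθ) hc') E0 f1 →
      ∀ n1 n2 : ℕ, π ^ n1 ∣ f1 → ¬ π ^ (n1 + 1) ∣ f1 → π ^ n2 ∣ f2 → ¬ π ^ (n2 + 1) ∣ f2 →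
        (p : ℤ) ∣ (n1 : ℤ) - n2) :
    ∃ n : ZMod p, NodeOut p Oa Ob va vb ft n ∧ slopeAt O₁ O₂ O RS.res p x P = n := by
  classical
  -- a valuation subring of `E` over `O`
  obtain ⟨W, hVW⟩ := exists_valuationSubring_over (F := F) (E := E) O
  have hRW : ∀ r : Rs, algebraMap Rs E r ∈ W := fun r => by
    rw [IsScalarTower.algebraMap_apply Rs F E]
    exact (hVW _).mpr (hRO r)
  -- the root `c'` with `R*_c' ⊆ W`
  obtain ⟨c', hc', hle⟩ := ET.exists_le' D hθ (W.comap (algebraMap E0 E)) (fun r => by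
    show algebraMap E0 E (algebraMap Rs E0 r) ∈ W
    rw [← IsScalarTower.algebraMap_apply Rs E0 E]
    exact hRW r)
  set S := Embed.Rstar (ET.isIntegral' D hθ) hc' with hSdef
  haveI : UniqueFactorizationMonoid S := ET.ufm' D hpm hθ h hc'
  haveI : IsFractionRing S E0 := ET.isFractionRing' D hpm hθ hc' F0 hfin
  have hN := ET.isNode' D hpm hθ h hc'
  -- the order functions
  obtain ⟨Wa, wa, hwa, ha_u, ha_0, hWa, hva'⟩ :=
    ET.ord_package' D hpm hθ h hc' F0 hfin hva hva_u hva_0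
  obtain ⟨Wb, wb, hwb, hb_u', hb_0, hWb, hvb'⟩ :=
    ET.ord_package' D hpm hθ h.symm hc' F0 hfin hvb hvb_u' hvb_0
  refine ⟨((wb ft - wa ft : ℤ) : ZMod p),
    ⟨Wa, Wb, wa, wb, hWa, hWb, hwa, hwb, hva', hvb', rfl⟩, ?_⟩
  -- the slope
  have hcoe : ∀ r : Rs, algebraMap E0 E (algebraMap S E0 (Embed.inclStar (ET.isIntegral' D hθ) hc' r))
      = algebraMap Rs E r := fun r => by
    have : algebraMap S E0 (Embed.inclStar (ET.isIntegral' D hθ) hc' r) = algebraMap Rs E0 r :=
      Embed.coe_inclStar (ET.isIntegral' D hθ) hc' r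
    rw [this, ← IsScalarTower.algebraMap_apply Rs E0 E]
  have hφW : ∀ r : S, algebraMap E0 E (algebraMap S E0 r) ∈ W := fun r => hle r.2
  have hvu : W.valuation (algebraMap E0 E (algebraMap S E0
      (Embed.inclStar (ET.isIntegral' D hθ) hc' u))) < 1 := by
    rw [hcoe, IsScalarTower.algebraMap_apply Rs F E]
    exact (Fermat.Agent.S40x.R2.SlopeB.Lift.val_lt_one_iff hVW _).mpr hOu
  have hvu' : W.valuation (algebraMap E0 E (algebraMap S E0
      (Embed.inclStar (ET.isIntegral' D hθ) hc' u'))) = 1 := by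
    rw [hcoe, IsScalarTower.algebraMap_apply Rs F E]
    exact (Fermat.Agent.S40x.R2.SlopeB.Lift.val_eq_one_iff hVW _).mpr hOu'
  -- `p` is a non-unit of `W`
  have hψW : W.valuation (algebraMap Rs E ψ) = 1 := by
    have h1 : W.valuation (algebraMap Rs E ψ) ≤ 1 :=
      (ValuationSubring.valuation_le_one_iff W _).mpr (hRW _)
    have h2 : W.valuation (algebraMap Rs E ((ψ⁻¹ : Rsˣ) : Rs)) ≤ 1 :=
      (ValuationSubring.valuation_le_one_iff W _).mpr (hRW _)
    have h3 : W.valuation (algebraMap Rs E ψ) * W.valuation (algebraMap Rs E ((ψ⁻¹ : Rsˣ) : Rs))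
        = 1 := by
      rw [← map_mul, ← map_mul, Units.mul_inv, map_one, map_one]
    exact le_antisymm h1 (by
      by_contra hlt
      have hlt' : W.valuation (algebraMap Rs E ψ) < 1 := not_le.mp hlt
      have : W.valuation (algebraMap Rs E ψ) *
          W.valuation (algebraMap Rs E ((ψ⁻¹ : Rsˣ) : Rs)) < 1 :=
        mul_lt_one_of_lt_of_le hlt' h2
      rw [h3] at this
      exact lt_irrefl _ this)
  have hpE : algebraMap Rs E (u * u') = (p : E) * algebraMap Rs E ψ := by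
    rw [hψ, map_mul, map_natCast]
  have hpW : (p : E) ∈ W.nonunits := by
    rw [ValuationSubring.mem_nonunits_iff]
    have h1 : W.valuation (algebraMap Rs E (u * u')) < 1 := by
      rw [map_mul, map_mul]
      have e1 : W.valuation (algebraMap Rs E u) < 1 := by rw [← hcoe]; exact hvu
      have e2 : W.valuation (algebraMap Rs E u') = 1 := by rw [← hcoe]; exact hvu'
      rw [e2, mul_one]
      exact e1
    rw [hpE, map_mul, hψW, mul_one] at h1
    exact h1
  -- the conjugates of `θ₀`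
  have hθmem : θ₀' ∈ S := Embed.theta_mem_Rstar (ET.isIntegral' D hθ) hc'
  have hθn : algebraMap E0 E (algebraMap S E0 ⟨θ₀', hθmem⟩) = -∑ d, θ d := hθ
  have hθW : ∀ g : G, g • algebraMap E0 E (algebraMap S E0 ⟨θ₀', hθmem⟩) ∈ W := by
    intro g
    obtain ⟨i, _, hi⟩ := hG g
    rw [hi, hθn]
    exact D.iterate_mem W hRW i
  have hθu : ∀ g g' : G, g ≠ g' →
      W.valuation (g • algebraMap E0 E (algebraMap S E0 ⟨θ₀', hθmem⟩) -
        g' • algebraMap E0 E (algebraMap S E0 ⟨θ₀', hθmem⟩)) = 1 := by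
    intro g g' hgg'
    obtain ⟨i, hip, hi⟩ := hG g
    obtain ⟨j, hjp, hj⟩ := hG g'
    have hij : i ≠ j := by
      rintro rfl
      apply hgg'
      apply FaithfulSMul.eq_of_smul_eq_smul (α := E)
      intro e
      rw [hi, hj]
    rw [hi, hj, hθn]
    exact D.valuation_iterate_sub_iterate W hRW hpW hip hjp hij
  -- the relation `u u' = p ψ` upstairs
  have hrel : algebraMap E0 E (algebraMap S E0 (Embed.inclStar (ET.isIntegral' D hθ) hc' u *
        Embed.inclStar (ET.isIntegral' D hθ) hc' u')) =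
      algebraMap F E (algebraMap L F (p : L)) * algebraMap E0 E (algebraMap S E0
        ((Units.map (Embed.inclStar (ET.isIntegral' D hθ) hc' : Rs →* S) ψ : Sˣ) : S)) := by
    rw [← map_mul, hcoe, hpE, map_natCast, map_natCast]
    congr 1
    exact (hcoe _).symm
  exact node_slope_nodeOrd (G := G) RS P hS h.max_eq h.prime_z h.not_dvd (algebraMap Rs F) hdense hn3
    hVW (algebraMap E0 E) hN.max_eq hN.prime_z hN.prime_z' hN.not_dvd hN.not_dvd' hφW hvu hvu'
    (Embed.inclStar (ET.isIntegral' D hθ) hc') rfl rfl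
    (fun r => by rw [hcoe, IsScalarTower.algebraMap_apply Rs F E])
    (θn := ⟨θ₀', hθmem⟩) hθW hθu hpL hrel hwa hwb ha_u ha_0 hb_u' hb_0 hfx hc hg hft hftx
    (H c' hc')

end Fermat.Agent.S40x.R2.Asm.PlaceB
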