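import Fermat.Agent.S40x.R2.Asm.PlaceSmoothB
import Fermat.Agent.S40x.Slope.InstMq

/-!
# P-S44, block C3, item (S) of C3-ASM v2, second (helper41): the per-place seams at level `M q`

`Asm/PlaceB.node_side` and `Asm/PlaceSmoothB.smooth_side` instantiated at the two Gauss valuations
`valInfty`, `valZero` of `F_{Mq}` (vocabulary of `Slope/InstMq`, helper47), with conclusions about
`InstMq.slopeInf H hA p x P` and `InstMq.slopeZero H hA p x P`:

* `node_inf_Mq`  : `∃ n, NodeOut p Oinf Ozero vinf vzero ft n ∧ slopeInf H hA p x P = n`;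
* `node_zero_Mq` : `∃ n, NodeOut p Oinf Ozero vinf vzero ft n ∧ slopeZero H hA p x P = -n`
  (the roles of the two branches are exchanged: `u'` vanishes on `C_0`);
* `smooth_inf_Mq`, `smooth_zero_Mq` : the slopes vanish off the nodes.

These are exactly the four per-place hypotheses of `Asm/TopB.isDiagonal_of_nodeOut` (after unfolding
`Geo/Vocab.slopeInfQb`, `slopeZeroQb` to `InstMq.slopeInf`, `slopeZero`: file `Asm/PlaceQbB.lean`).
-/

set_option autoImplicit false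
set_option linter.unusedSectionVars false
set_option linter.style.haveILetI false

noncomputable section

namespace Fermat.Agent.S40x.R2.Asm.PlaceMqB

open ModularCurve AlgebraicCurve IntermediateField IsLocalRing Polynomial
open Fermat.Agent.Gateway.Hecke Fermat.Agent.Gateway.ESC Fermat.Agent.Gateway.Kummer
open Fermat.Agent.Gateway.Red Fermat.Agent.Gateway.GoodRed
open Fermat.Agent.S34x.TwoVal Fermat.Agent.S34x.C0two
open Fermat.Agent.S34x.Inst.RedSetupInst Fermat.Agent.S34x.Inst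
open Fermat.Agent.S40x.Slope.SlopeInv Fermat.Agent.S40x.Slope.Xf Fermat.Agent.S40x.Slope.InstMq
open Fermat.Agent.S40x.R2.Transitive Fermat.Agent.S40x.R2.Asm.NodeSeam Fermat.Agent.S40x.NodeRing
  Fermat.Agent.S40x.R2.Slope Fermat.Agent.S40x.R2.SlopeB.PlaceInst
  Fermat.Agent.S40x.R2.Asm.PlaceB Fermat.Agent.S40x.R2.Asm.PlaceSmoothB

variable {L : Type} [Field L] [Algebra ℚ L] [IsAlgClosed L] [Algebra.IsAlgebraic ℚ L]
  {A : ValuationSubring L}
  {k : Type} [Field k] {π : A →+* k} [IsAlgClosed k]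
variable {M q : ℕ} [NeZero M] [NeZero q] [Fact q.Prime] [CharP k q]
variable {hdeg : finrankAlong L (heckeAlphaBar L M q) = q + 1} {hq : q.Prime} {hqM : ¬ q ∣ M}
variable {hrk : ∀ x ∈ maximalIdeal A, ∀ c : A, c ≠ 0 → ∃ j : ℕ, c ∣ x ^ j}
  {hπ : Function.Surjective π}
variable (H : ResidueFacts A π M q hdeg hq hqM hrk hπ) (hA : A.LiesOverPrime q)

variable {Rs E0 E : Type*} [CommRing Rs] [IsDomain Rs] [IsLocalRing Rs] [IsNoetherianRing Rs]
  [IsIntegrallyClosed Rs] [IsAlgClosed (ResidueField Rs)]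
  [Field E0] [Algebra Rs E0] [FaithfulSMul Rs E0] [Field E] [Algebra Rs E]
  [Algebra E0 E] [IsScalarTower Rs E0 E] [Algebra Rs (FL L (M * q))] [Algebra (FL L (M * q)) E]
  [IsScalarTower Rs (FL L (M * q)) E]
variable {G : Type*} [Group G] [Fintype G] [MulSemiringAction G E]
  [SMulCommClass G (FL L (M * q)) E] [Algebra.IsInvariant (FL L (M * q)) E G] [FaithfulSMul G E]
variable {p : ℕ} [hp : Fact p.Prime]
  {σ : E →ₐ[Rs] E} {ι : Type*} [Fintype ι] {θ ζ : ι → E} {θ₀' : E0}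

/-- **A node place of `κ_∞`**: `u` vanishes on `C_∞`. -/
theorem node_inf_Mq (P : Place k (modularFunctionFieldFullC k M))
    (D : ASDatum Rs p σ θ ζ) (hpm : (p : Rs) ∈ maximalIdeal Rs)
    (hθ : algebraMap E0 E θ₀' = -∑ d, θ d) {u u' : Rs} (h : IsNode u u')
    (ψ : Rsˣ) (hψ : u * u' = (p : Rs) * ψ)
    (F0 : Type*) [Field F0] [Algebra Rs F0] [IsFractionRing Rs F0] [Algebra F0 E0]
    [IsScalarTower Rs F0 E0] [FiniteDimensional F0 E0] (hfin : Module.finrank F0 E0 = p)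
    {Oinf Ozero : ValuationSubring F0} {vinf vzero : F0 → ℤ}
    (hvinf : IsOrd Oinf vinf) (hvinf_u : vinf (algebraMap Rs F0 u) = 1)
    (hvinf_0 : ∀ r : Rs, ¬ u ∣ r → vinf (algebraMap Rs F0 r) = 0)
    (hvzero : IsOrd Ozero vzero) (hvzero_u' : vzero (algebraMap Rs F0 u') = 1)
    (hvzero_0 : ∀ r : Rs, ¬ u' ∣ r → vzero (algebraMap Rs F0 r) = 0)
    (hG : ∀ g : G, ∃ i : ℕ, i < p ∧ ∀ e : E, g • e = (σ^[i]) e)
    (hRO : ∀ r : Rs, algebraMap Rs (FL L (M * q)) r ∈ valInfty A π M q hrk hπ hqM)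
    (hOu : (valInfty A π M q hrk hπ hqM).valuation (algebraMap Rs (FL L (M * q)) u) < 1)
    (hOu' : (valInfty A π M q hrk hπ hqM).valuation (algebraMap Rs (FL L (M * q)) u') = 1)
    (hdense : ∀ x : FL L (M * q), (valInfty A π M q hrk hπ hqM).valuation x = 1 →
      ∃ r1 ∈ (algebraMap Rs (FL L (M * q))).range, ∃ r2 ∈ (algebraMap Rs (FL L (M * q))).range,
      (valInfty A π M q hrk hπ hqM).valuation r1 = 1 ∧
      (valInfty A π M q hrk hπ hqM).valuation r2 = 1 ∧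
      (valInfty A π M q hrk hπ hqM).valuation (x * r2 - r1) < 1)
    (hn3 : ∀ r : Rs, ¬ u ∣ r → ordAt (valInfty A π M q hrk hπ hqM) (redSetupInfty H hA).res P
      (algebraMap Rs (FL L (M * q)) r) = ordQ u u' r)
    {x : Pic0 L (FL L (M * q))} {fx : FL L (M * q)} (hfx : IsKummerRep p x fx) {c : L}
    (hc : c ≠ 0) {g : E} (hg : g ≠ 0) {ft : E0} (hft : ft ≠ 0)
    (hftx : algebraMap E0 E ft = algebraMap (FL L (M * q)) E (algebraMap L (FL L (M * q)) c) *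
      algebraMap (FL L (M * q)) E fx * g ^ p)
    (Hcfe : ∀ (c' : Rs) (hc' : (minpoly Rs θ₀').eval c' ∈ maximalIdeal Rs),
      ∀ π' : Embed.Rstar (ET.isIntegral' D hθ) hc', Prime π' →
      ¬ Associated π' (Embed.inclStar (ET.isIntegral' D hθ) hc' u) →
      ¬ Associated π' (Embed.inclStar (ET.isIntegral' D hθ) hc' u') →
      ∀ f1 f2 : Embed.Rstar (ET.isIntegral' D hθ) hc', f2 ≠ 0 →
        ft * algebraMap (Embed.Rstar (ET.isIntegral' D hθ) hc') E0 f2 =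
          algebraMap (Embed.Rstar (ET.isIntegral' D hθ) hc') E0 f1 →
      ∀ n1 n2 : ℕ, π' ^ n1 ∣ f1 → ¬ π' ^ (n1 + 1) ∣ f1 → π' ^ n2 ∣ f2 → ¬ π' ^ (n2 + 1) ∣ f2 →
        (p : ℤ) ∣ (n1 : ℤ) - n2) :
    ∃ n : ZMod p, NodeOut p Oinf Ozero vinf vzero ft n ∧ slopeInf H hA p x P = n := by
  haveI : CharZero L := algebraRat.charZero L
  have hpL : (p : L) ≠ 0 := Nat.cast_ne_zero.mpr hp.out.ne_zero
  exact node_side (G := G) (redSetupInfty H hA) P (flatDataMq H hA hp.out.pos).S₁ D hpm hθ h ψ hψ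
    hpL F0 hfin hvinf hvinf_u hvinf_0 hvzero hvzero_u' hvzero_0 hG hRO hOu hOu' hdense hn3 hfx hc
    hg hft hftx Hcfe

/-- **A node place of `κ_0`**: `u'` vanishes on `C_0`; the residue changes sign. -/
theorem node_zero_Mq (P : Place k (modularFunctionFieldFullC k M))
    (D : ASDatum Rs p σ θ ζ) (hpm : (p : Rs) ∈ maximalIdeal Rs)
    (hθ : algebraMap E0 E θ₀' = -∑ d, θ d) {u u' : Rs} (h : IsNode u u')
    (ψ : Rsˣ) (hψ : u * u' = (p : Rs) * ψ)
    (F0 : Type*) [Field F0] [Algebra Rs F0] [IsFractionRing Rs F0] [Algebra F0 E0]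
    [IsScalarTower Rs F0 E0] [FiniteDimensional F0 E0] (hfin : Module.finrank F0 E0 = p)
    {Oinf Ozero : ValuationSubring F0} {vinf vzero : F0 → ℤ}
    (hvinf : IsOrd Oinf vinf) (hvinf_u : vinf (algebraMap Rs F0 u) = 1)
    (hvinf_0 : ∀ r : Rs, ¬ u ∣ r → vinf (algebraMap Rs F0 r) = 0)
    (hvzero : IsOrd Ozero vzero) (hvzero_u' : vzero (algebraMap Rs F0 u') = 1)
    (hvzero_0 : ∀ r : Rs, ¬ u' ∣ r → vzero (algebraMap Rs F0 r) = 0)
    (hG : ∀ g : G, ∃ i : ℕ, i < p ∧ ∀ e : E, g • e = (σ^[i]) e)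
    (hRO : ∀ r : Rs, algebraMap Rs (FL L (M * q)) r ∈ valZero A π M q hdeg hq hqM hrk hπ)
    (hOu' : (valZero A π M q hdeg hq hqM hrk hπ).valuation (algebraMap Rs (FL L (M * q)) u') < 1)
    (hOu : (valZero A π M q hdeg hq hqM hrk hπ).valuation (algebraMap Rs (FL L (M * q)) u) = 1)
    (hdense : ∀ x : FL L (M * q), (valZero A π M q hdeg hq hqM hrk hπ).valuation x = 1 →
      ∃ r1 ∈ (algebraMap Rs (FL L (M * q))).range, ∃ r2 ∈ (algebraMap Rs (FL L (M * q))).range,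
      (valZero A π M q hdeg hq hqM hrk hπ).valuation r1 = 1 ∧
      (valZero A π M q hdeg hq hqM hrk hπ).valuation r2 = 1 ∧
      (valZero A π M q hdeg hq hqM hrk hπ).valuation (x * r2 - r1) < 1)
    (hn3 : ∀ r : Rs, ¬ u' ∣ r → ordAt (valZero A π M q hdeg hq hqM hrk hπ)
      (redSetupZero H hA).res P (algebraMap Rs (FL L (M * q)) r) = ordQ u' u r)
    {x : Pic0 L (FL L (M * q))} {fx : FL L (M * q)} (hfx : IsKummerRep p x fx) {c : L}
    (hc : c ≠ 0) {g : E} (hg : g ≠ 0) {ft : E0} (hft : ft ≠ 0)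
    (hftx : algebraMap E0 E ft = algebraMap (FL L (M * q)) E (algebraMap L (FL L (M * q)) c) *
      algebraMap (FL L (M * q)) E fx * g ^ p)
    (Hcfe : ∀ (c' : Rs) (hc' : (minpoly Rs θ₀').eval c' ∈ maximalIdeal Rs),
      ∀ π' : Embed.Rstar (ET.isIntegral' D hθ) hc', Prime π' →
      ¬ Associated π' (Embed.inclStar (ET.isIntegral' D hθ) hc' u) →
      ¬ Associated π' (Embed.inclStar (ET.isIntegral' D hθ) hc' u') →
      ∀ f1 f2 : Embed.Rstar (ET.isIntegral' D hθ) hc', f2 ≠ 0 →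
        ft * algebraMap (Embed.Rstar (ET.isIntegral' D hθ) hc') E0 f2 =
          algebraMap (Embed.Rstar (ET.isIntegral' D hθ) hc') E0 f1 →
      ∀ n1 n2 : ℕ, π' ^ n1 ∣ f1 → ¬ π' ^ (n1 + 1) ∣ f1 → π' ^ n2 ∣ f2 → ¬ π' ^ (n2 + 1) ∣ f2 →
        (p : ℤ) ∣ (n1 : ℤ) - n2) :
    ∃ n : ZMod p, NodeOut p Oinf Ozero vinf vzero ft n ∧ slopeZero H hA p x P = -n := by
  haveI : CharZero L := algebraRat.charZero L
  have hpL : (p : L) ≠ 0 := Nat.cast_ne_zero.mpr hp.out.ne_zero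
  have hψ' : u' * u = (p : Rs) * ψ := by rw [mul_comm, hψ]
  obtain ⟨n, hn, hs⟩ := node_side (G := G) (redSetupZero H hA) P (flatDataMq H hA hp.out.pos).S₂ D
    hpm hθ h.symm ψ hψ' hpL F0 hfin hvzero hvzero_u' hvzero_0 hvinf hvinf_u hvinf_0 hG hRO hOu' hOu
    hdense hn3 hfx hc hg hft hftx
    (fun c' hc' π' hπ' h1 h2 => Hcfe c' hc' π' hπ' h2 h1)
  refine ⟨-n, NodeOut.swap hn, ?_⟩
  rw [neg_neg]
  exact hs

/-- **A place of `κ_∞` off the nodes**: the slope vanishes. -/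
theorem smooth_inf_Mq (P : Place k (modularFunctionFieldFullC k M))
    (D : ASDatum Rs p σ θ ζ)
    (hθ : algebraMap E0 E θ₀' = -∑ d, θ d) {t : Rs}
    (hmax : maximalIdeal Rs = Ideal.span {(p : Rs), t}) (hpp : Prime (p : Rs))
    (hpt : ¬ (p : Rs) ∣ t)
    (F0 : Type*) [Field F0] [Algebra Rs F0] [IsFractionRing Rs F0] [Algebra F0 E0]
    [IsScalarTower Rs F0 E0] [FiniteDimensional F0 E0] (hfin : Module.finrank F0 E0 = p)
    (hG : ∀ g : G, ∃ i : ℕ, i < p ∧ ∀ e : E, g • e = (σ^[i]) e)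
    (hRO : ∀ r : Rs, algebraMap Rs (FL L (M * q)) r ∈ valInfty A π M q hrk hπ hqM)
    (hOp : (valInfty A π M q hrk hπ hqM).valuation (algebraMap Rs (FL L (M * q)) (p : Rs)) < 1)
    (hOt : (valInfty A π M q hrk hπ hqM).valuation (algebraMap Rs (FL L (M * q)) t) = 1)
    (hdense : ∀ x : FL L (M * q), (valInfty A π M q hrk hπ hqM).valuation x = 1 →
      ∃ r1 ∈ (algebraMap Rs (FL L (M * q))).range, ∃ r2 ∈ (algebraMap Rs (FL L (M * q))).range,
      (valInfty A π M q hrk hπ hqM).valuation r1 = 1 ∧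
      (valInfty A π M q hrk hπ hqM).valuation r2 = 1 ∧
      (valInfty A π M q hrk hπ hqM).valuation (x * r2 - r1) < 1)
    (hn3 : ∀ r : Rs, ¬ (p : Rs) ∣ r → ordAt (valInfty A π M q hrk hπ hqM)
      (redSetupInfty H hA).res P (algebraMap Rs (FL L (M * q)) r) = ordQ (p : Rs) t r)
    {x : Pic0 L (FL L (M * q))} {fx : FL L (M * q)} (hfx : IsKummerRep p x fx) {c : L}
    (hc : c ≠ 0) {g : E} (hg : g ≠ 0) {ft : E0} (hft : ft ≠ 0)
    (hftx : algebraMap E0 E ft = algebraMap (FL L (M * q)) E (algebraMap L (FL L (M * q)) c) *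
      algebraMap (FL L (M * q)) E fx * g ^ p)
    (Hcfe : ∀ (c' : Rs) (hc' : (minpoly Rs θ₀').eval c' ∈ maximalIdeal Rs),
      ∀ π' : Embed.Rstar (ET.isIntegral' D hθ) hc', Prime π' →
      ¬ Associated π' ((p : ℕ) : Embed.Rstar (ET.isIntegral' D hθ) hc') →
      ∀ f1 f2 : Embed.Rstar (ET.isIntegral' D hθ) hc', f2 ≠ 0 →
        ft * algebraMap (Embed.Rstar (ET.isIntegral' D hθ) hc') E0 f2 =
          algebraMap (Embed.Rstar (ET.isIntegral' D hθ) hc') E0 f1 →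
      ∀ n1 n2 : ℕ, π' ^ n1 ∣ f1 → ¬ π' ^ (n1 + 1) ∣ f1 → π' ^ n2 ∣ f2 → ¬ π' ^ (n2 + 1) ∣ f2 →
        (p : ℤ) ∣ (n1 : ℤ) - n2) :
    slopeInf H hA p x P = 0 := by
  haveI : CharZero L := algebraRat.charZero L
  have hpL : (p : L) ≠ 0 := Nat.cast_ne_zero.mpr hp.out.ne_zero
  exact smooth_side (G := G) (redSetupInfty H hA) P (flatDataMq H hA hp.out.pos).S₁ D hθ hmax hpp
    hpt hpL F0 hfin hG hRO hOp hOt hdense hn3 hfx hc hg hft hftx Hcfe

/-- **A place of `κ_0` off the nodes**: the slope vanishes. -/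
theorem smooth_zero_Mq (P : Place k (modularFunctionFieldFullC k M))
    (D : ASDatum Rs p σ θ ζ)
    (hθ : algebraMap E0 E θ₀' = -∑ d, θ d) {t : Rs}
    (hmax : maximalIdeal Rs = Ideal.span {(p : Rs), t}) (hpp : Prime (p : Rs))
    (hpt : ¬ (p : Rs) ∣ t)
    (F0 : Type*) [Field F0] [Algebra Rs F0] [IsFractionRing Rs F0] [Algebra F0 E0]
    [IsScalarTower Rs F0 E0] [FiniteDimensional F0 E0] (hfin : Module.finrank F0 E0 = p)
    (hG : ∀ g : G, ∃ i : ℕ, i < p ∧ ∀ e : E, g • e = (σ^[i]) e)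
    (hRO : ∀ r : Rs, algebraMap Rs (FL L (M * q)) r ∈ valZero A π M q hdeg hq hqM hrk hπ)
    (hOp : (valZero A π M q hdeg hq hqM hrk hπ).valuation
      (algebraMap Rs (FL L (M * q)) (p : Rs)) < 1)
    (hOt : (valZero A π M q hdeg hq hqM hrk hπ).valuation (algebraMap Rs (FL L (M * q)) t) = 1)
    (hdense : ∀ x : FL L (M * q), (valZero A π M q hdeg hq hqM hrk hπ).valuation x = 1 →
      ∃ r1 ∈ (algebraMap Rs (FL L (M * q))).range, ∃ r2 ∈ (algebraMap Rs (FL L (M * q))).range,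
      (valZero A π M q hdeg hq hqM hrk hπ).valuation r1 = 1 ∧
      (valZero A π M q hdeg hq hqM hrk hπ).valuation r2 = 1 ∧
      (valZero A π M q hdeg hq hqM hrk hπ).valuation (x * r2 - r1) < 1)
    (hn3 : ∀ r : Rs, ¬ (p : Rs) ∣ r → ordAt (valZero A π M q hdeg hq hqM hrk hπ)
      (redSetupZero H hA).res P (algebraMap Rs (FL L (M * q)) r) = ordQ (p : Rs) t r)
    {x : Pic0 L (FL L (M * q))} {fx : FL L (M * q)} (hfx : IsKummerRep p x fx) {c : L}
    (hc : c ≠ 0) {g : E} (hg : g ≠ 0) {ft : E0} (hft : ft ≠ 0)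
    (hftx : algebraMap E0 E ft = algebraMap (FL L (M * q)) E (algebraMap L (FL L (M * q)) c) *
      algebraMap (FL L (M * q)) E fx * g ^ p)
    (Hcfe : ∀ (c' : Rs) (hc' : (minpoly Rs θ₀').eval c' ∈ maximalIdeal Rs),
      ∀ π' : Embed.Rstar (ET.isIntegral' D hθ) hc', Prime π' →
      ¬ Associated π' ((p : ℕ) : Embed.Rstar (ET.isIntegral' D hθ) hc') →
      ∀ f1 f2 : Embed.Rstar (ET.isIntegral' D hθ) hc', f2 ≠ 0 →
        ft * algebraMap (Embed.Rstar (ET.isIntegral' D hθ) hc') E0 f2 =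
          algebraMap (Embed.Rstar (ET.isIntegral' D hθ) hc') E0 f1 →
      ∀ n1 n2 : ℕ, π' ^ n1 ∣ f1 → ¬ π' ^ (n1 + 1) ∣ f1 → π' ^ n2 ∣ f2 → ¬ π' ^ (n2 + 1) ∣ f2 →
        (p : ℤ) ∣ (n1 : ℤ) - n2) :
    slopeZero H hA p x P = 0 := by
  haveI : CharZero L := algebraRat.charZero L
  have hpL : (p : L) ≠ 0 := Nat.cast_ne_zero.mpr hp.out.ne_zero
  exact smooth_side (G := G) (redSetupZero H hA) P (flatDataMq H hA hp.out.pos).S₂ D hθ hmax hpp
    hpt hpL F0 hfin hG hRO hOp hOt hdense hn3 hfx hc hg hft hftx Hcfe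

end Fermat.Agent.S40x.R2.Asm.PlaceMqB
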