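import Fermat.Agent.S40x.R2.Asm.PlaceB
import Fermat.Agent.S40x.NodeRing.Smooth

/-!
# P-S44, block C3, C3-ASM (helper41): the PER-PLACE seam off the nodes (`c3_flat`)

The analogue of `Asm/PlaceB.node_side` at a place `P` which is NOT a node (smooth points of the
component and cusps): `Rs = R_P` the smooth-point ring (a TYPE: Noetherian local domain,
`m = (p, t)`, `p` prime, `p ∤ t`; helper50's `IsSmoothPtRing`, helper4's `IsNode.of_regPair`),
everything else as in `node_side`.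

`smooth_side` : `slopeAt O₁ O₂ O RS.res p x P = 0`.
-/

set_option autoImplicit false
set_option linter.unusedSectionVars false
set_option linter.style.haveILetI false

namespace Fermat.Agent.S40x.R2.Asm.PlaceSmoothB

open AlgebraicCurve IsLocalRing Polynomial Fermat.Agent.Gateway.Kummer Fermat.Agent.Gateway.C0
  Fermat.Agent.S40x.Slope.SlopeInv Fermat.Agent.S40x.R2.Transitive
  Fermat.Agent.S40x.NodeRing Fermat.Agent.S40x.R2.Slope
  Fermat.Agent.S40x.R2.SlopeB.PlaceInst

variable {L : Type*} [Field L] [IsAlgClosed L] {F : Type*} [Field F] [Algebra L F]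
  [HasPrincipalDivisors L F]
  {k : Type*} [Field k] {Eκ : Type*} [Field Eκ] [Algebra k Eκ]
  {A : ValuationSubring L} {O₁ O₂ O : ValuationSubring F}
variable {Rs E0 E : Type*} [CommRing Rs] [IsDomain Rs] [IsLocalRing Rs] [IsNoetherianRing Rs]
  [IsIntegrallyClosed Rs] [IsAlgClosed (ResidueField Rs)]
  [Field E0] [Algebra Rs E0] [FaithfulSMul Rs E0] [Field E] [Algebra Rs E]
  [Algebra E0 E] [IsScalarTower Rs E0 E] [Algebra Rs F] [Algebra F E] [IsScalarTower Rs F E]
variable {G : Type*} [Group G] [Fintype G] [MulSemiringAction G E] [SMulCommClass G F E]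
  [Algebra.IsInvariant F E G] [FaithfulSMul G E]
variable {p : ℕ} [hp : Fact p.Prime]
  {σ : E →ₐ[Rs] E} {ι : Type*} [Fintype ι] {θ ζ : ι → E} {θ₀' : E0}

/-- **One side, off the nodes**, everything plugged: the slope vanishes. -/
theorem smooth_side (RS : Fermat.Agent.Gateway.C0.RedSetup A O k Eκ) (P : Place k Eκ)
    (hS : SlopeData (L := L) O₁ O₂ O RS.res p)
    -- [ET]
    (D : ASDatum Rs p σ θ ζ)
    (hθ : algebraMap E0 E θ₀' = -∑ d, θ d) {t : Rs}
    (hmax : maximalIdeal Rs = Ideal.span {(p : Rs), t}) (hpp : Prime (p : Rs))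
    (hpt : ¬ (p : Rs) ∣ t) (hpL : (p : L) ≠ 0)
    (F0 : Type*) [Field F0] [Algebra Rs F0] [IsFractionRing Rs F0] [Algebra F0 E0]
    [IsScalarTower Rs F0 E0] [FiniteDimensional F0 E0] (hfin : Module.finrank F0 E0 = p)
    -- the Galois group of `E / F`
    (hG : ∀ g : G, ∃ i : ℕ, i < p ∧ ∀ e : E, g • e = (σ^[i]) e)
    -- [N] downstairs, in `F`
    (hRO : ∀ r : Rs, algebraMap Rs F r ∈ O)
    (hOp : O.valuation (algebraMap Rs F (p : Rs)) < 1) (hOt : O.valuation (algebraMap Rs F t) = 1)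
    (hdense : ∀ x : F, O.valuation x = 1 → ∃ r1 ∈ (algebraMap Rs F).range,
      ∃ r2 ∈ (algebraMap Rs F).range, O.valuation r1 = 1 ∧
      O.valuation r2 = 1 ∧ O.valuation (x * r2 - r1) < 1)
    (hn3 : ∀ r : Rs, ¬ (p : Rs) ∣ r → ordAt O RS.res P (algebraMap Rs F r) = ordQ (p : Rs) t r)
    -- the Kummer functions
    {x : Pic0 L F} {fx : F} (hfx : IsKummerRep p x fx) {c : L} (hc : c ≠ 0) {g : E} (hg : g ≠ 0)
    {ft : E0} (hft : ft ≠ 0)
    (hftx : algebraMap E0 E ft = algebraMap F E (algebraMap L F c) * algebraMap F E fx * g ^ p)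
    -- [CFE], for every root `c'`
    (H : ∀ (c' : Rs) (hc' : (minpoly Rs θ₀').eval c' ∈ maximalIdeal Rs),
      ∀ π : Embed.Rstar (ET.isIntegral' D hθ) hc', Prime π →
      ¬ Associated π ((p : ℕ) : Embed.Rstar (ET.isIntegral' D hθ) hc') →
      ∀ f1 f2 : Embed.Rstar (ET.isIntegral' D hθ) hc', f2 ≠ 0 →
        ft * algebraMap (Embed.Rstar (ET.isIntegral' D hθ) hc') E0 f2 =
          algebraMap (Embed.Rstar (ET.isIntegral' D hθ) hc') E0 f1 →
      ∀ n1 n2 : ℕ, π ^ n1 ∣ f1 → ¬ π ^ (n1 + 1) ∣ f1 → π ^ n2 ∣ f2 → ¬ π ^ (n2 + 1) ∣ f2 →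
        (p : ℤ) ∣ (n1 : ℤ) - n2) :
    slopeAt O₁ O₂ O RS.res p x P = 0 := by
  classical
  have hpm : (p : Rs) ∈ maximalIdeal Rs := by
    rw [hmax]; exact Ideal.subset_span (by simp)
  have h : IsNode (p : Rs) t := IsNode.of_regPair hmax hpp hpt
  obtain ⟨W, hVW⟩ := exists_valuationSubring_over (F := F) (E := E) O
  have hRW : ∀ r : Rs, algebraMap Rs E r ∈ W := fun r => by
    rw [IsScalarTower.algebraMap_apply Rs F E]
    exact (hVW _).mpr (hRO r)
  obtain ⟨c', hc', hle⟩ := ET.exists_le' D hθ (W.comap (algebraMap E0 E)) (fun r => by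
    show algebraMap E0 E (algebraMap Rs E0 r) ∈ W
    rw [← IsScalarTower.algebraMap_apply Rs E0 E]
    exact hRW r)
  set S := Embed.Rstar (ET.isIntegral' D hθ) hc' with hSdef
  haveI : UniqueFactorizationMonoid S := ET.ufm' D hpm hθ h hc'
  haveI : IsFractionRing S E0 := ET.isFractionRing' D hpm hθ hc' F0 hfin
  have hN := ET.isNode' D hpm hθ h hc'
  have hcoe : ∀ r : Rs, algebraMap E0 E (algebraMap S E0 (Embed.inclStar (ET.isIntegral' D hθ) hc' r))
      = algebraMap Rs E r := fun r => by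
    have : algebraMap S E0 (Embed.inclStar (ET.isIntegral' D hθ) hc' r) = algebraMap Rs E0 r :=
      Embed.coe_inclStar (ET.isIntegral' D hθ) hc' r
    rw [this, ← IsScalarTower.algebraMap_apply Rs E0 E]
  have hφW : ∀ r : S, algebraMap E0 E (algebraMap S E0 r) ∈ W := fun r => hle r.2
  have hvπ : W.valuation (algebraMap E0 E (algebraMap S E0
      (Embed.inclStar (ET.isIntegral' D hθ) hc' (p : Rs)))) < 1 := by
    rw [hcoe, IsScalarTower.algebraMap_apply Rs F E]
    exact (Fermat.Agent.S40x.R2.SlopeB.Lift.val_lt_one_iff hVW _).mpr hOp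
  have hvt : W.valuation (algebraMap E0 E (algebraMap S E0
      (Embed.inclStar (ET.isIntegral' D hθ) hc' t))) = 1 := by
    rw [hcoe, IsScalarTower.algebraMap_apply Rs F E]
    exact (Fermat.Agent.S40x.R2.SlopeB.Lift.val_eq_one_iff hVW _).mpr hOt
  have hpW : (p : E) ∈ W.nonunits := by
    rw [ValuationSubring.mem_nonunits_iff]
    have h1 := hvπ
    rw [hcoe, map_natCast] at h1
    exact h1
  have hθmem : θ₀' ∈ S := Embed.theta_mem_Rstar (ET.isIntegral' D hθ) hc'
  have hθn : algebraMap E0 E (algebraMap S E0 ⟨θ₀', hθmem⟩) = -∑ d, θ d := hθ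
  have hθW : ∀ g : G, g • algebraMap E0 E (algebraMap S E0 ⟨θ₀', hθmem⟩) ∈ W := by
    intro g
    obtain ⟨i, _, hi⟩ := hG g
    rw [hi, hθn]
    exact D.iterate_mem W hRW i
  have hθu : ∀ g g' : G, g ≠ g' →
      W.valuation (g • algebraMap E0 E (algebraMap S E0 ⟨θ₀', hθmem⟩) -
        g' • algebraMap E0 E (algebraMap S E0 ⟨θ₀', hθmem⟩)) = 1 := by
    intro g g' hgg'
    obtain ⟨i, hip, hi⟩ := hG g
    obtain ⟨j, hjp, hj⟩ := hG g'
    have hij : i ≠ j := by
      rintro rfl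
      apply hgg'
      apply FaithfulSMul.eq_of_smul_eq_smul (α := E)
      intro e
      rw [hi, hj]
    rw [hi, hj, hθn]
    exact D.valuation_iterate_sub_iterate W hRW hpW hip hjp hij
  have hπc : algebraMap E0 E (algebraMap S E0 (Embed.inclStar (ET.isIntegral' D hθ) hc' (p : Rs))) =
      algebraMap F E (algebraMap L F (p : L)) := by
    rw [hcoe, map_natCast, map_natCast, map_natCast]
  have hnat : Embed.inclStar (ET.isIntegral' D hθ) hc' (p : Rs) = ((p : ℕ) : S) := map_natCast _ p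
  exact smooth_slope_nodeOrd (G := G) RS P hS hmax hpp hpt (algebraMap Rs F) hdense hn3
    hVW (algebraMap E0 E) hN.max_eq hN.prime_z hN.not_dvd hφW hvπ hvt
    (Embed.inclStar (ET.isIntegral' D hθ) hc') rfl rfl
    (fun r => by rw [hcoe, IsScalarTower.algebraMap_apply Rs F E])
    (θn := ⟨θ₀', hθmem⟩) hθW hθu hpL hπc hfx hc hg hft hftx
    (fun π hπ hna => H c' hc' π hπ (by rw [← hnat]; exact hna))

end Fermat.Agent.S40x.R2.Asm.PlaceSmoothB
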