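import Fermat.Agent.S40x.R2.Slope.NodeGlue
import Fermat.Agent.S40x.Geo.Vocab

/-!
# P-S44, block C3, sub-assembly (S) SLOPE of `S44-IFACE-C3-ASM v2` (helper12)

The slope rule `hsl` of `Asm.node_slope_eq` / `Asm.smooth_slope_eq_zero` /
`AsmNode.NodeOver.slope_eq` / `AsmNode.c3_pair` for `n :=` THE slope of the class `x` at a place of
the special fibre, in three layers:

* ABSTRACT (`hsl_node_nodeOrd`, `hsl_smooth_nodeOrd`): the `hsl`-form of helper41's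
  `Slope/NodeGlue.node_slope_nodeOrd` / `smooth_slope_nodeOrd` (order function `nodeOrd` plugged
  into `SlopeB/AsmAdapter.hsl_node` / `hsl_smooth`); no UFD hypothesis, no `H`.
  `hsl_node_nodeOrd_swap`: the same with the roles of the two branches exchanged, restated in the
  STANDARD order of the factorisation (`ft = ε u^A u'^B (g1/g2)^p ⟹ n = A - B`): the `0`-side twin.
* LEVEL `M q` (`hsl_inf_node_Mq`, `hsl_zero_node_Mq`, `hsl_inf_smooth_Mq`, `hsl_zero_smooth_Mq`):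
  `n := InstMq.slopeInf H hA p x P` resp. `slopeZero`, `O := valInfty` resp. `valZero`.
* `ℚ̄`-INSTANCE (`hsl_inf_node_Qb`, ...): `n := Geo/Vocab.slopeInfQb .. x P` resp. `slopeZeroQb`.
-/

set_option autoImplicit false
set_option linter.unusedSectionVars false
set_option linter.style.haveILetI false

namespace Fermat.Agent.S40x.R2.Asm.SlopeInst

open AlgebraicCurve IsLocalRing Fermat.Agent.Gateway.Kummer Fermat.Agent.Gateway.C0
  Fermat.Agent.S40x.Slope.SlopeInv Fermat.Agent.S40x.R2.Transitive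
  Fermat.Agent.S40x.R2.SlopeB.Side Fermat.Agent.S40x.R2.SlopeB.Main
  Fermat.Agent.S40x.R2.SlopeB.PlaceInst Fermat.Agent.S40x.R2.SlopeB.Lift
  Fermat.Agent.S40x.R2.SlopeB.AsmAdapter Fermat.Agent.S40x.R2.Slope

section Abstract

variable {L : Type*} [Field L] [IsAlgClosed L] {F : Type*} [Field F] [Algebra L F]
  [HasPrincipalDivisors L F]
  {k : Type*} [Field k] {Eκ : Type*} [Field Eκ] [Algebra k Eκ]
  {A : ValuationSubring L} {O₁ O₂ O : ValuationSubring F}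
variable {E : Type*} [Field E] [Algebra F E] {W : ValuationSubring E}
variable {G : Type*} [Group G] [Fintype G] [MulSemiringAction G E] [SMulCommClass G F E]
  [Algebra.IsInvariant F E G]
variable {E0 : Type*} [Field E0] {Rn : Type*} [CommRing Rn] [IsDomain Rn]
  [IsNoetherianRing Rn] [IsLocalRing Rn] [Algebra Rn E0] [IsFractionRing Rn E0]
variable {R₀ : Type*} [CommRing R₀] [IsDomain R₀] [IsNoetherianRing R₀] [IsLocalRing R₀]

/-- **the slope rule at a node**, order function plugged: `z` the branch parameter vanishing on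
the component under consideration (`z ∈ 𝔪_W`), `z'` the other one (a unit of `W`, uniformiser of
the reduction at `P`). -/
theorem hsl_node_nodeOrd (R : Fermat.Agent.Gateway.C0.RedSetup A O k Eκ) (P : Place k Eκ) {p : ℕ}
    (hS : SlopeData (L := L) O₁ O₂ O R.res p)
    -- the node ring downstairs
    {z₀ z₀' : R₀} (hmax₀ : maximalIdeal R₀ = Ideal.span {z₀, z₀'}) (hz₀ : Prime z₀)
    (hndvd₀ : ¬ z₀ ∣ z₀') (φ₀ : R₀ →+* F)
    (hdense : ∀ x : F, O.valuation x = 1 → ∃ r1 ∈ φ₀.range, ∃ r2 ∈ φ₀.range, O.valuation r1 = 1 ∧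
      O.valuation r2 = 1 ∧ O.valuation (x * r2 - r1) < 1)
    (hn3 : ∀ r : R₀, ¬ z₀ ∣ r → ordAt O R.res P (φ₀ r) = ordQ z₀ z₀' r)
    -- upstairs
    (hVW : ∀ e : F, algebraMap F E e ∈ W ↔ e ∈ O)
    (ι : E0 →+* E) {z z' : Rn} (hmaxn : maximalIdeal Rn = Ideal.span {z, z'})
    (hz : Prime z) (hndvd : ¬ z ∣ z')
    (hφW : ∀ r : Rn, ι (algebraMap Rn E0 r) ∈ W)
    (hvz : W.valuation (ι (algebraMap Rn E0 z)) < 1)
    (hvz' : W.valuation (ι (algebraMap Rn E0 z')) = 1)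
    (ψ : R₀ →+* Rn) (hψz : ψ z₀ = z) (hψz' : ψ z₀' = z')
    (hcomp : ∀ r : R₀, algebraMap F E (φ₀ r) = ι (algebraMap Rn E0 (ψ r)))
    {θn : Rn} (hθ : ∀ g : G, g • ι (algebraMap Rn E0 θn) ∈ W)
    (hθu : ∀ g g' : G, g ≠ g' →
      W.valuation (g • ι (algebraMap Rn E0 θn) - g' • ι (algebraMap Rn E0 θn)) = 1)
    {Ψ : Rnˣ} {c₀ : L} (hc₀ : c₀ ≠ 0)
    (hrel : ι (algebraMap Rn E0 (z * z')) =
      algebraMap F E (algebraMap L F c₀) * ι (algebraMap Rn E0 Ψ))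
    -- the Kummer functions
    {x : Pic0 L F} {fx : F} (hfx : IsKummerRep p x fx) {c : L} (hc : c ≠ 0) {g : E} (hg : g ≠ 0)
    {ft : E0}
    (hftx : ι ft = algebraMap F E (algebraMap L F c) * algebraMap F E fx * g ^ p) :
    ∀ (A B : ℤ) (ε : Rnˣ) (g1 g2 : Rn), ¬ z ∣ g1 → ¬ z' ∣ g1 → ¬ z ∣ g2 → ¬ z' ∣ g2 →
      ft = algebraMap Rn E0 ε * algebraMap Rn E0 z ^ A * algebraMap Rn E0 z' ^ B *
        (algebraMap Rn E0 g1 / algebraMap Rn E0 g2) ^ p →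
      slopeAt O₁ O₂ O R.res p x P = ((B - A : ℤ) : ZMod p) := by
  set φ : Rn →+* E := ι.comp (algebraMap Rn E0) with hφdef
  have hφinj : Function.Injective φ := ι.injective.comp (IsFractionRing.injective Rn E0)
  have hφapp : ∀ r : Rn, φ r = ι (algebraMap Rn E0 r) := fun _ => rfl
  have hle : ∀ r : Rn, W.valuation (φ r) ≤ 1 := fun r =>
    (ValuationSubring.valuation_le_one_iff W _).mpr (hφW r)
  -- units of `O` in `φ₀ R₀` come from elements prime to `z₀`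
  have hprime : ∀ r₀ : R₀, O.valuation (φ₀ r₀) = 1 → ¬ z₀ ∣ r₀ := by
    intro r₀ h1 hd
    have hd' : z ∣ ψ r₀ := by
      rw [← hψz]
      exact map_dvd ψ hd
    have h2 := (Fermat.Agent.S40x.R2.Slope.val_lt_one_iff hmaxn hz hndvd φ W.valuation hle hvz hvz'
      (ψ r₀)).mpr hd'
    rw [hφapp, ← hcomp] at h2
    have h3 := (Fermat.Agent.S40x.R2.SlopeB.Lift.val_lt_one_iff hVW (φ₀ r₀)).mp h2
    rw [h1] at h3
    exact lt_irrefl _ h3
  have hRs : ∀ r ∈ φ₀.range, algebraMap F E r ∈ φ.range := by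
    rintro _ ⟨r₀, rfl⟩
    exact ⟨ψ r₀, (hcomp r₀).symm⟩
  have hoo : ∀ r ∈ φ₀.range, O.valuation r = 1 →
      nodeOrd φ z z' (algebraMap F E r) = ordAt O R.res P r := by
    rintro _ ⟨r₀, rfl⟩ h1
    have hr₀ := hprime r₀ h1
    rw [hcomp, ← hφapp, nodeOrd_apply φ hφinj,
      ordQ_map hmax₀ hz₀ hndvd₀ hmaxn hz hndvd ψ hψz hψz' hr₀, hn3 r₀ hr₀]
  have hs : SideDatum (algebraMap L F) O φ₀.range (ordAt O R.res P) :=
    sideDatum_of_redSetup R P φ₀.range hdense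
  have hD : SideDatum ((algebraMap F E).comp (algebraMap L F)) W φ.range (nodeOrd φ z z') :=
    sideDatum_upstairs (G := G) (algebraMap L F) hVW hs hRs hoo
      (nodeOrd_mul hmaxn hz hndvd φ hφinj W.valuation hle hvz hvz')
      (fun r hr r' hr' _ _ hlt =>
        nodeOrd_congr hmaxn hz hndvd φ hφinj W.valuation hle hvz hvz' r hr r' hr' hlt)
      (θ := ι (algebraMap Rn E0 θn)) ⟨θn, rfl⟩ hθ hθu
  rw [slopeAt_eq_slope hS hs hfx]
  exact hsl_node (algebraMap L F) hVW hs hD hRs hoo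
    (by rintro _ ⟨r, rfl⟩; exact hφW r) (fun r _ _ => nodeOrd_nonneg φ z z' r) ι
    (IsFractionRing.injective Rn E0) (fun r => ⟨r, rfl⟩) hc₀ hz.ne_zero hvz'
    (nodeOrd_z' hmaxn hz hndvd φ hφinj) hrel hfx.ne_zero hc hg hftx

/-- **the `0`-side twin**: the slope rule at a node for the OTHER component, i.e. the roles of the
two branch parameters exchanged (`u' ∈ 𝔪_W`, `u` a unit of `W`), restated for the factorisation in
the standard order: `ft = ε u^A u'^B (g1/g2)^p ⟹ slope = A - B`. -/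
theorem hsl_node_nodeOrd_swap (R : Fermat.Agent.Gateway.C0.RedSetup A O k Eκ) (P : Place k Eκ)
    {p : ℕ} (hS : SlopeData (L := L) O₁ O₂ O R.res p)
    {u₀ u₀' : R₀} (hmax₀ : maximalIdeal R₀ = Ideal.span {u₀, u₀'}) (hu₀' : Prime u₀')
    (hndvd₀ : ¬ u₀' ∣ u₀) (φ₀ : R₀ →+* F)
    (hdense : ∀ x : F, O.valuation x = 1 → ∃ r1 ∈ φ₀.range, ∃ r2 ∈ φ₀.range, O.valuation r1 = 1 ∧
      O.valuation r2 = 1 ∧ O.valuation (x * r2 - r1) < 1)
    (hn3 : ∀ r : R₀, ¬ u₀' ∣ r → ordAt O R.res P (φ₀ r) = ordQ u₀' u₀ r)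
    (hVW : ∀ e : F, algebraMap F E e ∈ W ↔ e ∈ O)
    (ι : E0 →+* E) {u u' : Rn} (hmaxn : maximalIdeal Rn = Ideal.span {u, u'})
    (hu' : Prime u') (hndvd : ¬ u' ∣ u)
    (hφW : ∀ r : Rn, ι (algebraMap Rn E0 r) ∈ W)
    (hvu' : W.valuation (ι (algebraMap Rn E0 u')) < 1)
    (hvu : W.valuation (ι (algebraMap Rn E0 u)) = 1)
    (ψ : R₀ →+* Rn) (hψu : ψ u₀ = u) (hψu' : ψ u₀' = u')
    (hcomp : ∀ r : R₀, algebraMap F E (φ₀ r) = ι (algebraMap Rn E0 (ψ r)))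
    {θn : Rn} (hθ : ∀ g : G, g • ι (algebraMap Rn E0 θn) ∈ W)
    (hθu : ∀ g g' : G, g ≠ g' →
      W.valuation (g • ι (algebraMap Rn E0 θn) - g' • ι (algebraMap Rn E0 θn)) = 1)
    {Ψ : Rnˣ} {c₀ : L} (hc₀ : c₀ ≠ 0)
    (hrel : ι (algebraMap Rn E0 (u * u')) =
      algebraMap F E (algebraMap L F c₀) * ι (algebraMap Rn E0 Ψ))
    {x : Pic0 L F} {fx : F} (hfx : IsKummerRep p x fx) {c : L} (hc : c ≠ 0) {g : E} (hg : g ≠ 0)
    {ft : E0}
    (hftx : ι ft = algebraMap F E (algebraMap L F c) * algebraMap F E fx * g ^ p) :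
    ∀ (A B : ℤ) (ε : Rnˣ) (g1 g2 : Rn), ¬ u ∣ g1 → ¬ u' ∣ g1 → ¬ u ∣ g2 → ¬ u' ∣ g2 →
      ft = algebraMap Rn E0 ε * algebraMap Rn E0 u ^ A * algebraMap Rn E0 u' ^ B *
        (algebraMap Rn E0 g1 / algebraMap Rn E0 g2) ^ p →
      slopeAt O₁ O₂ O R.res p x P = ((A - B : ℤ) : ZMod p) := by
  intro A B ε g1 g2 h1 h1' h2 h2' hfact
  have hmax₀' : maximalIdeal R₀ = Ideal.span {u₀', u₀} := by rw [hmax₀, Set.pair_comm]
  have hmaxn' : maximalIdeal Rn = Ideal.span {u', u} := by rw [hmaxn, Set.pair_comm]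
  have hrel' : ι (algebraMap Rn E0 (u' * u)) =
      algebraMap F E (algebraMap L F c₀) * ι (algebraMap Rn E0 Ψ) := by rw [mul_comm, hrel]
  refine hsl_node_nodeOrd (G := G) R P hS hmax₀' hu₀' hndvd₀ φ₀ hdense hn3 hVW ι hmaxn' hu' hndvd
    hφW hvu' hvu ψ hψu' hψu hcomp hθ hθu hc₀ hrel' hfx hc hg hftx B A ε g1 g2 h1' h1 h2' h2 ?_
  rw [hfact]
  ring

/-- **the slope rule at a smooth point (or cusp)**, order function plugged: `π` the vertical prime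
(a constant, in the application `p`), `t` a unit of `W` reducing to a uniformiser at `P`. -/
theorem hsl_smooth_nodeOrd (R : Fermat.Agent.Gateway.C0.RedSetup A O k Eκ) (P : Place k Eκ)
    {p : ℕ} (hS : SlopeData (L := L) O₁ O₂ O R.res p)
    {π₀ t₀ : R₀} (hmax₀ : maximalIdeal R₀ = Ideal.span {π₀, t₀}) (hπ₀ : Prime π₀)
    (hndvd₀ : ¬ π₀ ∣ t₀) (φ₀ : R₀ →+* F)
    (hdense : ∀ x : F, O.valuation x = 1 → ∃ r1 ∈ φ₀.range, ∃ r2 ∈ φ₀.range, O.valuation r1 = 1 ∧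
      O.valuation r2 = 1 ∧ O.valuation (x * r2 - r1) < 1)
    (hn3 : ∀ r : R₀, ¬ π₀ ∣ r → ordAt O R.res P (φ₀ r) = ordQ π₀ t₀ r)
    (hVW : ∀ e : F, algebraMap F E e ∈ W ↔ e ∈ O)
    (ι : E0 →+* E) {π t : Rn} (hmaxn : maximalIdeal Rn = Ideal.span {π, t})
    (hπ : Prime π) (hndvd : ¬ π ∣ t)
    (hφW : ∀ r : Rn, ι (algebraMap Rn E0 r) ∈ W)
    (hvπ : W.valuation (ι (algebraMap Rn E0 π)) < 1)
    (hvt : W.valuation (ι (algebraMap Rn E0 t)) = 1)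
    (ψ : R₀ →+* Rn) (hψπ : ψ π₀ = π) (hψt : ψ t₀ = t)
    (hcomp : ∀ r : R₀, algebraMap F E (φ₀ r) = ι (algebraMap Rn E0 (ψ r)))
    {θn : Rn} (hθ : ∀ g : G, g • ι (algebraMap Rn E0 θn) ∈ W)
    (hθu : ∀ g g' : G, g ≠ g' →
      W.valuation (g • ι (algebraMap Rn E0 θn) - g' • ι (algebraMap Rn E0 θn)) = 1)
    {c₀ : L} (hc₀ : c₀ ≠ 0)
    (hπc : ι (algebraMap Rn E0 π) = algebraMap F E (algebraMap L F c₀))
    {x : Pic0 L F} {fx : F} (hfx : IsKummerRep p x fx) {c : L} (hc : c ≠ 0) {g : E} (hg : g ≠ 0)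
    {ft : E0}
    (hftx : ι ft = algebraMap F E (algebraMap L F c) * algebraMap F E fx * g ^ p) :
    ∀ (A : ℤ) (ε : Rnˣ) (g1 g2 : Rn), ¬ π ∣ g1 → ¬ π ∣ g2 →
      ft = algebraMap Rn E0 ε * algebraMap Rn E0 π ^ A *
        (algebraMap Rn E0 g1 / algebraMap Rn E0 g2) ^ p →
      slopeAt O₁ O₂ O R.res p x P = 0 := by
  set φ : Rn →+* E := ι.comp (algebraMap Rn E0) with hφdef
  have hφinj : Function.Injective φ := ι.injective.comp (IsFractionRing.injective Rn E0)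
  have hφapp : ∀ r : Rn, φ r = ι (algebraMap Rn E0 r) := fun _ => rfl
  have hle : ∀ r : Rn, W.valuation (φ r) ≤ 1 := fun r =>
    (ValuationSubring.valuation_le_one_iff W _).mpr (hφW r)
  have hprime : ∀ r₀ : R₀, O.valuation (φ₀ r₀) = 1 → ¬ π₀ ∣ r₀ := by
    intro r₀ h1 hd
    have hd' : π ∣ ψ r₀ := by
      rw [← hψπ]
      exact map_dvd ψ hd
    have h2 := (Fermat.Agent.S40x.R2.Slope.val_lt_one_iff hmaxn hπ hndvd φ W.valuation hle hvπ hvt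
      (ψ r₀)).mpr hd'
    rw [hφapp, ← hcomp] at h2
    have h3 := (Fermat.Agent.S40x.R2.SlopeB.Lift.val_lt_one_iff hVW (φ₀ r₀)).mp h2
    rw [h1] at h3
    exact lt_irrefl _ h3
  have hRs : ∀ r ∈ φ₀.range, algebraMap F E r ∈ φ.range := by
    rintro _ ⟨r₀, rfl⟩
    exact ⟨ψ r₀, (hcomp r₀).symm⟩
  have hoo : ∀ r ∈ φ₀.range, O.valuation r = 1 →
      nodeOrd φ π t (algebraMap F E r) = ordAt O R.res P r := by
    rintro _ ⟨r₀, rfl⟩ h1
    have hr₀ := hprime r₀ h1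
    rw [hcomp, ← hφapp, nodeOrd_apply φ hφinj,
      ordQ_map hmax₀ hπ₀ hndvd₀ hmaxn hπ hndvd ψ hψπ hψt hr₀, hn3 r₀ hr₀]
  have hs : SideDatum (algebraMap L F) O φ₀.range (ordAt O R.res P) :=
    sideDatum_of_redSetup R P φ₀.range hdense
  have hD : SideDatum ((algebraMap F E).comp (algebraMap L F)) W φ.range (nodeOrd φ π t) :=
    sideDatum_upstairs (G := G) (algebraMap L F) hVW hs hRs hoo
      (nodeOrd_mul hmaxn hπ hndvd φ hφinj W.valuation hle hvπ hvt)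
      (fun r hr r' hr' _ _ hlt =>
        nodeOrd_congr hmaxn hπ hndvd φ hφinj W.valuation hle hvπ hvt r hr r' hr' hlt)
      (θ := ι (algebraMap Rn E0 θn)) ⟨θn, rfl⟩ hθ hθu
  rw [slopeAt_eq_slope hS hs hfx]
  exact hsl_smooth (algebraMap L F) hVW hs hD hRs hoo
    (by rintro _ ⟨r, rfl⟩; exact hφW r) (fun r _ _ => nodeOrd_nonneg φ π t r) ι
    (IsFractionRing.injective Rn E0) (fun r => ⟨r, rfl⟩) hc₀ hπc hfx.ne_zero hc hg hftx

end Abstract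

/-! ### Level `M q` -/

section LevelMq

open ModularCurve IntermediateField
open Fermat.Agent.Gateway.Hecke Fermat.Agent.Gateway.ESC
open Fermat.Agent.Gateway.Red Fermat.Agent.Gateway.GoodRed
open Fermat.Agent.S34x.TwoVal Fermat.Agent.S34x.C0two
open Fermat.Agent.S34x.Inst.RedSetupInst Fermat.Agent.S34x.Inst
open Fermat.Agent.S33x.KummerPn
open Fermat.Agent.S40x.Slope.InstMq

variable {L : Type} [Field L] [Algebra ℚ L] [IsAlgClosed L] [Algebra.IsAlgebraic ℚ L]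
  {A : ValuationSubring L}
  {k : Type} [Field k] {π : A →+* k} [IsAlgClosed k]
variable {M q : ℕ} [NeZero M] [NeZero q] [Fact q.Prime] [CharP k q]
variable {hdeg : finrankAlong L (heckeAlphaBar L M q) = q + 1} {hq : q.Prime} {hqM : ¬ q ∣ M}
variable {hrk : ∀ x ∈ maximalIdeal A, ∀ c : A, c ≠ 0 → ∃ j : ℕ, c ∣ x ^ j}
  {hπ : Function.Surjective π}
variable (H : ResidueFacts A π M q hdeg hq hqM hrk hπ) (hA : A.LiesOverPrime q)
variable {E : Type*} [Field E] [Algebra (FL L (M * q)) E] {W : ValuationSubring E}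
variable {G : Type*} [Group G] [Fintype G] [MulSemiringAction G E]
  [SMulCommClass G (FL L (M * q)) E] [Algebra.IsInvariant (FL L (M * q)) E G]
variable {E0 : Type*} [Field E0] {Rn : Type*} [CommRing Rn] [IsDomain Rn]
  [IsNoetherianRing Rn] [IsLocalRing Rn] [Algebra Rn E0] [IsFractionRing Rn E0]
variable {R₀ : Type*} [CommRing R₀] [IsDomain R₀] [IsNoetherianRing R₀] [IsLocalRing R₀]

/-- **(S), node, `∞`-side, level `M q`**: the slope rule `hsl` for `n := slopeInf H hA p x P`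
(`u ∈ 𝔪_W`, `u'` a unit of `W`; `W` over `valInfty`). -/
theorem hsl_inf_node_Mq {p : ℕ} (hp : 0 < p) (P : Place k (modularFunctionFieldFullC k M))
    {u₀ u₀' : R₀} (hmax₀ : maximalIdeal R₀ = Ideal.span {u₀, u₀'}) (hu₀ : Prime u₀)
    (hndvd₀ : ¬ u₀ ∣ u₀') (φ₀ : R₀ →+* FL L (M * q))
    (hdense : ∀ x : FL L (M * q), (valInfty A π M q hrk hπ hqM).valuation x = 1 →
      ∃ r1 ∈ φ₀.range, ∃ r2 ∈ φ₀.range, (valInfty A π M q hrk hπ hqM).valuation r1 = 1 ∧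
        (valInfty A π M q hrk hπ hqM).valuation r2 = 1 ∧
        (valInfty A π M q hrk hπ hqM).valuation (x * r2 - r1) < 1)
    (hn3 : ∀ r : R₀, ¬ u₀ ∣ r →
      ordAt (valInfty A π M q hrk hπ hqM) (redSetupInfty H hA).res P (φ₀ r) = ordQ u₀ u₀' r)
    (hVW : ∀ e : FL L (M * q), algebraMap (FL L (M * q)) E e ∈ W ↔
      e ∈ valInfty A π M q hrk hπ hqM)
    (ι : E0 →+* E) {u u' : Rn} (hmaxn : maximalIdeal Rn = Ideal.span {u, u'})
    (hu : Prime u) (hndvd : ¬ u ∣ u')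
    (hφW : ∀ r : Rn, ι (algebraMap Rn E0 r) ∈ W)
    (hvu : W.valuation (ι (algebraMap Rn E0 u)) < 1)
    (hvu' : W.valuation (ι (algebraMap Rn E0 u')) = 1)
    (ψ : R₀ →+* Rn) (hψu : ψ u₀ = u) (hψu' : ψ u₀' = u')
    (hcomp : ∀ r : R₀, algebraMap (FL L (M * q)) E (φ₀ r) = ι (algebraMap Rn E0 (ψ r)))
    {θn : Rn} (hθ : ∀ g : G, g • ι (algebraMap Rn E0 θn) ∈ W)
    (hθu : ∀ g g' : G, g ≠ g' →
      W.valuation (g • ι (algebraMap Rn E0 θn) - g' • ι (algebraMap Rn E0 θn)) = 1)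
    {Ψ : Rnˣ} {c₀ : L} (hc₀ : c₀ ≠ 0)
    (hrel : ι (algebraMap Rn E0 (u * u')) =
      algebraMap (FL L (M * q)) E (algebraMap L (FL L (M * q)) c₀) * ι (algebraMap Rn E0 Ψ))
    {x : Pic0 L (FL L (M * q))} {fx : FL L (M * q)} (hfx : IsKummerRep p x fx) {c : L}
    (hc : c ≠ 0) {g : E} (hg : g ≠ 0) {ft : E0}
    (hftx : ι ft = algebraMap (FL L (M * q)) E (algebraMap L (FL L (M * q)) c) *
      algebraMap (FL L (M * q)) E fx * g ^ p) :
    ∀ (A' B' : ℤ) (ε : Rnˣ) (g1 g2 : Rn), ¬ u ∣ g1 → ¬ u' ∣ g1 → ¬ u ∣ g2 → ¬ u' ∣ g2 →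
      ft = algebraMap Rn E0 ε * algebraMap Rn E0 u ^ A' * algebraMap Rn E0 u' ^ B' *
        (algebraMap Rn E0 g1 / algebraMap Rn E0 g2) ^ p →
      slopeInf H hA p x P = ((B' - A' : ℤ) : ZMod p) :=
  hsl_node_nodeOrd (G := G) (redSetupInfty H hA) P (flatDataMq H hA hp).S₁ hmax₀ hu₀ hndvd₀ φ₀
    hdense hn3 hVW ι hmaxn hu hndvd hφW hvu hvu' ψ hψu hψu' hcomp hθ hθu hc₀ hrel hfx hc hg hftx

/-- **(S), node, `0`-side twin, level `M q`**: the slope rule for `n := slopeZero H hA p x P`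
(`u' ∈ 𝔪_W`, `u` a unit of `W`; `W` over `valZero`), factorisation in the STANDARD order:
`ft = ε u^A u'^B (g1/g2)^p ⟹ slopeZero = A - B`. -/
theorem hsl_zero_node_Mq {p : ℕ} (hp : 0 < p) (P : Place k (modularFunctionFieldFullC k M))
    {u₀ u₀' : R₀} (hmax₀ : maximalIdeal R₀ = Ideal.span {u₀, u₀'}) (hu₀' : Prime u₀')
    (hndvd₀ : ¬ u₀' ∣ u₀) (φ₀ : R₀ →+* FL L (M * q))
    (hdense : ∀ x : FL L (M * q), (valZero A π M q hdeg hq hqM hrk hπ).valuation x = 1 →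
      ∃ r1 ∈ φ₀.range, ∃ r2 ∈ φ₀.range, (valZero A π M q hdeg hq hqM hrk hπ).valuation r1 = 1 ∧
        (valZero A π M q hdeg hq hqM hrk hπ).valuation r2 = 1 ∧
        (valZero A π M q hdeg hq hqM hrk hπ).valuation (x * r2 - r1) < 1)
    (hn3 : ∀ r : R₀, ¬ u₀' ∣ r →
      ordAt (valZero A π M q hdeg hq hqM hrk hπ) (redSetupZero H hA).res P (φ₀ r) =
        ordQ u₀' u₀ r)
    (hVW : ∀ e : FL L (M * q), algebraMap (FL L (M * q)) E e ∈ W ↔
      e ∈ valZero A π M q hdeg hq hqM hrk hπ)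
    (ι : E0 →+* E) {u u' : Rn} (hmaxn : maximalIdeal Rn = Ideal.span {u, u'})
    (hu' : Prime u') (hndvd : ¬ u' ∣ u)
    (hφW : ∀ r : Rn, ι (algebraMap Rn E0 r) ∈ W)
    (hvu' : W.valuation (ι (algebraMap Rn E0 u')) < 1)
    (hvu : W.valuation (ι (algebraMap Rn E0 u)) = 1)
    (ψ : R₀ →+* Rn) (hψu : ψ u₀ = u) (hψu' : ψ u₀' = u')
    (hcomp : ∀ r : R₀, algebraMap (FL L (M * q)) E (φ₀ r) = ι (algebraMap Rn E0 (ψ r)))
    {θn : Rn} (hθ : ∀ g : G, g • ι (algebraMap Rn E0 θn) ∈ W)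
    (hθu : ∀ g g' : G, g ≠ g' →
      W.valuation (g • ι (algebraMap Rn E0 θn) - g' • ι (algebraMap Rn E0 θn)) = 1)
    {Ψ : Rnˣ} {c₀ : L} (hc₀ : c₀ ≠ 0)
    (hrel : ι (algebraMap Rn E0 (u * u')) =
      algebraMap (FL L (M * q)) E (algebraMap L (FL L (M * q)) c₀) * ι (algebraMap Rn E0 Ψ))
    {x : Pic0 L (FL L (M * q))} {fx : FL L (M * q)} (hfx : IsKummerRep p x fx) {c : L}
    (hc : c ≠ 0) {g : E} (hg : g ≠ 0) {ft : E0}
    (hftx : ι ft = algebraMap (FL L (M * q)) E (algebraMap L (FL L (M * q)) c) *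
      algebraMap (FL L (M * q)) E fx * g ^ p) :
    ∀ (A' B' : ℤ) (ε : Rnˣ) (g1 g2 : Rn), ¬ u ∣ g1 → ¬ u' ∣ g1 → ¬ u ∣ g2 → ¬ u' ∣ g2 →
      ft = algebraMap Rn E0 ε * algebraMap Rn E0 u ^ A' * algebraMap Rn E0 u' ^ B' *
        (algebraMap Rn E0 g1 / algebraMap Rn E0 g2) ^ p →
      slopeZero H hA p x P = ((A' - B' : ℤ) : ZMod p) :=
  hsl_node_nodeOrd_swap (G := G) (redSetupZero H hA) P (flatDataMq H hA hp).S₂ hmax₀ hu₀' hndvd₀
    φ₀ hdense hn3 hVW ι hmaxn hu' hndvd hφW hvu' hvu ψ hψu hψu' hcomp hθ hθu hc₀ hrel hfx hc hg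
    hftx

/-- **(S), smooth point or cusp, `∞`-side, level `M q`**: conclusion `slopeInf = 0`. -/
theorem hsl_inf_smooth_Mq {p : ℕ} (hp : 0 < p) (P : Place k (modularFunctionFieldFullC k M))
    {π₀ t₀ : R₀} (hmax₀ : maximalIdeal R₀ = Ideal.span {π₀, t₀}) (hπ₀ : Prime π₀)
    (hndvd₀ : ¬ π₀ ∣ t₀) (φ₀ : R₀ →+* FL L (M * q))
    (hdense : ∀ x : FL L (M * q), (valInfty A π M q hrk hπ hqM).valuation x = 1 →
      ∃ r1 ∈ φ₀.range, ∃ r2 ∈ φ₀.range, (valInfty A π M q hrk hπ hqM).valuation r1 = 1 ∧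
        (valInfty A π M q hrk hπ hqM).valuation r2 = 1 ∧
        (valInfty A π M q hrk hπ hqM).valuation (x * r2 - r1) < 1)
    (hn3 : ∀ r : R₀, ¬ π₀ ∣ r →
      ordAt (valInfty A π M q hrk hπ hqM) (redSetupInfty H hA).res P (φ₀ r) = ordQ π₀ t₀ r)
    (hVW : ∀ e : FL L (M * q), algebraMap (FL L (M * q)) E e ∈ W ↔
      e ∈ valInfty A π M q hrk hπ hqM)
    (ι : E0 →+* E) {π' t : Rn} (hmaxn : maximalIdeal Rn = Ideal.span {π', t})
    (hπ' : Prime π') (hndvd : ¬ π' ∣ t)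
    (hφW : ∀ r : Rn, ι (algebraMap Rn E0 r) ∈ W)
    (hvπ : W.valuation (ι (algebraMap Rn E0 π')) < 1)
    (hvt : W.valuation (ι (algebraMap Rn E0 t)) = 1)
    (ψ : R₀ →+* Rn) (hψπ : ψ π₀ = π') (hψt : ψ t₀ = t)
    (hcomp : ∀ r : R₀, algebraMap (FL L (M * q)) E (φ₀ r) = ι (algebraMap Rn E0 (ψ r)))
    {θn : Rn} (hθ : ∀ g : G, g • ι (algebraMap Rn E0 θn) ∈ W)
    (hθu : ∀ g g' : G, g ≠ g' →
      W.valuation (g • ι (algebraMap Rn E0 θn) - g' • ι (algebraMap Rn E0 θn)) = 1)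
    {c₀ : L} (hc₀ : c₀ ≠ 0)
    (hπc : ι (algebraMap Rn E0 π') =
      algebraMap (FL L (M * q)) E (algebraMap L (FL L (M * q)) c₀))
    {x : Pic0 L (FL L (M * q))} {fx : FL L (M * q)} (hfx : IsKummerRep p x fx) {c : L}
    (hc : c ≠ 0) {g : E} (hg : g ≠ 0) {ft : E0}
    (hftx : ι ft = algebraMap (FL L (M * q)) E (algebraMap L (FL L (M * q)) c) *
      algebraMap (FL L (M * q)) E fx * g ^ p) :
    ∀ (A' : ℤ) (ε : Rnˣ) (g1 g2 : Rn), ¬ π' ∣ g1 → ¬ π' ∣ g2 →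
      ft = algebraMap Rn E0 ε * algebraMap Rn E0 π' ^ A' *
        (algebraMap Rn E0 g1 / algebraMap Rn E0 g2) ^ p →
      slopeInf H hA p x P = 0 :=
  hsl_smooth_nodeOrd (G := G) (redSetupInfty H hA) P (flatDataMq H hA hp).S₁ hmax₀ hπ₀ hndvd₀ φ₀
    hdense hn3 hVW ι hmaxn hπ' hndvd hφW hvπ hvt ψ hψπ hψt hcomp hθ hθu hc₀ hπc hfx hc hg hftx

/-- **(S), smooth point or cusp, `0`-side, level `M q`**: conclusion `slopeZero = 0`. -/
theorem hsl_zero_smooth_Mq {p : ℕ} (hp : 0 < p) (P : Place k (modularFunctionFieldFullC k M))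
    {π₀ t₀ : R₀} (hmax₀ : maximalIdeal R₀ = Ideal.span {π₀, t₀}) (hπ₀ : Prime π₀)
    (hndvd₀ : ¬ π₀ ∣ t₀) (φ₀ : R₀ →+* FL L (M * q))
    (hdense : ∀ x : FL L (M * q), (valZero A π M q hdeg hq hqM hrk hπ).valuation x = 1 →
      ∃ r1 ∈ φ₀.range, ∃ r2 ∈ φ₀.range, (valZero A π M q hdeg hq hqM hrk hπ).valuation r1 = 1 ∧
        (valZero A π M q hdeg hq hqM hrk hπ).valuation r2 = 1 ∧
        (valZero A π M q hdeg hq hqM hrk hπ).valuation (x * r2 - r1) < 1)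
    (hn3 : ∀ r : R₀, ¬ π₀ ∣ r →
      ordAt (valZero A π M q hdeg hq hqM hrk hπ) (redSetupZero H hA).res P (φ₀ r) =
        ordQ π₀ t₀ r)
    (hVW : ∀ e : FL L (M * q), algebraMap (FL L (M * q)) E e ∈ W ↔
      e ∈ valZero A π M q hdeg hq hqM hrk hπ)
    (ι : E0 →+* E) {π' t : Rn} (hmaxn : maximalIdeal Rn = Ideal.span {π', t})
    (hπ' : Prime π') (hndvd : ¬ π' ∣ t)
    (hφW : ∀ r : Rn, ι (algebraMap Rn E0 r) ∈ W)
    (hvπ : W.valuation (ι (algebraMap Rn E0 π')) < 1)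
    (hvt : W.valuation (ι (algebraMap Rn E0 t)) = 1)
    (ψ : R₀ →+* Rn) (hψπ : ψ π₀ = π') (hψt : ψ t₀ = t)
    (hcomp : ∀ r : R₀, algebraMap (FL L (M * q)) E (φ₀ r) = ι (algebraMap Rn E0 (ψ r)))
    {θn : Rn} (hθ : ∀ g : G, g • ι (algebraMap Rn E0 θn) ∈ W)
    (hθu : ∀ g g' : G, g ≠ g' →
      W.valuation (g • ι (algebraMap Rn E0 θn) - g' • ι (algebraMap Rn E0 θn)) = 1)
    {c₀ : L} (hc₀ : c₀ ≠ 0)
    (hπc : ι (algebraMap Rn E0 π') =
      algebraMap (FL L (M * q)) E (algebraMap L (FL L (M * q)) c₀))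
    {x : Pic0 L (FL L (M * q))} {fx : FL L (M * q)} (hfx : IsKummerRep p x fx) {c : L}
    (hc : c ≠ 0) {g : E} (hg : g ≠ 0) {ft : E0}
    (hftx : ι ft = algebraMap (FL L (M * q)) E (algebraMap L (FL L (M * q)) c) *
      algebraMap (FL L (M * q)) E fx * g ^ p) :
    ∀ (A' : ℤ) (ε : Rnˣ) (g1 g2 : Rn), ¬ π' ∣ g1 → ¬ π' ∣ g2 →
      ft = algebraMap Rn E0 ε * algebraMap Rn E0 π' ^ A' *
        (algebraMap Rn E0 g1 / algebraMap Rn E0 g2) ^ p →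
      slopeZero H hA p x P = 0 :=
  hsl_smooth_nodeOrd (G := G) (redSetupZero H hA) P (flatDataMq H hA hp).S₂ hmax₀ hπ₀ hndvd₀ φ₀
    hdense hn3 hVW ι hmaxn hπ' hndvd hφW hvπ hvt ψ hψπ hψt hcomp hθ hθu hc₀ hπc hfx hc hg hftx

end LevelMq

/-! ### The `ℚ̄`-instance (`Geo/Vocab`) -/

section QbInstance

open ModularCurve IntermediateField
open Fermat.Agent.Gateway.Hecke Fermat.Agent.Gateway.ESC
open Fermat.Agent.Gateway.Red Fermat.Agent.Gateway.GoodRed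
open Fermat.Agent.S34x.TwoVal Fermat.Agent.S34x.C0two
open Fermat.Agent.S34x.Inst.RedSetupInst Fermat.Agent.S34x.Inst
open Fermat.Agent.Gateway.S31Red
open Fermat.Agent.S33x.KummerPn
open Fermat.Agent.S40x.Slope.InstMq Fermat.Agent.S40x.Geo.Vocab

local notation "Qb" => AlgebraicClosure ℚ

variable (M₀ p : ℕ) [NeZero M₀] [NeZero p] (hp : p.Prime) (hpM : ¬ p ∣ M₀)
  (B : ValuationSubring Qb) (hB : B.LiesOverPrime p)
  [Algebra.IsAlgebraic ℚ Qb] [Fact p.Prime] [IsAlgClosed (ResidueField B)]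
  [CharP (ResidueField B) p]

/-- `slopeInfQb` unfolded (the instance arguments of the right-hand side are propositions). -/
theorem slopeInfQb_eq_slopeInf (x : JZero (M₀ * p)) (P : Place (kB B) (FkB B M₀)) :
    slopeInfQb M₀ p hp hpM B hB x P = slopeInf (ResidueInst.residueFacts B (residue B) M₀ p (hdegQb M₀ p hp hpM) hp hpM
      (FinalBase.rank_one B hp hB) (FinalBase.residue_surjective B)) hB p x P := rfl

/-- `slopeZeroQb` unfolded. -/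
theorem slopeZeroQb_eq_slopeZero (x : JZero (M₀ * p)) (P : Place (kB B) (FkB B M₀)) :
    slopeZeroQb M₀ p hp hpM B hB x P = slopeZero (ResidueInst.residueFacts B (residue B) M₀ p (hdegQb M₀ p hp hpM) hp hpM
      (FinalBase.rank_one B hp hB) (FinalBase.residue_surjective B)) hB p x P := rfl

variable {E : Type*} [Field E] [Algebra (FL Qb (M₀ * p)) E] {W : ValuationSubring E}
variable {G : Type*} [Group G] [Fintype G] [MulSemiringAction G E]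
  [SMulCommClass G (FL Qb (M₀ * p)) E] [Algebra.IsInvariant (FL Qb (M₀ * p)) E G]
variable {E0 : Type*} [Field E0] {Rn : Type*} [CommRing Rn] [IsDomain Rn]
  [IsNoetherianRing Rn] [IsLocalRing Rn] [Algebra Rn E0] [IsFractionRing Rn E0]
variable {R₀ : Type*} [CommRing R₀] [IsDomain R₀] [IsNoetherianRing R₀] [IsLocalRing R₀]

/-- **(S), node, `∞`-side, `ℚ̄`-instance**: `hsl` of `AsmNode.NodeOver.slope_eq` / `c3_pair` for
`n := slopeInfQb .. x P`. -/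
theorem hsl_inf_node_Qb (P : Place (kB B) (FkB B M₀))
    {u₀ u₀' : R₀} (hmax₀ : maximalIdeal R₀ = Ideal.span {u₀, u₀'}) (hu₀ : Prime u₀)
    (hndvd₀ : ¬ u₀ ∣ u₀')
    (φ₀ : R₀ →+* (FL Qb (M₀ * p)))
    (hdense : ∀ x : (FL Qb (M₀ * p)), (valInfty B (residue B) M₀ p (FinalBase.rank_one B hp hB) (FinalBase.residue_surjective B) hpM).valuation x = 1 →
      ∃ r1 ∈ φ₀.range, ∃ r2 ∈ φ₀.range, (valInfty B (residue B) M₀ p (FinalBase.rank_one B hp hB) (FinalBase.residue_surjective B) hpM).valuation r1 = 1 ∧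
        (valInfty B (residue B) M₀ p (FinalBase.rank_one B hp hB) (FinalBase.residue_surjective B) hpM).valuation r2 = 1 ∧
        (valInfty B (residue B) M₀ p (FinalBase.rank_one B hp hB) (FinalBase.residue_surjective B) hpM).valuation (x * r2 - r1) < 1)
    (hn3 : ∀ r : R₀, ¬ u₀ ∣ r →
      ordAt (valInfty B (residue B) M₀ p (FinalBase.rank_one B hp hB) (FinalBase.residue_surjective B) hpM) (redSetupInfty (ResidueInst.residueFacts B (residue B) M₀ p (hdegQb M₀ p hp hpM) hp hpM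
      (FinalBase.rank_one B hp hB) (FinalBase.residue_surjective B)) hB).res P (φ₀ r) = ordQ u₀ u₀' r)
    (hVW : ∀ e : (FL Qb (M₀ * p)), algebraMap (FL Qb (M₀ * p)) E e ∈ W ↔
      e ∈ (valInfty B (residue B) M₀ p (FinalBase.rank_one B hp hB) (FinalBase.residue_surjective B) hpM))
    (ι : E0 →+* E) {u u' : Rn} (hmaxn : maximalIdeal Rn = Ideal.span {u, u'})
    (hu : Prime u) (hndvd : ¬ u ∣ u')
    (hφW : ∀ r : Rn, ι (algebraMap Rn E0 r) ∈ W)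
    (hvu : W.valuation (ι (algebraMap Rn E0 u)) < 1)
    (hvu' : W.valuation (ι (algebraMap Rn E0 u')) = 1)
    (ψ : R₀ →+* Rn) (hψu : ψ u₀ = u) (hψu' : ψ u₀' = u')
    (hcomp : ∀ r : R₀, algebraMap (FL Qb (M₀ * p)) E (φ₀ r) = ι (algebraMap Rn E0 (ψ r)))
    {θn : Rn} (hθ : ∀ g : G, g • ι (algebraMap Rn E0 θn) ∈ W)
    (hθu : ∀ g g' : G, g ≠ g' →
      W.valuation (g • ι (algebraMap Rn E0 θn) - g' • ι (algebraMap Rn E0 θn)) = 1)
    {Ψ : Rnˣ} {c₀ : Qb} (hc₀ : c₀ ≠ 0)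
    (hrel : ι (algebraMap Rn E0 (u * u')) =
      algebraMap (FL Qb (M₀ * p)) E (algebraMap Qb (FL Qb (M₀ * p)) c₀) * ι (algebraMap Rn E0 Ψ))
    {x : JZero (M₀ * p)} {fx : (FL Qb (M₀ * p))} (hfx : IsKummerRep p x fx) {c : Qb}
    (hc : c ≠ 0) {g : E} (hg : g ≠ 0) {ft : E0}
    (hftx : ι ft = algebraMap (FL Qb (M₀ * p)) E (algebraMap Qb (FL Qb (M₀ * p)) c) *
      algebraMap (FL Qb (M₀ * p)) E fx * g ^ p) :
    ∀ (A' B' : ℤ) (ε : Rnˣ) (g1 g2 : Rn), ¬ u ∣ g1 → ¬ u' ∣ g1 → ¬ u ∣ g2 → ¬ u' ∣ g2 →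
      ft = algebraMap Rn E0 ε * algebraMap Rn E0 u ^ A' * algebraMap Rn E0 u' ^ B' *
        (algebraMap Rn E0 g1 / algebraMap Rn E0 g2) ^ p →
      slopeInfQb M₀ p hp hpM B hB x P = ((B' - A' : ℤ) : ZMod p) :=
  hsl_inf_node_Mq (G := G) (ResidueInst.residueFacts B (residue B) M₀ p (hdegQb M₀ p hp hpM) hp hpM
      (FinalBase.rank_one B hp hB) (FinalBase.residue_surjective B)) hB hp.pos P hmax₀ hu₀ hndvd₀ φ₀ hdense hn3 hVW ι hmaxn hu hndvd hφW hvu hvu' ψ hψu hψu' hcomp hθ hθu hc₀ hrel hfx hc hg hftx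

/-- **(S), node, `0`-side twin, `ℚ̄`-instance**: `n := slopeZeroQb .. x P`, factorisation in the
standard order, conclusion `A - B` (so `- slopeZeroQb` satisfies the `hsl` of `c3_pair`). -/
theorem hsl_zero_node_Qb (P : Place (kB B) (FkB B M₀))
    {u₀ u₀' : R₀} (hmax₀ : maximalIdeal R₀ = Ideal.span {u₀, u₀'}) (hu₀' : Prime u₀')
    (hndvd₀ : ¬ u₀' ∣ u₀)
    (φ₀ : R₀ →+* (FL Qb (M₀ * p)))
    (hdense : ∀ x : (FL Qb (M₀ * p)), (valZero B (residue B) M₀ p (hdegQb M₀ p hp hpM) hp hpM (FinalBase.rank_one B hp hB)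
        (FinalBase.residue_surjective B)).valuation x = 1 →
      ∃ r1 ∈ φ₀.range, ∃ r2 ∈ φ₀.range, (valZero B (residue B) M₀ p (hdegQb M₀ p hp hpM) hp hpM (FinalBase.rank_one B hp hB)
        (FinalBase.residue_surjective B)).valuation r1 = 1 ∧
        (valZero B (residue B) M₀ p (hdegQb M₀ p hp hpM) hp hpM (FinalBase.rank_one B hp hB)
        (FinalBase.residue_surjective B)).valuation r2 = 1 ∧
        (valZero B (residue B) M₀ p (hdegQb M₀ p hp hpM) hp hpM (FinalBase.rank_one B hp hB)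
        (FinalBase.residue_surjective B)).valuation (x * r2 - r1) < 1)
    (hn3 : ∀ r : R₀, ¬ u₀' ∣ r →
      ordAt (valZero B (residue B) M₀ p (hdegQb M₀ p hp hpM) hp hpM (FinalBase.rank_one B hp hB)
        (FinalBase.residue_surjective B)) (redSetupZero (ResidueInst.residueFacts B (residue B) M₀ p (hdegQb M₀ p hp hpM) hp hpM
      (FinalBase.rank_one B hp hB) (FinalBase.residue_surjective B)) hB).res P (φ₀ r) = ordQ u₀' u₀ r)
    (hVW : ∀ e : (FL Qb (M₀ * p)), algebraMap (FL Qb (M₀ * p)) E e ∈ W ↔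
      e ∈ (valZero B (residue B) M₀ p (hdegQb M₀ p hp hpM) hp hpM (FinalBase.rank_one B hp hB)
        (FinalBase.residue_surjective B)))
    (ι : E0 →+* E) {u u' : Rn} (hmaxn : maximalIdeal Rn = Ideal.span {u, u'})
    (hu' : Prime u') (hndvd : ¬ u' ∣ u)
    (hφW : ∀ r : Rn, ι (algebraMap Rn E0 r) ∈ W)
    (hvu' : W.valuation (ι (algebraMap Rn E0 u')) < 1)
    (hvu : W.valuation (ι (algebraMap Rn E0 u)) = 1)
    (ψ : R₀ →+* Rn) (hψu : ψ u₀ = u) (hψu' : ψ u₀' = u')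
    (hcomp : ∀ r : R₀, algebraMap (FL Qb (M₀ * p)) E (φ₀ r) = ι (algebraMap Rn E0 (ψ r)))
    {θn : Rn} (hθ : ∀ g : G, g • ι (algebraMap Rn E0 θn) ∈ W)
    (hθu : ∀ g g' : G, g ≠ g' →
      W.valuation (g • ι (algebraMap Rn E0 θn) - g' • ι (algebraMap Rn E0 θn)) = 1)
    {Ψ : Rnˣ} {c₀ : Qb} (hc₀ : c₀ ≠ 0)
    (hrel : ι (algebraMap Rn E0 (u * u')) =
      algebraMap (FL Qb (M₀ * p)) E (algebraMap Qb (FL Qb (M₀ * p)) c₀) * ι (algebraMap Rn E0 Ψ))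
    {x : JZero (M₀ * p)} {fx : (FL Qb (M₀ * p))} (hfx : IsKummerRep p x fx) {c : Qb}
    (hc : c ≠ 0) {g : E} (hg : g ≠ 0) {ft : E0}
    (hftx : ι ft = algebraMap (FL Qb (M₀ * p)) E (algebraMap Qb (FL Qb (M₀ * p)) c) *
      algebraMap (FL Qb (M₀ * p)) E fx * g ^ p) :
    ∀ (A' B' : ℤ) (ε : Rnˣ) (g1 g2 : Rn), ¬ u ∣ g1 → ¬ u' ∣ g1 → ¬ u ∣ g2 → ¬ u' ∣ g2 →
      ft = algebraMap Rn E0 ε * algebraMap Rn E0 u ^ A' * algebraMap Rn E0 u' ^ B' *
        (algebraMap Rn E0 g1 / algebraMap Rn E0 g2) ^ p →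
      slopeZeroQb M₀ p hp hpM B hB x P = ((A' - B' : ℤ) : ZMod p) :=
  hsl_zero_node_Mq (G := G) (ResidueInst.residueFacts B (residue B) M₀ p (hdegQb M₀ p hp hpM) hp hpM
      (FinalBase.rank_one B hp hB) (FinalBase.residue_surjective B)) hB hp.pos P hmax₀ hu₀' hndvd₀ φ₀ hdense hn3 hVW ι hmaxn hu' hndvd hφW hvu' hvu ψ hψu hψu' hcomp hθ hθu hc₀ hrel hfx hc hg hftx

/-- **(S), smooth point or cusp, `∞`-side, `ℚ̄`-instance**: conclusion `slopeInfQb .. x P = 0`. -/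
theorem hsl_inf_smooth_Qb (P : Place (kB B) (FkB B M₀))
    {π₀ t₀ : R₀} (hmax₀ : maximalIdeal R₀ = Ideal.span {π₀, t₀}) (hπ₀ : Prime π₀)
    (hndvd₀ : ¬ π₀ ∣ t₀) (φ₀ : R₀ →+* (FL Qb (M₀ * p)))
    (hdense : ∀ x : (FL Qb (M₀ * p)), (valInfty B (residue B) M₀ p (FinalBase.rank_one B hp hB) (FinalBase.residue_surjective B) hpM).valuation x = 1 →
      ∃ r1 ∈ φ₀.range, ∃ r2 ∈ φ₀.range, (valInfty B (residue B) M₀ p (FinalBase.rank_one B hp hB) (FinalBase.residue_surjective B) hpM).valuation r1 = 1 ∧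
        (valInfty B (residue B) M₀ p (FinalBase.rank_one B hp hB) (FinalBase.residue_surjective B) hpM).valuation r2 = 1 ∧
        (valInfty B (residue B) M₀ p (FinalBase.rank_one B hp hB) (FinalBase.residue_surjective B) hpM).valuation (x * r2 - r1) < 1)
    (hn3 : ∀ r : R₀, ¬ π₀ ∣ r →
      ordAt (valInfty B (residue B) M₀ p (FinalBase.rank_one B hp hB) (FinalBase.residue_surjective B) hpM) (redSetupInfty (ResidueInst.residueFacts B (residue B) M₀ p (hdegQb M₀ p hp hpM) hp hpM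
      (FinalBase.rank_one B hp hB) (FinalBase.residue_surjective B)) hB).res P (φ₀ r) = ordQ π₀ t₀ r)
    (hVW : ∀ e : (FL Qb (M₀ * p)), algebraMap (FL Qb (M₀ * p)) E e ∈ W ↔
      e ∈ (valInfty B (residue B) M₀ p (FinalBase.rank_one B hp hB) (FinalBase.residue_surjective B) hpM))
    (ι : E0 →+* E) {π' t : Rn} (hmaxn : maximalIdeal Rn = Ideal.span {π', t})
    (hπ' : Prime π') (hndvd : ¬ π' ∣ t)
    (hφW : ∀ r : Rn, ι (algebraMap Rn E0 r) ∈ W)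
    (hvπ : W.valuation (ι (algebraMap Rn E0 π')) < 1)
    (hvt : W.valuation (ι (algebraMap Rn E0 t)) = 1)
    (ψ : R₀ →+* Rn) (hψπ : ψ π₀ = π') (hψt : ψ t₀ = t)
    (hcomp : ∀ r : R₀, algebraMap (FL Qb (M₀ * p)) E (φ₀ r) = ι (algebraMap Rn E0 (ψ r)))
    {θn : Rn} (hθ : ∀ g : G, g • ι (algebraMap Rn E0 θn) ∈ W)
    (hθu : ∀ g g' : G, g ≠ g' →
      W.valuation (g • ι (algebraMap Rn E0 θn) - g' • ι (algebraMap Rn E0 θn)) = 1)
    {c₀ : Qb} (hc₀ : c₀ ≠ 0)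
    (hπc : ι (algebraMap Rn E0 π') =
      algebraMap (FL Qb (M₀ * p)) E (algebraMap Qb (FL Qb (M₀ * p)) c₀))
    {x : JZero (M₀ * p)} {fx : (FL Qb (M₀ * p))} (hfx : IsKummerRep p x fx) {c : Qb}
    (hc : c ≠ 0) {g : E} (hg : g ≠ 0) {ft : E0}
    (hftx : ι ft = algebraMap (FL Qb (M₀ * p)) E (algebraMap Qb (FL Qb (M₀ * p)) c) *
      algebraMap (FL Qb (M₀ * p)) E fx * g ^ p) :
    ∀ (A' : ℤ) (ε : Rnˣ) (g1 g2 : Rn), ¬ π' ∣ g1 → ¬ π' ∣ g2 →
      ft = algebraMap Rn E0 ε * algebraMap Rn E0 π' ^ A' *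
        (algebraMap Rn E0 g1 / algebraMap Rn E0 g2) ^ p →
      slopeInfQb M₀ p hp hpM B hB x P = 0 :=
  hsl_inf_smooth_Mq (G := G) (ResidueInst.residueFacts B (residue B) M₀ p (hdegQb M₀ p hp hpM) hp hpM
      (FinalBase.rank_one B hp hB) (FinalBase.residue_surjective B)) hB hp.pos P hmax₀ hπ₀ hndvd₀ φ₀ hdense hn3 hVW ι hmaxn hπ' hndvd hφW hvπ hvt ψ hψπ hψt hcomp hθ hθu hc₀ hπc hfx hc hg hftx

/-- **(S), smooth point or cusp, `0`-side, `ℚ̄`-instance**: conclusion `slopeZeroQb .. x P = 0`. -/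
theorem hsl_zero_smooth_Qb (P : Place (kB B) (FkB B M₀))
    {π₀ t₀ : R₀} (hmax₀ : maximalIdeal R₀ = Ideal.span {π₀, t₀}) (hπ₀ : Prime π₀)
    (hndvd₀ : ¬ π₀ ∣ t₀) (φ₀ : R₀ →+* (FL Qb (M₀ * p)))
    (hdense : ∀ x : (FL Qb (M₀ * p)), (valZero B (residue B) M₀ p (hdegQb M₀ p hp hpM) hp hpM (FinalBase.rank_one B hp hB)
        (FinalBase.residue_surjective B)).valuation x = 1 →
      ∃ r1 ∈ φ₀.range, ∃ r2 ∈ φ₀.range, (valZero B (residue B) M₀ p (hdegQb M₀ p hp hpM) hp hpM (FinalBase.rank_one B hp hB)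
        (FinalBase.residue_surjective B)).valuation r1 = 1 ∧
        (valZero B (residue B) M₀ p (hdegQb M₀ p hp hpM) hp hpM (FinalBase.rank_one B hp hB)
        (FinalBase.residue_surjective B)).valuation r2 = 1 ∧
        (valZero B (residue B) M₀ p (hdegQb M₀ p hp hpM) hp hpM (FinalBase.rank_one B hp hB)
        (FinalBase.residue_surjective B)).valuation (x * r2 - r1) < 1)
    (hn3 : ∀ r : R₀, ¬ π₀ ∣ r →
      ordAt (valZero B (residue B) M₀ p (hdegQb M₀ p hp hpM) hp hpM (FinalBase.rank_one B hp hB)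
        (FinalBase.residue_surjective B)) (redSetupZero (ResidueInst.residueFacts B (residue B) M₀ p (hdegQb M₀ p hp hpM) hp hpM
      (FinalBase.rank_one B hp hB) (FinalBase.residue_surjective B)) hB).res P (φ₀ r) = ordQ π₀ t₀ r)
    (hVW : ∀ e : (FL Qb (M₀ * p)), algebraMap (FL Qb (M₀ * p)) E e ∈ W ↔
      e ∈ (valZero B (residue B) M₀ p (hdegQb M₀ p hp hpM) hp hpM (FinalBase.rank_one B hp hB)
        (FinalBase.residue_surjective B)))
    (ι : E0 →+* E) {π' t : Rn} (hmaxn : maximalIdeal Rn = Ideal.span {π', t})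
    (hπ' : Prime π') (hndvd : ¬ π' ∣ t)
    (hφW : ∀ r : Rn, ι (algebraMap Rn E0 r) ∈ W)
    (hvπ : W.valuation (ι (algebraMap Rn E0 π')) < 1)
    (hvt : W.valuation (ι (algebraMap Rn E0 t)) = 1)
    (ψ : R₀ →+* Rn) (hψπ : ψ π₀ = π') (hψt : ψ t₀ = t)
    (hcomp : ∀ r : R₀, algebraMap (FL Qb (M₀ * p)) E (φ₀ r) = ι (algebraMap Rn E0 (ψ r)))
    {θn : Rn} (hθ : ∀ g : G, g • ι (algebraMap Rn E0 θn) ∈ W)
    (hθu : ∀ g g' : G, g ≠ g' →
      W.valuation (g • ι (algebraMap Rn E0 θn) - g' • ι (algebraMap Rn E0 θn)) = 1)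
    {c₀ : Qb} (hc₀ : c₀ ≠ 0)
    (hπc : ι (algebraMap Rn E0 π') =
      algebraMap (FL Qb (M₀ * p)) E (algebraMap Qb (FL Qb (M₀ * p)) c₀))
    {x : JZero (M₀ * p)} {fx : (FL Qb (M₀ * p))} (hfx : IsKummerRep p x fx) {c : Qb}
    (hc : c ≠ 0) {g : E} (hg : g ≠ 0) {ft : E0}
    (hftx : ι ft = algebraMap (FL Qb (M₀ * p)) E (algebraMap Qb (FL Qb (M₀ * p)) c) *
      algebraMap (FL Qb (M₀ * p)) E fx * g ^ p) :
    ∀ (A' : ℤ) (ε : Rnˣ) (g1 g2 : Rn), ¬ π' ∣ g1 → ¬ π' ∣ g2 →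
      ft = algebraMap Rn E0 ε * algebraMap Rn E0 π' ^ A' *
        (algebraMap Rn E0 g1 / algebraMap Rn E0 g2) ^ p →
      slopeZeroQb M₀ p hp hpM B hB x P = 0 :=
  hsl_zero_smooth_Mq (G := G) (ResidueInst.residueFacts B (residue B) M₀ p (hdegQb M₀ p hp hpM) hp hpM
      (FinalBase.rank_one B hp hB) (FinalBase.residue_surjective B)) hB hp.pos P hmax₀ hπ₀ hndvd₀ φ₀ hdense hn3 hVW ι hmaxn hπ' hndvd hφW hvπ hvt ψ hψπ hψt hcomp hθ hθu hc₀ hπc hfx hc hg hftx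

end QbInstance

end Fermat.Agent.S40x.R2.Asm.SlopeInst
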