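/-
helper76 (P-S44, block C3, row (S) SLOPE of C3-ASM v2; requested by helper12): the DENSITY
DISCHARGE for `R2/Asm/SlopeInst`.

The level-`(M q)` theorems of `R2/Asm/SlopeInst` take, for the embedding `φ₀ : R₀ →+* FL Qbar (M q)`
of a downstairs node / smooth-point ring, the hypothesis

  `hdense : ∀ x, O.valuation x = 1 → ∃ r1 ∈ φ₀.range, ∃ r2 ∈ φ₀.range, O.valuation r1 = 1 ∧
      O.valuation r2 = 1 ∧ O.valuation (x * r2 - r1) < 1`        (`O = valInfty` resp. `valZero`).

Here it is derived, in the concrete variable block of `Node/Dense` / `Node/SideDatumMq`, from the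
CONTAINMENT hypothesis delivered by (N) `Node/Export`:

  `hB : ∀ f, f ∈ fixedAlg (inertiaAct P (M q)) (BxAlg C) → f ∈ φ₀.range`

(resp. the `BooAlg C` / `BzeroAlg C` variants for the cusps of the two half-charts), by helper79's
landed `Node/Dense.dense_val{Infty,Zero}_{bx,boo,bzero}_Mq`.

* `hdense_valInfty_of_contains_bx`, `hdense_valZero_of_contains_bx` and the `_boo`, `_bzero`
  variants : the standalone statements (`φ₀` ANY ring homomorphism into `FL Qbar (M q)`);
* `sideDatum{Infty,Zero}_range_{bx,boo,bzero}` : the corresponding side data (helper41's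
  `Valuation` form) for `R' = φ₀.range` (from `Node/SideDatumMq`).
-/
import Fermat.Agent.S40x.Node.SideDatumMq

set_option autoImplicit false
set_option linter.unusedSectionVars false
set_option linter.style.haveILetI false

noncomputable section

namespace Fermat.Agent.S40x.R2.Asm.SlopeInstDense

open AlgebraicCurve Module IntermediateField IsLocalRing
open Fermat.Agent.Gateway.C0 Fermat.Agent.S34x.C0two Fermat.Agent.S34x.Lattice2
open Fermat.Agent.S33x.Cech.CtxMq Fermat.Agent.S33x.H1.InstC1 Fermat.Agent.S33x.H1.InstC4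
open Fermat.Agent.S33x.W.InstW (fixedAlg mem_fixedAlg)
open ModularCurve
open Fermat.Agent.Gateway.Hecke Fermat.Agent.Gateway.ESC
open Fermat.Agent.Gateway.Red Fermat.Agent.Gateway.GoodRed
open Fermat.Agent.Gateway.GoodRed.ConjFamily
open Fermat.Agent.S34x.TwoVal
open Fermat.Agent.S34x.Inst.L2 Fermat.Agent.S34x.Inst.IsL2Inst
open Fermat.Agent.S34x.Inst.RedSetupInst Fermat.Agent.S34x.Inst.ElementYRed
open Fermat.Agent.S34x.Inst.ElementYInt Fermat.Agent.S34x.Inst.Charts
open Fermat.Agent.S34x.Inst Fermat.Agent.S34x.Inst.TheoremBMq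
open Fermat.Agent.S33x.H1.FixData2Final Fermat.Agent.S33x.H1.FixData2Inst
open Fermat.Agent.S40x.R2.Slope Fermat.Agent.S40x.Node.SideDatumInst Fermat.Agent.S40x.Node.Dense
open Fermat.Agent.S40x.Node.SideDatumMq

attribute [-instance] IsScalarTower.of_algHom

local notation "Qbar" => AlgebraicClosure ℚ

variable {P : ValuationSubring Qbar} {k : Type} [Field k] {π : P →+* k} [IsAlgClosed k]
variable {M q : ℕ} [NeZero M] [NeZero q] [Fact q.Prime] [CharP k q]
variable {hdeg : finrankAlong Qbar (heckeAlphaBar Qbar M q) = q + 1} {hq : q.Prime}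
  {hqM : ¬ q ∣ M}
variable {hrk : ∀ x ∈ maximalIdeal P, ∀ c : P, c ≠ 0 → ∃ j : ℕ, c ∣ x ^ j}
  {hπ : Function.Surjective π}
variable (H : ResidueFacts P π M q hdeg hq hqM hrk hπ) (hA : P.LiesOverPrime q)
  (x : LaurentSeries ℤ) (hx : coeffMap (Int.castRingHom Qbar) x ∈ FBar Qbar M)
  (Hx : GoodLevelFactsT P π M q hπ hqM (tInt M x hx))
variable {R₀ : Type*} [Ring R₀]

/-! ### The standalone density statements for `φ₀.range` -/

include Hx hA in
/-- `hdense` at `v_∞` for `φ₀.range`, from the containment of the fixed overlap ring `Bx`. -/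
theorem hdense_valInfty_of_contains_bx [PerfectRing k q] (C : ChartCoord (redSetup2 H hA))
    (hCt : C.t = tA M q x hx) (hxk : tbar k x ≠ 0) (hY : YFacts M q x hx)
    (φ₀ : R₀ →+* FL Qbar (M * q))
    (hB : ∀ f, f ∈ fixedAlg (inertiaAct P (M * q)) (BxAlg C) → f ∈ φ₀.range) :
    ∀ z : FL Qbar (M * q), (valInfty P π M q hrk hπ hqM).valuation z = 1 →
      ∃ r1 ∈ φ₀.range, ∃ r2 ∈ φ₀.range, (valInfty P π M q hrk hπ hqM).valuation r1 = 1 ∧
        (valInfty P π M q hrk hπ hqM).valuation r2 = 1 ∧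
        (valInfty P π M q hrk hπ hqM).valuation (z * r2 - r1) < 1 :=
  dense_valInfty_bx_Mq H hA x hx Hx C hCt hxk hY φ₀.range hB

include Hx hA in
/-- `hdense` at `v_0` for `φ₀.range`, from the containment of the fixed overlap ring `Bx`. -/
theorem hdense_valZero_of_contains_bx [PerfectRing k q] (C : ChartCoord (redSetup2 H hA))
    (hCt : C.t = tA M q x hx) (hxk : tbar k x ≠ 0) (hY : YFacts M q x hx)
    (φ₀ : R₀ →+* FL Qbar (M * q))
    (hB : ∀ f, f ∈ fixedAlg (inertiaAct P (M * q)) (BxAlg C) → f ∈ φ₀.range) :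
    ∀ z : FL Qbar (M * q), (valZero P π M q hdeg hq hqM hrk hπ).valuation z = 1 →
      ∃ r1 ∈ φ₀.range, ∃ r2 ∈ φ₀.range, (valZero P π M q hdeg hq hqM hrk hπ).valuation r1 = 1 ∧
        (valZero P π M q hdeg hq hqM hrk hπ).valuation r2 = 1 ∧
        (valZero P π M q hdeg hq hqM hrk hπ).valuation (z * r2 - r1) < 1 :=
  dense_valZero_bx_Mq H hA x hx Hx C hCt hxk hY φ₀.range hB

include Hx hA in
/-- `hdense` at `v_∞` for `φ₀.range`, from the containment of the fixed chart ring `B∞`. -/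
theorem hdense_valInfty_of_contains_boo [PerfectRing k q] (C : ChartCoord (redSetup2 H hA))
    (hCt : C.t = tA M q x hx) (hxk : tbar k x ≠ 0) (hY : YFacts M q x hx)
    (φ₀ : R₀ →+* FL Qbar (M * q))
    (hB : ∀ f, f ∈ fixedAlg (inertiaAct P (M * q)) (BooAlg C) → f ∈ φ₀.range) :
    ∀ z : FL Qbar (M * q), (valInfty P π M q hrk hπ hqM).valuation z = 1 →
      ∃ r1 ∈ φ₀.range, ∃ r2 ∈ φ₀.range, (valInfty P π M q hrk hπ hqM).valuation r1 = 1 ∧
        (valInfty P π M q hrk hπ hqM).valuation r2 = 1 ∧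
        (valInfty P π M q hrk hπ hqM).valuation (z * r2 - r1) < 1 :=
  dense_valInfty_boo_Mq H hA x hx Hx C hCt hxk hY φ₀.range hB

include Hx hA in
/-- `hdense` at `v_0` for `φ₀.range`, from the containment of the fixed chart ring `B∞`. -/
theorem hdense_valZero_of_contains_boo [PerfectRing k q] (C : ChartCoord (redSetup2 H hA))
    (hCt : C.t = tA M q x hx) (hxk : tbar k x ≠ 0) (hY : YFacts M q x hx)
    (φ₀ : R₀ →+* FL Qbar (M * q))
    (hB : ∀ f, f ∈ fixedAlg (inertiaAct P (M * q)) (BooAlg C) → f ∈ φ₀.range) :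
    ∀ z : FL Qbar (M * q), (valZero P π M q hdeg hq hqM hrk hπ).valuation z = 1 →
      ∃ r1 ∈ φ₀.range, ∃ r2 ∈ φ₀.range, (valZero P π M q hdeg hq hqM hrk hπ).valuation r1 = 1 ∧
        (valZero P π M q hdeg hq hqM hrk hπ).valuation r2 = 1 ∧
        (valZero P π M q hdeg hq hqM hrk hπ).valuation (z * r2 - r1) < 1 :=
  dense_valZero_boo_Mq H hA x hx Hx C hCt hxk hY φ₀.range hB

include Hx hA in
/-- `hdense` at `v_∞` for `φ₀.range`, from the containment of the fixed chart ring `B₀`. -/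
theorem hdense_valInfty_of_contains_bzero [PerfectRing k q] (C : ChartCoord (redSetup2 H hA))
    (hCt : C.t = tA M q x hx) (hxk : tbar k x ≠ 0) (hY : YFacts M q x hx)
    (φ₀ : R₀ →+* FL Qbar (M * q))
    (hB : ∀ f, f ∈ fixedAlg (inertiaAct P (M * q)) (BzeroAlg C) → f ∈ φ₀.range) :
    ∀ z : FL Qbar (M * q), (valInfty P π M q hrk hπ hqM).valuation z = 1 →
      ∃ r1 ∈ φ₀.range, ∃ r2 ∈ φ₀.range, (valInfty P π M q hrk hπ hqM).valuation r1 = 1 ∧
        (valInfty P π M q hrk hπ hqM).valuation r2 = 1 ∧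
        (valInfty P π M q hrk hπ hqM).valuation (z * r2 - r1) < 1 :=
  dense_valInfty_bzero_Mq H hA x hx Hx C hCt hxk hY φ₀.range hB

include Hx hA in
/-- `hdense` at `v_0` for `φ₀.range`, from the containment of the fixed chart ring `B₀`. -/
theorem hdense_valZero_of_contains_bzero [PerfectRing k q] (C : ChartCoord (redSetup2 H hA))
    (hCt : C.t = tA M q x hx) (hxk : tbar k x ≠ 0) (hY : YFacts M q x hx)
    (φ₀ : R₀ →+* FL Qbar (M * q))
    (hB : ∀ f, f ∈ fixedAlg (inertiaAct P (M * q)) (BzeroAlg C) → f ∈ φ₀.range) :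
    ∀ z : FL Qbar (M * q), (valZero P π M q hdeg hq hqM hrk hπ).valuation z = 1 →
      ∃ r1 ∈ φ₀.range, ∃ r2 ∈ φ₀.range, (valZero P π M q hdeg hq hqM hrk hπ).valuation r1 = 1 ∧
        (valZero P π M q hdeg hq hqM hrk hπ).valuation r2 = 1 ∧
        (valZero P π M q hdeg hq hqM hrk hπ).valuation (z * r2 - r1) < 1 :=
  dense_valZero_bzero_Mq H hA x hx Hx C hCt hxk hY φ₀.range hB

/-! ### The side data for `R' = φ₀.range` (helper41's `Valuation` form) -/

include Hx hA in
/-- side datum at `v_∞` for the range of the embedding of a node ring. -/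
theorem sideDatumInfty_range_bx [PerfectRing k q] (C : ChartCoord (redSetup2 H hA))
    (hCt : C.t = tA M q x hx) (hxk : tbar k x ≠ 0) (hY : YFacts M q x hx)
    (P' : Place k (modularFunctionFieldFullC k M)) (φ₀ : R₀ →+* FL Qbar (M * q))
    (hB : ∀ f, f ∈ fixedAlg (inertiaAct P (M * q)) (BxAlg C) → f ∈ φ₀.range) :
    SideDatum (algebraMap Qbar (FL Qbar (M * q))) (valInfty P π M q hrk hπ hqM).valuation
      φ₀.range (ordRed (valInfty P π M q hrk hπ hqM) (resInfty H) P') :=
  sideDatumInfty_bx H hA x hx Hx C hCt hxk hY P' φ₀.range hB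

include Hx hA in
/-- side datum at `v_0` for the range of the embedding of a node ring. -/
theorem sideDatumZero_range_bx [PerfectRing k q] (C : ChartCoord (redSetup2 H hA))
    (hCt : C.t = tA M q x hx) (hxk : tbar k x ≠ 0) (hY : YFacts M q x hx)
    (P' : Place k (modularFunctionFieldFullC k M)) (φ₀ : R₀ →+* FL Qbar (M * q))
    (hB : ∀ f, f ∈ fixedAlg (inertiaAct P (M * q)) (BxAlg C) → f ∈ φ₀.range) :
    SideDatum (algebraMap Qbar (FL Qbar (M * q))) (valZero P π M q hdeg hq hqM hrk hπ).valuation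
      φ₀.range (ordRed (valZero P π M q hdeg hq hqM hrk hπ) (resZero H) P') :=
  sideDatumZero_bx H hA x hx Hx C hCt hxk hY P' φ₀.range hB

end Fermat.Agent.S40x.R2.Asm.SlopeInstDense
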